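import Mathlib

/-!
# The embedding of a totally complex number field

`emb F : F →+* (InfinitePlace F → ℂ)`; the image of `𝓞 F` is a lattice; approximation by
elements of `m • 𝓞 F`; finiteness of bounded sets of integers.
-/

namespace Fermat.Agent.LT

open NumberField NumberField.InfinitePlace Module Module.Free MeasureTheory

variable (F : Type*) [Field F]

/-- The embedding of `F` into the product of copies of `ℂ`, one for each infinite place. -/
noncomputable def emb : F →+* (InfinitePlace F → ℂ) := RingHom.pi fun w => w.embedding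

@[simp] theorem emb_apply (a : F) (w : InfinitePlace F) : emb F a w = w.embedding a := rfl

theorem norm_emb_apply (a : F) (w : InfinitePlace F) : ‖emb F a w‖ = w a := by
  rw [emb_apply, InfinitePlace.norm_embedding_eq]

variable [NumberField F]

theorem emb_injective : Function.Injective (emb F) := (emb F).injective

/-- A bounded set of elements with bounded denominators is finite. -/
theorem finite_of_bounded (C : ℝ) :
    {a : 𝓞 F | ∀ w : InfinitePlace F, w (a : F) ≤ C}.Finite := by
  have h := NumberField.Embeddings.finite_of_norm_le F ℂ C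
  refine Set.Finite.of_finite_image (f := fun a : 𝓞 F => (a : F)) (h.subset ?_)
    (fun a _ b _ hab => RingOfIntegers.ext hab)
  rintro _ ⟨a, ha, rfl⟩
  refine ⟨RingOfIntegers.isIntegral_coe a, fun φ => ?_⟩
  simpa using ha (InfinitePlace.mk φ)

variable [IsTotallyComplex F]

/-- For a totally complex field the mixed space is `ℂ^n`. -/
noncomputable def mixedEquiv : mixedEmbedding.mixedSpace F ≃ₗ[ℝ] (InfinitePlace F → ℂ) where
  toFun x w := x.2 ⟨w, IsTotallyComplex.isComplex w⟩
  map_add' _ _ := rfl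
  map_smul' _ _ := rfl
  invFun x := (fun w => (not_isReal_iff_isComplex.2 (IsTotallyComplex.isComplex w.1) w.2).elim,
    fun w => x w.1)
  left_inv x := by
    refine Prod.ext ?_ rfl
    funext w
    exact (not_isReal_iff_isComplex.2 (IsTotallyComplex.isComplex w.1) w.2).elim
  right_inv _ := rfl

omit [NumberField F] in
theorem mixedEquiv_mixedEmbedding (a : F) : mixedEquiv F (mixedEmbedding F a) = emb F a := rfl

/-- A real basis of `ℂ^n` which is an integral basis of the image of `𝓞 F`. -/
noncomputable def embBasis : Basis (ChooseBasisIndex ℤ (𝓞 F)) ℝ (InfinitePlace F → ℂ) :=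
  (mixedEmbedding.latticeBasis F).map (mixedEquiv F)

theorem embBasis_apply (i : ChooseBasisIndex ℤ (𝓞 F)) :
    embBasis F i = emb F (integralBasis F i) := by
  rw [embBasis, Basis.map_apply, mixedEmbedding.latticeBasis_apply, mixedEquiv_mixedEmbedding]

theorem mem_span_embBasis {x : InfinitePlace F → ℂ} :
    x ∈ Submodule.span ℤ (Set.range (embBasis F)) ↔ ∃ a : 𝓞 F, emb F a = x := by
  have h1 : Set.range (embBasis F) = (mixedEquiv F).toLinearMap.restrictScalars ℤ ''
      (Set.range (mixedEmbedding.latticeBasis F)) := by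
    rw [← Set.range_comp]; rfl
  rw [h1, ← Submodule.map_span]
  constructor
  · rintro ⟨y, hy, rfl⟩
    obtain ⟨a, rfl⟩ := (mixedEmbedding.mem_span_latticeBasis F).1 hy
    exact ⟨a, rfl⟩
  · rintro ⟨a, rfl⟩
    exact ⟨mixedEmbedding F a, (mixedEmbedding.mem_span_latticeBasis F).2 ⟨a, rfl⟩, rfl⟩

/-- Every point is close to an element of `m 𝓞 F`. -/
theorem exists_int_near (m : ℕ) (hm : m ≠ 0) : ∃ C : ℝ, 0 < C ∧ ∀ z : InfinitePlace F → ℂ,
    ∃ a : 𝓞 F, ∀ w : InfinitePlace F, ‖z w - m * w.embedding (a : F)‖ ≤ C := by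
  classical
  have hm' : (0 : ℝ) < m := by positivity
  refine ⟨m * (∑ i, ‖embBasis F i‖ + 1), by positivity, fun z => ?_⟩
  obtain ⟨a, ha⟩ := (mem_span_embBasis F).1 (ZSpan.floor (embBasis F) ((m : ℝ)⁻¹ • z)).2
  refine ⟨a, fun w => ?_⟩
  have h1 := ZSpan.norm_fract_le (K := ℝ) (embBasis F) ((m : ℝ)⁻¹ • z)
  have h2 : ZSpan.fract (embBasis F) ((m : ℝ)⁻¹ • z) = (m : ℝ)⁻¹ • z - emb F a := by
    rw [ZSpan.fract, ha]
  have h3 : z - (m : ℝ) • emb F a = (m : ℝ) • ZSpan.fract (embBasis F) ((m : ℝ)⁻¹ • z) := by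
    rw [h2, smul_sub, smul_smul, mul_inv_cancel₀ hm'.ne', one_smul]
  have h4 : ‖z - (m : ℝ) • emb F a‖ ≤ m * (∑ i, ‖embBasis F i‖ + 1) := by
    rw [h3, norm_smul, Real.norm_of_nonneg hm'.le]
    gcongr
    linarith
  refine le_trans ?_ ((norm_le_pi_norm _ w).trans h4)
  refine le_of_eq ?_
  simp [Pi.sub_apply, Pi.smul_apply, emb_apply]

end Fermat.Agent.LT
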