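import Mathlib
import Fermat.Agent.LT.H3.Basic

/-!
# Reduction theory: the Siegel property and the separation lemma (S47A, block B3: (R2), (R3))

`F` totally complex number field, `GL₂(F)` acting on `(H³)ⁿ`.  Everything only uses the integrality of
`m g_ij g_kl / det g` (which holds, with one `m`, for all `g` mapping one point of the discrete part to
another one), the formulas for the action on `H³` and the product formula.
-/

set_option autoImplicit false

open NumberField Complex Module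
open Fermat.Agent.LT.H3

noncomputable section

namespace Fermat.Agent.LT.Red

/-! ### One place -/

section OnePlace

variable (g : GL (Fin 2) ℂ) (P : H3)

theorem den_mul_y : den g P * (g • P).y = adet g * P.y := by
  rw [y_smul, mul_div_cancel₀ _ (den_pos g P).ne']

theorem normSq_c_mul_le : normSq (g 1 0) * (P.y * (g • P).y) ≤ adet g := by
  have h1 := den_mul_y g P
  have h2 : normSq (g 1 0) * P.y ^ 2 ≤ den g P := by
    unfold den
    have := normSq_nonneg (g 1 0 * P.z + g 1 1)
    linarith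
  have hy := P.y_pos
  have hy' := (g • P).y_pos
  have h3 : normSq (g 1 0) * P.y ^ 2 * (g • P).y ≤ adet g * P.y := by
    rw [← h1]
    exact mul_le_mul_of_nonneg_right h2 hy'.le
  have h4 : (normSq (g 1 0) * (P.y * (g • P).y)) * P.y ≤ adet g * P.y := by
    calc _ = normSq (g 1 0) * P.y ^ 2 * (g • P).y := by ring
      _ ≤ _ := h3
  exact le_of_mul_le_mul_right h4 hy

theorem normSq_row1_mul_le : normSq (g 1 0 * P.z + g 1 1) * (g • P).y ≤ adet g * P.y := by
  rw [← den_mul_y g P]
  apply mul_le_mul_of_nonneg_right _ (g • P).y_pos.le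
  unfold den
  have := mul_nonneg (normSq_nonneg (g 1 0)) (sq_nonneg P.y)
  linarith

theorem row0_eq : (normSq (g 0 0 * P.z + g 0 1) + normSq (g 0 0) * P.y ^ 2) * (g • P).y
    = (normSq (g • P).z + (g • P).y ^ 2) * (adet g * P.y) := by
  have hd := den_pos g P
  have h := normSq_num g P
  have hz : normSq (g • P).z = normSq (num g P) / den g P ^ 2 := by
    rw [z_smul, normSq_div, normSq_ofReal, pow_two]
  have hy : (g • P).y = adet g * P.y / den g P := y_smul g P
  rw [hz, hy]
  have h2 : normSq (g 0 0 * P.z + g 0 1) + normSq (g 0 0) * P.y ^ 2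
      = (normSq (num g P) + (adet g * P.y) ^ 2) / den g P := by
    rw [h, mul_div_cancel_left₀ _ hd.ne']
  rw [h2]
  field_simp

theorem normSq_le_two (x y : ℂ) : normSq y ≤ 2 * (normSq (x + y) + normSq x) := by
  have h : ‖y‖ ≤ ‖x + y‖ + ‖x‖ := by
    have := norm_sub_le (x + y) x
    simpa using this
  rw [normSq_eq_norm_sq, normSq_eq_norm_sq, normSq_eq_norm_sq]
  have h0 := norm_nonneg y
  nlinarith [sq_nonneg (‖x + y‖ - ‖x‖), norm_nonneg (x + y), norm_nonneg x]

variable {g P}

/-- If `P` and `g P` are in a fixed compact box then the entries of `g` are bounded by `|det g|^{1/2}`. -/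
theorem entries_le {c Y : ℝ} (hc : 1 ≤ c) (hz : ‖P.z‖ ≤ c) (hz' : ‖(g • P).z‖ ≤ c)
    (h1 : c⁻¹ ≤ P.y) (h2 : P.y ≤ Y) (h1' : c⁻¹ ≤ (g • P).y) (h2' : (g • P).y ≤ Y) (i j : Fin 2) :
    normSq (g i j) ≤ (2 * ((c ^ 2 + Y ^ 2) * (Y * c) + (c ^ 2 + Y ^ 2) * c ^ 4)
      + 2 * (Y * c + c ^ 4)) * adet g := by
  have hc0 : 0 < c := lt_of_lt_of_le one_pos hc
  have hA := adet_pos g
  have hy := P.y_pos
  have hy' := (g • P).y_pos
  have hY : 0 < Y := hy.trans_le h2
  have hcy : 1 ≤ c * P.y := by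
    have := mul_le_mul_of_nonneg_left h1 hc0.le
    rwa [mul_inv_cancel₀ hc0.ne'] at this
  have hcy' : 1 ≤ c * (g • P).y := by
    have := mul_le_mul_of_nonneg_left h1' hc0.le
    rwa [mul_inv_cancel₀ hc0.ne'] at this
  have hnz : normSq P.z ≤ c ^ 2 := by
    rw [normSq_eq_norm_sq]; exact pow_le_pow_left₀ (norm_nonneg _) hz 2
  have hnz' : normSq (g • P).z ≤ c ^ 2 := by
    rw [normSq_eq_norm_sq]; exact pow_le_pow_left₀ (norm_nonneg _) hz' 2
  have n10 := normSq_nonneg (g 1 0)
  have n00 := normSq_nonneg (g 0 0)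
  -- row 1
  have b10 : normSq (g 1 0) ≤ c ^ 2 * adet g := by
    have h := normSq_c_mul_le g P
    have : 1 ≤ c ^ 2 * (P.y * (g • P).y) := by nlinarith
    calc normSq (g 1 0) ≤ normSq (g 1 0) * (c ^ 2 * (P.y * (g • P).y)) :=
          le_mul_of_one_le_right n10 this
      _ = c ^ 2 * (normSq (g 1 0) * (P.y * (g • P).y)) := by ring
      _ ≤ c ^ 2 * adet g := mul_le_mul_of_nonneg_left h (sq_nonneg c)
  have br1 : normSq (g 1 0 * P.z + g 1 1) ≤ (Y * c) * adet g := by
    have h := normSq_row1_mul_le g P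
    have n := normSq_nonneg (g 1 0 * P.z + g 1 1)
    calc normSq (g 1 0 * P.z + g 1 1) ≤ normSq (g 1 0 * P.z + g 1 1) * (c * (g • P).y) :=
          le_mul_of_one_le_right n hcy'
      _ = c * (normSq (g 1 0 * P.z + g 1 1) * (g • P).y) := by ring
      _ ≤ c * (adet g * P.y) := mul_le_mul_of_nonneg_left h hc0.le
      _ ≤ c * (adet g * Y) := by gcongr
      _ = _ := by ring
  have b11 : normSq (g 1 1) ≤ 2 * (Y * c + c ^ 4) * adet g := by
    have h := normSq_le_two (g 1 0 * P.z) (g 1 1)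
    rw [normSq_mul] at h
    have h3 : normSq (g 1 0) * normSq P.z ≤ (c ^ 2 * adet g) * c ^ 2 :=
      mul_le_mul b10 hnz (normSq_nonneg _) (by positivity)
    nlinarith
  -- row 0
  have hr0 := row0_eq g P
  have hS : 0 ≤ normSq (g • P).z + (g • P).y ^ 2 := add_nonneg (normSq_nonneg _) (sq_nonneg _)
  have hS2 : normSq (g • P).z + (g • P).y ^ 2 ≤ c ^ 2 + Y ^ 2 :=
    add_le_add hnz' (pow_le_pow_left₀ hy'.le h2' 2)
  have b00 : normSq (g 0 0) ≤ ((c ^ 2 + Y ^ 2) * c ^ 2) * adet g := by
    have h3 : normSq (g 0 0) * P.y ^ 2 * (g • P).y ≤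
        (normSq (g • P).z + (g • P).y ^ 2) * (adet g * P.y) := by
      rw [← hr0]
      apply mul_le_mul_of_nonneg_right _ hy'.le
      have := normSq_nonneg (g 0 0 * P.z + g 0 1)
      linarith
    have h4 : normSq (g 0 0) * (P.y * (g • P).y) ≤ (normSq (g • P).z + (g • P).y ^ 2) * adet g := by
      have : (normSq (g 0 0) * (P.y * (g • P).y)) * P.y
          ≤ ((normSq (g • P).z + (g • P).y ^ 2) * adet g) * P.y := by linarith
      exact le_of_mul_le_mul_right this hy
    have : 1 ≤ c ^ 2 * (P.y * (g • P).y) := by nlinarith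
    calc normSq (g 0 0) ≤ normSq (g 0 0) * (c ^ 2 * (P.y * (g • P).y)) :=
          le_mul_of_one_le_right n00 this
      _ = c ^ 2 * (normSq (g 0 0) * (P.y * (g • P).y)) := by ring
      _ ≤ c ^ 2 * ((normSq (g • P).z + (g • P).y ^ 2) * adet g) :=
          mul_le_mul_of_nonneg_left h4 (sq_nonneg c)
      _ ≤ c ^ 2 * ((c ^ 2 + Y ^ 2) * adet g) := by gcongr
      _ = _ := by ring
  have br0 : normSq (g 0 0 * P.z + g 0 1) ≤ ((c ^ 2 + Y ^ 2) * (Y * c)) * adet g := by
    have h3 : normSq (g 0 0 * P.z + g 0 1) * (g • P).y ≤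
        (normSq (g • P).z + (g • P).y ^ 2) * (adet g * P.y) := by
      rw [← hr0]
      apply mul_le_mul_of_nonneg_right _ hy'.le
      have := mul_nonneg n00 (sq_nonneg P.y)
      linarith
    have n := normSq_nonneg (g 0 0 * P.z + g 0 1)
    calc normSq (g 0 0 * P.z + g 0 1) ≤ normSq (g 0 0 * P.z + g 0 1) * (c * (g • P).y) :=
          le_mul_of_one_le_right n hcy'
      _ = c * (normSq (g 0 0 * P.z + g 0 1) * (g • P).y) := by ring
      _ ≤ c * ((normSq (g • P).z + (g • P).y ^ 2) * (adet g * P.y)) :=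
          mul_le_mul_of_nonneg_left h3 hc0.le
      _ ≤ c * ((c ^ 2 + Y ^ 2) * (adet g * Y)) := by gcongr
      _ = _ := by ring
  have b01 : normSq (g 0 1) ≤
      2 * ((c ^ 2 + Y ^ 2) * (Y * c) + (c ^ 2 + Y ^ 2) * c ^ 4) * adet g := by
    have h := normSq_le_two (g 0 0 * P.z) (g 0 1)
    rw [normSq_mul] at h
    have h3 : normSq (g 0 0) * normSq P.z ≤ (((c ^ 2 + Y ^ 2) * c ^ 2) * adet g) * c ^ 2 :=
      mul_le_mul b00 hnz (normSq_nonneg _) (by positivity)
    nlinarith
  have hc2 : c ^ 2 ≤ c ^ 4 := pow_le_pow_right₀ hc (by norm_num)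
  have p1 : 0 ≤ (c ^ 2 + Y ^ 2) * (Y * c) * adet g := by positivity
  have p2 : 0 ≤ (c ^ 2 + Y ^ 2) * c ^ 4 * adet g := by positivity
  have p3 : 0 ≤ Y * c * adet g := by positivity
  have p4 : 0 ≤ c ^ 4 * adet g := by positivity
  have e2 : c ^ 2 * adet g ≤ c ^ 4 * adet g := mul_le_mul_of_nonneg_right hc2 hA.le
  have e3 : (c ^ 2 + Y ^ 2) * c ^ 2 * adet g ≤ (c ^ 2 + Y ^ 2) * c ^ 4 * adet g := by
    gcongr
  fin_cases i <;> fin_cases j
  · show normSq (g 0 0) ≤ _
    linarith
  · show normSq (g 0 1) ≤ _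
    linarith
  · show normSq (g 1 0) ≤ _
    linarith
  · show normSq (g 1 1) ≤ _
    linarith

/-- Separation at one place: `|c|² y(P) y(P') ≤ 2 U |det g|` if `cosh d(P, g P') ≤ U`. -/
theorem normSq_c_le_of_cu {g : GL (Fin 2) ℂ} {P P' : H3} {U : ℝ} (h : cu P (g • P') ≤ U) :
    normSq (g 1 0) * (P.y * P'.y) ≤ 2 * U * adet g := by
  have h1 : P.y ≤ 2 * U * (g • P').y := y_le_of_cu_le (by rw [cu_comm]; exact h)
  have h2 := normSq_c_mul_le g P'
  have hU : 0 ≤ U := (zero_le_one.trans (one_le_cu _ _)).trans h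
  calc normSq (g 1 0) * (P.y * P'.y) ≤ normSq (g 1 0) * ((2 * U * (g • P').y) * P'.y) := by
        have := normSq_nonneg (g 1 0)
        have := P'.y_pos
        gcongr
    _ = 2 * U * (normSq (g 1 0) * (P'.y * (g • P').y)) := by ring
    _ ≤ 2 * U * adet g := mul_le_mul_of_nonneg_left h2 (by positivity)

end OnePlace

/-! ### Number fields -/

section Global

variable {F : Type*} [Field F] [NumberField F]

/-- `g` at the place `w`. -/
abbrev gAt (w : InfinitePlace F) (g : GL (Fin 2) F) : GL (Fin 2) ℂ :=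
  Matrix.GeneralLinearGroup.map w.embedding g

omit [NumberField F] in
theorem gAt_apply (w : InfinitePlace F) (g : GL (Fin 2) F) (i j : Fin 2) :
    gAt w g i j = w.embedding (g i j) := rfl

omit [NumberField F] in
theorem normSq_embedding (w : InfinitePlace F) (x : F) : normSq (w.embedding x) = w x ^ 2 := by
  rw [normSq_eq_norm_sq, InfinitePlace.norm_embedding_eq]

omit [NumberField F] in
theorem adet_gAt (w : InfinitePlace F) (g : GL (Fin 2) F) :
    adet (gAt w g) = w (g : Matrix (Fin 2) (Fin 2) F).det := by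
  unfold adet
  rw [Matrix.det_fin_two, Matrix.det_fin_two, gAt_apply, gAt_apply, gAt_apply, gAt_apply,
    ← map_mul, ← map_mul, ← map_sub, InfinitePlace.norm_embedding_eq]

omit [NumberField F] in
theorem det_ne_zero' (g : GL (Fin 2) F) : (g : Matrix (Fin 2) (Fin 2) F).det ≠ 0 :=
  (Matrix.GeneralLinearGroup.det g).ne_zero

theorem one_le_prod [IsTotallyComplex F] {x : F} (hx : IsIntegral ℤ x) (h0 : x ≠ 0) :
    1 ≤ ∏ w : InfinitePlace F, w x := by
  have h := InfinitePlace.prod_eq_abs_norm x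
  have h1 : (1 : ℝ) ≤ |((Algebra.norm ℚ x : ℚ) : ℝ)| := by
    obtain ⟨y, rfl⟩ : ∃ y : 𝓞 F, (y : F) = x := ⟨⟨x, hx⟩, rfl⟩
    have hy : Algebra.norm ℤ y ≠ 0 := by
      rw [Algebra.norm_ne_zero_iff]
      intro h
      exact h0 (by rw [h]; simp)
    have h2 : (1 : ℤ) ≤ |Algebra.norm ℤ y| := Int.one_le_abs hy
    rw [← Algebra.coe_norm_int]
    exact_mod_cast h2
  have h2 : (∏ w : InfinitePlace F, w x) ^ 2 = ∏ w : InfinitePlace F, w x ^ w.mult := by
    rw [← Finset.prod_pow]
    refine Finset.prod_congr rfl fun w _ => ?_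
    rw [InfinitePlace.mult_isComplex ⟨w, IsTotallyComplex.isComplex w⟩]
  have h3 : 0 ≤ ∏ w : InfinitePlace F, w x := Finset.prod_nonneg fun w _ => apply_nonneg w x
  have h4 : (1 : ℝ) ≤ (∏ w : InfinitePlace F, w x) ^ 2 := by
    rw [h2, h]
    exact_mod_cast h1
  nlinarith

/-- **Separation (R3)**: if `cosh d(P_w, g P'_w) ≤ U` at all places and the product of the heights of `P` and
`P'` is large then `g` is upper triangular. -/
theorem c_eq_zero_of_large [IsTotallyComplex F] {m : F} {g : GL (Fin 2) F}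
    (hint : IsIntegral ℤ (m * (g 1 0 * g 1 0 / (g : Matrix (Fin 2) (Fin 2) F).det))) (hm : m ≠ 0)
    {P P' : InfinitePlace F → H3} {U : ℝ}
    (hcu : ∀ w, cu (P w) (gAt w g • P' w) ≤ U)
    (hlarge : ∏ w : InfinitePlace F, (2 * U * w m) < ∏ w : InfinitePlace F, ((P w).y * (P' w).y)) :
    g 1 0 = 0 := by
  by_contra hc
  have hd := det_ne_zero' g
  have h0 : m * (g 1 0 * g 1 0 / (g : Matrix (Fin 2) (Fin 2) F).det) ≠ 0 :=
    mul_ne_zero hm (div_ne_zero (mul_ne_zero hc hc) hd)
  have h1 := one_le_prod hint h0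
  have hpos : ∀ w : InfinitePlace F, 0 < (P w).y * (P' w).y := fun w =>
    mul_pos (P w).y_pos (P' w).y_pos
  have h2 : ∀ w : InfinitePlace F,
      w (m * (g 1 0 * g 1 0 / (g : Matrix (Fin 2) (Fin 2) F).det)) * ((P w).y * (P' w).y)
        ≤ 2 * U * w m := by
    intro w
    have h3 := normSq_c_le_of_cu (hcu w)
    rw [gAt_apply, normSq_embedding, adet_gAt] at h3
    have hwd : 0 < w (g : Matrix (Fin 2) (Fin 2) F).det := InfinitePlace.pos_iff.2 hd
    rw [map_mul, map_div₀, map_mul]
    have hwm : 0 ≤ w m := apply_nonneg w m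
    calc w m * (w (g 1 0) * w (g 1 0) / w (g : Matrix (Fin 2) (Fin 2) F).det)
          * ((P w).y * (P' w).y)
        = w m * (w (g 1 0) ^ 2 * ((P w).y * (P' w).y)) / w (g : Matrix (Fin 2) (Fin 2) F).det := by
          ring
      _ ≤ w m * (2 * U * w (g : Matrix (Fin 2) (Fin 2) F).det)
          / w (g : Matrix (Fin 2) (Fin 2) F).det := by gcongr
      _ = 2 * U * w m := by field_simp
  have h4 : (∏ w : InfinitePlace F, w (m * (g 1 0 * g 1 0 / (g : Matrix (Fin 2) (Fin 2) F).det)))
      * (∏ w : InfinitePlace F, ((P w).y * (P' w).y)) ≤ ∏ w : InfinitePlace F, (2 * U * w m) := by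
    rw [← Finset.prod_mul_distrib]
    refine Finset.prod_le_prod (fun w _ => ?_) fun w _ => h2 w
    exact mul_nonneg (apply_nonneg w _) (hpos w).le
  have h5 : 0 < ∏ w : InfinitePlace F, ((P w).y * (P' w).y) := Finset.prod_pos fun w _ => hpos w
  have h6 := mul_le_mul_of_nonneg_right h1 h5.le
  linarith

/-- The Siegel condition on a point of `(H³)ⁿ`. -/
def IsSiegel (c : ℝ) (P : InfinitePlace F → H3) : Prop :=
  ∀ w, ‖(P w).z‖ ≤ c ∧ c⁻¹ ≤ (P w).y ∧ ∀ w', (P w).y ≤ c * (P w').y

/-- If the product of all `y_w y'_w` is bounded then each `y_w` is bounded. -/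
theorem y_le_of_prod_le {c B : ℝ} (hc : 1 ≤ c) {P P' : InfinitePlace F → H3}
    (hP : IsSiegel c P) (hP' : IsSiegel c P')
    (h : ∏ w : InfinitePlace F, ((P w).y * (P' w).y) ≤ B) (w0 : InfinitePlace F) :
    (P w0).y ≤ B * c ^ (2 * Fintype.card (InfinitePlace F)) := by
  classical
  have hc0 : 0 < c := lt_of_lt_of_le one_pos hc
  have hci : 0 < c⁻¹ := inv_pos.2 hc0
  have h1 : ((P w0).y * c⁻¹) * (c⁻¹ * c⁻¹) ^ (Fintype.card (InfinitePlace F) - 1)
      ≤ ∏ w : InfinitePlace F, ((P w).y * (P' w).y) := by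
    rw [← Finset.mul_prod_erase Finset.univ _ (Finset.mem_univ w0)]
    apply mul_le_mul
    · exact mul_le_mul_of_nonneg_left (hP' w0).2.1 (P w0).y_pos.le
    · have : (c⁻¹ * c⁻¹) ^ (Fintype.card (InfinitePlace F) - 1)
          = ∏ _w ∈ Finset.univ.erase w0, (c⁻¹ * c⁻¹) := by
        rw [Finset.prod_const, Finset.card_erase_of_mem (Finset.mem_univ _), Finset.card_univ]
      rw [this]
      refine Finset.prod_le_prod (fun _ _ => by positivity) fun w _ => ?_
      exact mul_le_mul (hP w).2.1 (hP' w).2.1 hci.le (P w).y_pos.le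
    · positivity
    · exact mul_nonneg (P w0).y_pos.le (P' w0).y_pos.le
  have h2 : (P w0).y * (c⁻¹ ^ (2 * Fintype.card (InfinitePlace F))) ≤ B := by
    refine le_trans ?_ (h1.trans h)
    have hcard : 1 ≤ Fintype.card (InfinitePlace F) := Fintype.card_pos
    have hy := (P w0).y_pos
    have e : c⁻¹ ^ (2 * Fintype.card (InfinitePlace F))
        = c⁻¹ * (c⁻¹ * (c⁻¹ * c⁻¹) ^ (Fintype.card (InfinitePlace F) - 1)) := by
      rw [← pow_two c⁻¹, ← pow_mul, ← pow_succ', ← pow_succ']
      congr 1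
      omega
    rw [e]
    have hle : c⁻¹ * (c⁻¹ * (c⁻¹ * c⁻¹) ^ (Fintype.card (InfinitePlace F) - 1))
        ≤ 1 * (c⁻¹ * (c⁻¹ * c⁻¹) ^ (Fintype.card (InfinitePlace F) - 1)) := by
      apply mul_le_mul_of_nonneg_right (inv_le_one_of_one_le₀ hc) (by positivity)
    calc (P w0).y * (c⁻¹ * (c⁻¹ * (c⁻¹ * c⁻¹) ^ (Fintype.card (InfinitePlace F) - 1)))
        ≤ (P w0).y * (1 * (c⁻¹ * (c⁻¹ * c⁻¹) ^ (Fintype.card (InfinitePlace F) - 1))) :=
          mul_le_mul_of_nonneg_left hle hy.le
      _ = _ := by ring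
  have h3 := mul_le_mul_of_nonneg_right h2 (pow_pos hc0 (2 * Fintype.card (InfinitePlace F))).le
  rw [mul_assoc, ← mul_pow, inv_mul_cancel₀ hc0.ne', one_pow, mul_one] at h3
  exact h3

/-- A nonzero number `x` with `m x` integral and `|x|_w = 1 / r_w`, the `r_w` comparable: then the `r_w` are
bounded. -/
theorem ratio_le [IsTotallyComplex F] {c : ℝ} {m x : F} (hm : m ≠ 0) (hx : x ≠ 0)
    (hint : IsIntegral ℤ (m * x)) {r : InfinitePlace F → ℝ} (hr : ∀ w, w x * r w = 1)
    (hcomp : ∀ w w', r w ≤ c ^ 2 * r w') (w0 : InfinitePlace F) :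
    r w0 ≤ max 1 (∏ w : InfinitePlace F, (w m * c ^ 2)) := by
  have hxp : ∀ w : InfinitePlace F, 0 < w x := fun w => InfinitePlace.pos_iff.2 hx
  have hmp : ∀ w : InfinitePlace F, 0 < w m := fun w => InfinitePlace.pos_iff.2 hm
  have hrp : ∀ w, 0 < r w := by
    intro w
    by_contra h
    have := mul_nonpos_of_nonneg_of_nonpos (hxp w).le (not_lt.1 h)
    linarith [hr w]
  rcases le_or_gt (r w0) 1 with h1 | h1
  · exact h1.trans (le_max_left _ _)
  refine le_trans ?_ (le_max_right _ _)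
  have hone := one_le_prod hint (mul_ne_zero hm hx)
  have hle : ∏ w : InfinitePlace F, w (m * x) ≤ ∏ w : InfinitePlace F, (w m * c ^ 2 / r w0) := by
    refine Finset.prod_le_prod (fun w _ => apply_nonneg w _) fun w _ => ?_
    rw [map_mul, mul_div_assoc]
    refine mul_le_mul_of_nonneg_left ?_ (hmp w).le
    rw [le_div_iff₀ (hrp w0)]
    calc w x * r w0 ≤ w x * (c ^ 2 * r w) := mul_le_mul_of_nonneg_left (hcomp w0 w) (hxp w).le
      _ = c ^ 2 * (w x * r w) := by ring
      _ = c ^ 2 := by rw [hr w, mul_one]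
  have h2 : ∏ w : InfinitePlace F, (w m * c ^ 2 / r w0)
      = (∏ w : InfinitePlace F, (w m * c ^ 2)) / r w0 ^ Fintype.card (InfinitePlace F) := by
    rw [Finset.prod_div_distrib, Finset.prod_const, Finset.card_univ]
  have h3 := hone.trans hle
  rw [h2, le_div_iff₀ (pow_pos (hrp w0) _), one_mul] at h3
  refine le_trans ?_ h3
  exact le_self_pow₀ h1.le Fintype.card_ne_zero

/-- **Uniform bound of the entries** (Siegel property, first half). -/
theorem siegel_bound [IsTotallyComplex F] {c : ℝ} (hc : 1 ≤ c) {m : F} (hm : m ≠ 0) :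
    ∃ C : ℝ, ∀ (P : InfinitePlace F → H3) (g : GL (Fin 2) F), IsSiegel c P →
      IsSiegel c (fun w => gAt w g • P w) →
      (∀ i j k l, IsIntegral ℤ (m * (g i j * g k l / (g : Matrix (Fin 2) (Fin 2) F).det))) →
      ∀ (w : InfinitePlace F) (i j : Fin 2),
        w (g i j) ^ 2 ≤ C * w (g : Matrix (Fin 2) (Fin 2) F).det := by
  have hc0 : 0 < c := lt_of_lt_of_le one_pos hc
  set B : ℝ := ∏ w : InfinitePlace F, w m with hB
  set Y : ℝ := B * c ^ (2 * Fintype.card (InfinitePlace F)) with hY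
  set A : ℝ := max 1 (∏ w : InfinitePlace F, (w m * c ^ 2)) with hA
  set C1 : ℝ := 2 * ((c ^ 2 + Y ^ 2) * (Y * c) + (c ^ 2 + Y ^ 2) * c ^ 4) + 2 * (Y * c + c ^ 4)
    with hC1
  set C2 : ℝ := (c + A * c) ^ 2 * A + A with hC2
  have hA1 : 1 ≤ A := le_max_left _ _
  refine ⟨max C1 C2, fun P g hP hP' hint w i j => ?_⟩
  set δ := (g : Matrix (Fin 2) (Fin 2) F).det with hδ
  have hd : δ ≠ 0 := det_ne_zero' g
  have hwd : ∀ w : InfinitePlace F, 0 < w δ := fun w => InfinitePlace.pos_iff.2 hd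
  have hmp : ∀ w : InfinitePlace F, 0 < w m := fun w => InfinitePlace.pos_iff.2 hm
  by_cases h10 : g 1 0 = 0
  · -- upper triangular case
    have hdet : δ = g 0 0 * g 1 1 := by
      rw [hδ, Matrix.det_fin_two, h10, mul_zero, sub_zero]
    have ha : g 0 0 ≠ 0 := fun h => hd (by rw [hdet, h, zero_mul])
    have hdd : g 1 1 ≠ 0 := fun h => hd (by rw [hdet, h, mul_zero])
    have hup : ∀ w : InfinitePlace F, gAt w g 1 0 = 0 := fun w => by
      rw [gAt_apply, h10, map_zero]
    have hyw : ∀ w : InfinitePlace F, (gAt w g • P w).y = w (g 0 0) / w (g 1 1) * (P w).y := by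
      intro w
      rw [y_smul_of_upper (hup w), gAt_apply, gAt_apply, norm_div,
        InfinitePlace.norm_embedding_eq, InfinitePlace.norm_embedding_eq]
    have hwa : ∀ w : InfinitePlace F, 0 < w (g 0 0) := fun w => InfinitePlace.pos_iff.2 ha
    have hwdd : ∀ w : InfinitePlace F, 0 < w (g 1 1) := fun w => InfinitePlace.pos_iff.2 hdd
    -- the two ratios
    have hr1 : w (g 0 0) / w (g 1 1) ≤ A := by
      refine ratio_le (c := c) hm (x := g 1 1 / g 0 0) (div_ne_zero hdd ha) ?_
        (r := fun w => w (g 0 0) / w (g 1 1)) ?_ ?_ w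
      · have := hint 1 1 1 1
        rw [hdet] at this
        convert this using 2
        field_simp
      · intro w
        have h1 := hwa w
        have h2 := hwdd w
        rw [map_div₀]
        field_simp
      · intro w w'
        have e1 : w (g 0 0) / w (g 1 1) = (gAt w g • P w).y / (P w).y := by
          rw [hyw w, mul_div_cancel_right₀ _ (P w).y_ne]
        have e2 : w' (g 0 0) / w' (g 1 1) = (gAt w' g • P w').y / (P w').y := by
          rw [hyw w', mul_div_cancel_right₀ _ (P w').y_ne]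
        show w (g 0 0) / w (g 1 1) ≤ c ^ 2 * (w' (g 0 0) / w' (g 1 1))
        rw [e1, e2, div_le_iff₀ (P w).y_pos]
        have i1 := (hP' w).2.2 w'
        have i2 := (hP w').2.2 w
        have p1 := (P w').y_pos
        have p2 := (gAt w' g • P w').y_pos
        have p3 := (P w).y_pos
        calc (gAt w g • P w).y ≤ c * (gAt w' g • P w').y := i1
          _ = c * ((gAt w' g • P w').y / (P w').y) * (P w').y := by field_simp
          _ ≤ c * ((gAt w' g • P w').y / (P w').y) * (c * (P w).y) := by gcongr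
          _ = _ := by ring
    have hr2 : w (g 1 1) / w (g 0 0) ≤ A := by
      refine ratio_le (c := c) hm (x := g 0 0 / g 1 1) (div_ne_zero ha hdd) ?_
        (r := fun w => w (g 1 1) / w (g 0 0)) ?_ ?_ w
      · have := hint 0 0 0 0
        rw [hdet] at this
        convert this using 2
        field_simp
      · intro w
        have h1 := hwa w
        have h2 := hwdd w
        rw [map_div₀]
        field_simp
      · intro w w'
        have q : ∀ v : InfinitePlace F, v (g 1 1) / v (g 0 0) = (P v).y / (gAt v g • P v).y := by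
          intro v
          have h1 := hwa v
          have h2 := hwdd v
          have h3 := (P v).y_pos
          rw [hyw v]
          field_simp
        show w (g 1 1) / w (g 0 0) ≤ c ^ 2 * (w' (g 1 1) / w' (g 0 0))
        rw [q w, q w', div_le_iff₀ (gAt w g • P w).y_pos]
        have i1 := (hP w).2.2 w'
        have i2 := (hP' w').2.2 w
        have p1 := (P w').y_pos
        have p2 := (gAt w' g • P w').y_pos
        have p3 := (gAt w g • P w).y_pos
        calc (P w).y ≤ c * (P w').y := i1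
          _ = c * ((P w').y / (gAt w' g • P w').y) * (gAt w' g • P w').y := by field_simp
          _ ≤ c * ((P w').y / (gAt w' g • P w').y) * (c * (gAt w g • P w).y) := by
              gcongr
          _ = _ := by ring
    have hwδ : w δ = w (g 0 0) * w (g 1 1) := by rw [hdet, map_mul]
    -- the entry `b`
    have hb : w (g 0 1) / w (g 1 1) ≤ c + A * c := by
      have hz := z_smul_of_upper (hup w) (P w)
      have h1 : gAt w g 0 1 / gAt w g 1 1 = (gAt w g • P w).z
          - gAt w g 0 0 / gAt w g 1 1 * (P w).z := by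
        rw [hz]
        have : gAt w g 1 1 ≠ 0 := by
          rw [gAt_apply]
          exact (map_ne_zero _).2 hdd
        field_simp
        ring
      have h2 : ‖gAt w g 0 1 / gAt w g 1 1‖ ≤ ‖(gAt w g • P w).z‖
          + ‖gAt w g 0 0 / gAt w g 1 1‖ * ‖(P w).z‖ := by
        rw [h1, ← norm_mul]
        exact norm_sub_le _ _
      rw [norm_div, norm_div, gAt_apply, gAt_apply, gAt_apply, InfinitePlace.norm_embedding_eq,
        InfinitePlace.norm_embedding_eq, InfinitePlace.norm_embedding_eq] at h2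
      refine h2.trans (add_le_add (hP' w).1 ?_)
      exact mul_le_mul hr1 (hP w).1 (norm_nonneg _) (zero_le_one.trans hA1)
    have hδp := hwd w
    have hAC : A ≤ C2 := by
      rw [hC2]
      have : 0 ≤ (c + A * c) ^ 2 * A := by positivity
      linarith
    have haa := hwa w
    have hdw := hwdd w
    have key : w (g i j) ^ 2 ≤ C2 * w δ := by
      fin_cases i <;> fin_cases j
      · show w (g 0 0) ^ 2 ≤ _
        calc w (g 0 0) ^ 2 = (w (g 0 0) / w (g 1 1)) * w δ := by rw [hwδ]; field_simp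
          _ ≤ A * w δ := by gcongr
          _ ≤ C2 * w δ := by gcongr
      · show w (g 0 1) ^ 2 ≤ _
        have hbn : 0 ≤ w (g 0 1) / w (g 1 1) := div_nonneg (apply_nonneg _ _) hdw.le
        calc w (g 0 1) ^ 2 = (w (g 0 1) / w (g 1 1)) ^ 2 * (w (g 1 1) / w (g 0 0)) * w δ := by
              rw [hwδ]; field_simp
          _ ≤ ((c + A * c) ^ 2 * A) * w δ := by gcongr
          _ ≤ C2 * w δ := by
              gcongr
              rw [hC2]
              linarith
      · show w (g 1 0) ^ 2 ≤ _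
        rw [h10, map_zero]
        have : 0 ≤ C2 := (zero_le_one.trans hA1).trans hAC
        rw [zero_pow two_ne_zero]
        exact mul_nonneg this hδp.le
      · show w (g 1 1) ^ 2 ≤ _
        calc w (g 1 1) ^ 2 = (w (g 1 1) / w (g 0 0)) * w δ := by rw [hwδ]; field_simp
          _ ≤ A * w δ := by gcongr
          _ ≤ C2 * w δ := by gcongr
    exact key.trans (mul_le_mul_of_nonneg_right (le_max_right _ _) hδp.le)
  · -- `c ≠ 0`: everything is in a compact set
    have h0 : m * (g 1 0 * g 1 0 / δ) ≠ 0 :=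
      mul_ne_zero hm (div_ne_zero (mul_ne_zero h10 h10) hd)
    have h1 := one_le_prod (hint 1 0 1 0) h0
    have hprod : ∏ w : InfinitePlace F, ((P w).y * (gAt w g • P w).y) ≤ B := by
      have h2 : ∀ w : InfinitePlace F,
          w (m * (g 1 0 * g 1 0 / δ)) * ((P w).y * (gAt w g • P w).y) ≤ w m := by
        intro w
        have h3 := normSq_c_mul_le (gAt w g) (P w)
        rw [gAt_apply, normSq_embedding, adet_gAt] at h3
        have hwm : 0 ≤ w m := apply_nonneg w m
        have hw := hwd w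
        rw [map_mul, map_div₀, map_mul]
        calc w m * (w (g 1 0) * w (g 1 0) / w δ) * ((P w).y * (gAt w g • P w).y)
            = w m * (w (g 1 0) ^ 2 * ((P w).y * (gAt w g • P w).y)) / w δ := by ring
          _ ≤ w m * w δ / w δ := by gcongr
          _ = w m := by field_simp
      have hpos : ∀ w : InfinitePlace F, 0 < (P w).y * (gAt w g • P w).y := fun w =>
        mul_pos (P w).y_pos (gAt w g • P w).y_pos
      have h4 : (∏ w : InfinitePlace F, w (m * (g 1 0 * g 1 0 / δ)))
          * (∏ w : InfinitePlace F, ((P w).y * (gAt w g • P w).y)) ≤ B := by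
        rw [← Finset.prod_mul_distrib]
        refine Finset.prod_le_prod (fun w _ => ?_) fun w _ => h2 w
        exact mul_nonneg (apply_nonneg w _) (hpos w).le
      have h5 : 0 < ∏ w : InfinitePlace F, ((P w).y * (gAt w g • P w).y) :=
        Finset.prod_pos fun w _ => hpos w
      have h6 := mul_le_mul_of_nonneg_right h1 h5.le
      linarith
    have hprod' : ∏ w : InfinitePlace F, ((gAt w g • P w).y * (P w).y) ≤ B := by
      refine le_trans (le_of_eq ?_) hprod
      exact Finset.prod_congr rfl fun w _ => mul_comm _ _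
    have hy1 := y_le_of_prod_le hc hP hP' hprod w
    have hy2 := y_le_of_prod_le hc hP' hP hprod' w
    have := entries_le (g := gAt w g) (P := P w) hc (hP w).1 (hP' w).1 (hP w).2.1 hy1
      (hP' w).2.1 hy2 i j
    rw [gAt_apply, normSq_embedding, adet_gAt] at this
    exact this.trans (mul_le_mul_of_nonneg_right (le_max_left _ _) (hwd w).le)

/-- **The Siegel property (R2)**: for given `c` and denominator `m`, only finitely many classes modulo
scalars of `g ∈ GL₂(F)` (with `m g_ij g_kl / det g` integral) map a point of the Siegel set into the Siegel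
set. -/
theorem siegel_finite [IsTotallyComplex F] {c : ℝ} (hc : 1 ≤ c) {m : F} (hm : m ≠ 0) :
    ∃ T : Finset (GL (Fin 2) F), ∀ (P : InfinitePlace F → H3) (g : GL (Fin 2) F), IsSiegel c P →
      IsSiegel c (fun w => gAt w g • P w) →
      (∀ i j k l, IsIntegral ℤ (m * (g i j * g k l / (g : Matrix (Fin 2) (Fin 2) F).det))) →
      ∃ γ ∈ T, ∃ t : F, t ≠ 0 ∧ ∀ i j, g i j = t * γ i j := by
  classical
  obtain ⟨C, hC⟩ := siegel_bound hc hm
  -- the tensor of `g`
  set τ : GL (Fin 2) F → (Fin 2 × Fin 2 × Fin 2 × Fin 2 → F) := fun g x =>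
    g x.1 x.2.1 * g x.2.2.1 x.2.2.2 / (g : Matrix (Fin 2) (Fin 2) F).det with hτ
  set G : Set (GL (Fin 2) F) := {g | (∀ i j k l,
      IsIntegral ℤ (m * (g i j * g k l / (g : Matrix (Fin 2) (Fin 2) F).det))) ∧
      ∀ (w : InfinitePlace F) (i j : Fin 2),
        w (g i j) ^ 2 ≤ C * w (g : Matrix (Fin 2) (Fin 2) F).det} with hG
  -- the image is finite
  have hfin : (τ '' G).Finite := by
    set X : Set F := {x | IsIntegral ℤ x ∧ ∀ φ : F →+* ℂ, ‖φ x‖ ≤
      (∑ w : InfinitePlace F, w m) * C} with hX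
    have hXf : X.Finite := Embeddings.finite_of_norm_le F ℂ _
    have hXm : (Set.image (fun x => m⁻¹ * x) X).Finite := hXf.image _
    refine (Set.Finite.pi' (ι := Fin 2 × Fin 2 × Fin 2 × Fin 2) fun _ => hXm).subset ?_
    rintro _ ⟨g, ⟨hg1, hg2⟩, rfl⟩ ⟨i, j, k, l⟩
    refine ⟨m * (g i j * g k l / (g : Matrix (Fin 2) (Fin 2) F).det), ⟨hg1 i j k l, fun φ => ?_⟩, ?_⟩
    · set w := InfinitePlace.mk φ with hw
      have hwφ : ∀ x, ‖φ x‖ = w x := fun x => rfl
      have hd : 0 < w (g : Matrix (Fin 2) (Fin 2) F).det := InfinitePlace.pos_iff.2 (det_ne_zero' g)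
      have h1 := hg2 w i j
      have h2 := hg2 w k l
      have h3 : w (g i j) * w (g k l) ≤ C * w (g : Matrix (Fin 2) (Fin 2) F).det := by
        nlinarith [sq_nonneg (w (g i j) - w (g k l))]
      rw [hwφ, map_mul, map_div₀, map_mul]
      have h4 : w (g i j) * w (g k l) / w (g : Matrix (Fin 2) (Fin 2) F).det ≤ C := by
        rw [div_le_iff₀ hd]; exact h3
      have h5 : w m ≤ ∑ w : InfinitePlace F, w m :=
        Finset.single_le_sum (f := fun w : InfinitePlace F => w m)
          (fun w _ => apply_nonneg w m) (Finset.mem_univ w)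
      have h6 : 0 ≤ w (g i j) * w (g k l) / w (g : Matrix (Fin 2) (Fin 2) F).det :=
        div_nonneg (mul_nonneg (apply_nonneg _ _) (apply_nonneg _ _)) hd.le
      exact mul_le_mul h5 h4 h6 ((apply_nonneg w m).trans h5)
    · show m⁻¹ * _ = _
      rw [← mul_assoc, inv_mul_cancel₀ hm, one_mul]
  -- choose representatives
  obtain ⟨T, hT⟩ : ∃ T : Finset (GL (Fin 2) F), ∀ g ∈ G, ∃ γ ∈ T, τ g = τ γ := by
    choose f hf using fun x : τ '' G => x.2
    have : Finite (τ '' G) := hfin.to_subtype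
    refine ⟨(Set.finite_range f).toFinset, fun g hg => ?_⟩
    refine ⟨f ⟨τ g, g, hg, rfl⟩, ?_, ?_⟩
    · rw [Set.Finite.mem_toFinset]
      exact ⟨_, rfl⟩
    · exact (hf ⟨τ g, g, hg, rfl⟩).2.symm
  refine ⟨T, fun P g hP hP' hint => ?_⟩
  obtain ⟨γ, hγ, he⟩ := hT g ⟨hint, hC P g hP hP' hint⟩
  refine ⟨γ, hγ, ?_⟩
  -- equal tensors imply proportional matrices
  have hd := det_ne_zero' g
  have hd' := det_ne_zero' γ
  have he' : ∀ i j k l, g i j * g k l / (g : Matrix (Fin 2) (Fin 2) F).det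
      = γ i j * γ k l / (γ : Matrix (Fin 2) (Fin 2) F).det := fun i j k l =>
    congrFun he (i, j, k, l)
  obtain ⟨i0, j0, h0⟩ : ∃ i j, γ i j ≠ 0 := by
    by_contra h
    push Not at h
    apply hd'
    rw [Matrix.det_fin_two]
    show γ 0 0 * γ 1 1 - γ 0 1 * γ 1 0 = 0
    rw [h 0 0, h 0 1]
    ring
  have hg0 : g i0 j0 ≠ 0 := by
    intro h
    have := he' i0 j0 i0 j0
    rw [h, mul_zero, zero_div, eq_comm, div_eq_zero_iff] at this
    rcases this with h1 | h1
    · exact h0 (mul_self_eq_zero.1 h1)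
    · exact hd' h1
  refine ⟨g i0 j0 / γ i0 j0, div_ne_zero hg0 h0, fun i j => ?_⟩
  have h1 := he' i0 j0 i j
  have h2 := he' i0 j0 i0 j0
  rw [div_eq_div_iff hd hd'] at h1 h2
  rw [div_mul_eq_mul_div, eq_div_iff h0]
  have h3 : g i0 j0 * (g i j * γ i0 j0 - g i0 j0 * γ i j) * ((γ : Matrix (Fin 2) (Fin 2) F).det) *
      γ i0 j0 = 0 := by
    linear_combination (γ i0 j0) ^ 2 * h1 - γ i0 j0 * γ i j * h2
  have h4 : g i0 j0 * (g i j * γ i0 j0 - g i0 j0 * γ i j) = 0 := by
    rcases mul_eq_zero.1 h3 with h | h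
    · rcases mul_eq_zero.1 h with h | h
      · exact h
      · exact absurd h hd'
    · exact absurd h h0
  rcases mul_eq_zero.1 h4 with h | h
  · exact absurd h hg0
  · exact sub_eq_zero.1 h

end Global

end Fermat.Agent.LT.Red
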