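import Mathlib
import Fermat.Agent.LT.Level
import Fermat.Agent.LT.Space
import Fermat.Agent.LT.Red.Sep

/-!
# Reduction theory on `Z = X_∞ × D`: Siegel property and separation (S47A, block B3: (R2), (R3))
-/

set_option autoImplicit false

open NumberField Matrix Module
open Fermat.Agent.LT.H3

noncomputable section

namespace Fermat.Agent.LT.Red

variable {F : Type*} [Field F] [NumberField F]

omit [NumberField F] in
theorem isIntegral_nat (n : ℕ) : IsIntegral ℤ (n : F) := by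
  have := isIntegral_algebraMap (R := ℤ) (A := F) (x := (n : ℤ))
  simpa using this

/-- Every element of a number field has a nonzero natural multiple which is integral. -/
theorem exists_nat_mul_isIntegral (x : F) : ∃ n : ℕ, n ≠ 0 ∧ IsIntegral ℤ ((n : F) * x) := by
  have halg : IsAlgebraic ℤ x := by
    have : IsAlgebraic ℚ x := Algebra.IsAlgebraic.isAlgebraic x
    exact (IsFractionRing.isAlgebraic_iff ℤ ℚ F).2 this
  obtain ⟨y, hy, hyi⟩ := halg.exists_integral_multiple
  refine ⟨y.natAbs, Int.natAbs_ne_zero.2 hy, ?_⟩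
  rcases Int.natAbs_eq y with h | h
  · have : ((y.natAbs : ℕ) : F) * x = y • x := by
      conv_rhs => rw [h]
      rw [zsmul_eq_mul, Int.cast_natCast]
    rw [this]; exact hyi
  · have : ((y.natAbs : ℕ) : F) * x = -(y • x) := by
      conv_rhs => rw [h]
      rw [zsmul_eq_mul, Int.cast_neg, Int.cast_natCast]
      ring
    rw [this]; exact hyi.neg

/-- A common denominator for the tensor of one matrix. -/
theorem exists_nat_tensor (g : GL (Fin 2) F) : ∃ n : ℕ, n ≠ 0 ∧
    ∀ i j k l, IsIntegral ℤ ((n : F) * (g i j * g k l / g.1.det)) := by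
  classical
  choose n hn0 hn using fun x : Fin 2 × Fin 2 × Fin 2 × Fin 2 =>
    exists_nat_mul_isIntegral (g x.1 x.2.1 * g x.2.2.1 x.2.2.2 / g.1.det)
  refine ⟨∏ x, n x, Finset.prod_ne_zero_iff.2 fun x _ => hn0 x, fun i j k l => ?_⟩
  have h := hn (i, j, k, l)
  rw [← Finset.mul_prod_erase Finset.univ n (Finset.mem_univ (i, j, k, l))]
  have e : ((n (i, j, k, l) * ∏ x ∈ Finset.univ.erase (i, j, k, l), n x : ℕ) : F)
      * (g i j * g k l / g.1.det)
      = ((∏ x ∈ Finset.univ.erase (i, j, k, l), n x : ℕ) : F)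
        * ((n (i, j, k, l) : F) * (g i j * g k l / g.1.det)) := by
    push_cast
    ring
  rw [e]
  exact (isIntegral_nat _).mul h

omit [NumberField F] in
/-- The tensor of a product. -/
theorem tensor_mul (g s : GL (Fin 2) F) (i j k l : Fin 2) :
    (g * s) i j * (g * s) k l / (g * s).1.det
      = ∑ a, ∑ b, (g i a * g k b / g.1.det) * (s a j * s b l / s.1.det) := by
  have e1 : (g * s) i j = g i 0 * s 0 j + g i 1 * s 1 j := by
    rw [Units.val_mul, Matrix.mul_apply, Fin.sum_univ_two]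
  have e2 : (g * s) k l = g k 0 * s 0 l + g k 1 * s 1 l := by
    rw [Units.val_mul, Matrix.mul_apply, Fin.sum_univ_two]
  have e3 : (g * s).1.det = g.1.det * s.1.det := by
    rw [Units.val_mul, Matrix.det_mul]
  have hg := det_ne_zero' g
  have hs := det_ne_zero' s
  rw [e1, e2, e3]
  simp only [Fin.sum_univ_two]
  field_simp

variable {D : Type*} [MulAction (GL (Fin 2) F) D] [IsLevel F D]

/-- One denominator for all `g` mapping a point of the finite set `D0` into `D0`. -/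
theorem exists_denominator (D0 : Finset D) : ∃ m : ℕ, m ≠ 0 ∧ ∀ d ∈ D0, ∀ g : GL (Fin 2) F,
    g • d ∈ D0 → ∀ i j k l, IsIntegral ℤ ((m : F) * (g i j * g k l / g.1.det)) := by
  classical
  have key : ∀ p : D × D, ∃ m : ℕ, m ≠ 0 ∧ ∀ g : GL (Fin 2) F, g • p.1 = p.2 →
      ∀ i j k l, IsIntegral ℤ ((m : F) * (g i j * g k l / g.1.det)) := by
    rintro ⟨d, d'⟩
    by_cases h : ∃ g0 : GL (Fin 2) F, g0 • d = d'
    · obtain ⟨g0, hg0⟩ := h
      obtain ⟨m, hm, hmb⟩ := IsLevel.bounded_stab (F := F) d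
      obtain ⟨n, hn, hnb⟩ := exists_nat_tensor g0
      refine ⟨n * m, mul_ne_zero hn hm, fun g hg i j k l => ?_⟩
      have hs : (g0⁻¹ * g) • d = d := by
        rw [mul_smul]
        show g0⁻¹ • g • d = d
        rw [show g • d = d' from hg, ← hg0, inv_smul_smul]
      have e : g = g0 * (g0⁻¹ * g) := by group
      have h1 := tensor_mul g0 (g0⁻¹ * g) i j k l
      rw [← e] at h1
      rw [h1, Nat.cast_mul]
      have h2 : (n : F) * m * ∑ a, ∑ b, (g0 i a * g0 k b / g0.1.det) *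
          ((g0⁻¹ * g) a j * (g0⁻¹ * g) b l / (g0⁻¹ * g).1.det)
          = ∑ a, ∑ b, ((n : F) * (g0 i a * g0 k b / g0.1.det)) *
          ((m : F) * ((g0⁻¹ * g) a j * (g0⁻¹ * g) b l / (g0⁻¹ * g).1.det)) := by
        rw [Finset.mul_sum]
        refine Finset.sum_congr rfl fun a _ => ?_
        rw [Finset.mul_sum]
        refine Finset.sum_congr rfl fun b _ => ?_
        ring
      rw [h2]
      exact IsIntegral.sum _ fun a _ => IsIntegral.sum _ fun b _ =>
        (hnb i a k b).mul (hmb _ hs a j b l)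
    · exact ⟨1, one_ne_zero, fun g hg => (h ⟨g, hg⟩).elim⟩
  choose m hm0 hm using key
  refine ⟨∏ p ∈ D0 ×ˢ D0, m p, Finset.prod_ne_zero_iff.2 fun p _ => hm0 p,
    fun d hd g hg i j k l => ?_⟩
  have hp : (d, g • d) ∈ D0 ×ˢ D0 := Finset.mem_product.2 ⟨hd, hg⟩
  rw [← Finset.mul_prod_erase _ m hp]
  have e : ((m (d, g • d) * ∏ x ∈ (D0 ×ˢ D0).erase (d, g • d), m x : ℕ) : F)
      * (g i j * g k l / g.1.det)
      = ((∏ x ∈ (D0 ×ˢ D0).erase (d, g • d), m x : ℕ) : F)
        * ((m (d, g • d) : F) * (g i j * g k l / g.1.det)) := by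
    push_cast
    ring
  rw [e]
  exact (isIntegral_nat _).mul (hm _ g rfl i j k l)

/-- The Siegel set. -/
def siegelSet (c : ℝ) (D0 : Finset D) : Set (Xi F × D) :=
  {z | IsSiegel c z.1 ∧ z.2 ∈ D0}

omit [NumberField F] [IsLevel F D] in
theorem one_le_of_isSiegel [Nonempty (InfinitePlace F)] {c : ℝ} {P : InfinitePlace F → H3}
    (h : IsSiegel c P) : 1 ≤ c := by
  obtain ⟨w⟩ := ‹Nonempty (InfinitePlace F)›
  have h1 := (h w).2.2 w
  have h2 := (P w).y_pos
  by_contra hc
  push Not at hc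
  nlinarith

/-- **(R2), Siegel property**: only finitely many elements of `PGL₂(F)` move a point of the Siegel set to
another point of the Siegel set. -/
theorem siegelSet_finite [IsTotallyComplex F] (c : ℝ) (D0 : Finset D) :
    {γ : PG F | ∃ z ∈ siegelSet (F := F) c D0, γ • z ∈ siegelSet (F := F) c D0}.Finite := by
  classical
  by_cases hc : 1 ≤ c
  · obtain ⟨m, hm0, hm⟩ := exists_denominator (F := F) D0
    obtain ⟨T, hT⟩ := siegel_finite (F := F) hc (m := (m : F)) (Nat.cast_ne_zero.2 hm0)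
    refine (T.finite_toSet.image (fun g => (QuotientGroup.mk g : PG F))).subset ?_
    rintro γ ⟨z, hz, hγz⟩
    obtain ⟨g, rfl⟩ := QuotientGroup.mk_surjective γ
    obtain ⟨γ', hγ', t, ht, h⟩ := hT z.1 g hz.1 hγz.1 (hm z.2 hz.2 g hγz.2)
    refine ⟨γ', hγ', ?_⟩
    show (QuotientGroup.mk γ' : PG F) = QuotientGroup.mk g
    rw [pg_mk_eq_iff]
    refine ⟨Units.mk0 t ht, ?_⟩
    ext i j
    rw [h i j]
    simp [Matrix.mul_apply, Matrix.scalar_apply, Matrix.diagonal_apply, mul_comm]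
  · convert Set.finite_empty
    ext γ
    simp only [Set.mem_ofPred_eq, Set.mem_empty_iff_false, iff_false]
    rintro ⟨z, hz, -⟩
    exact hc (one_le_of_isSiegel hz.1)

/-- **(R2), uniform multiplicity**. -/
theorem exists_card_le [IsTotallyComplex F] (c : ℝ) (D0 : Finset D) : ∃ M : ℕ, ∀ z : Xi F × D,
    {γ : PG F | γ • z ∈ siegelSet (F := F) c D0}.Finite ∧
      {γ : PG F | γ • z ∈ siegelSet (F := F) c D0}.ncard ≤ M := by
  classical
  have hfin := siegelSet_finite (F := F) c D0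
  refine ⟨hfin.toFinset.card, fun z => ?_⟩
  by_cases h : ∃ γ0 : PG F, γ0 • z ∈ siegelSet (F := F) c D0
  · obtain ⟨γ0, h0⟩ := h
    have hsub : (fun γ : PG F => γ * γ0⁻¹) '' {γ : PG F | γ • z ∈ siegelSet (F := F) c D0} ⊆
        {γ : PG F | ∃ z ∈ siegelSet (F := F) c D0, γ • z ∈ siegelSet (F := F) c D0} := by
      rintro _ ⟨γ, hγ, rfl⟩
      refine ⟨γ0 • z, h0, ?_⟩
      show (γ * γ0⁻¹) • γ0 • z ∈ _
      rw [mul_smul, inv_smul_smul]
      exact hγ
    have hinj : Function.Injective (fun γ : PG F => γ * γ0⁻¹) := mul_left_injective γ0⁻¹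
    have hf : {γ : PG F | γ • z ∈ siegelSet (F := F) c D0}.Finite :=
      Set.Finite.of_finite_image (hfin.subset hsub) hinj.injOn
    refine ⟨hf, ?_⟩
    rw [← Set.ncard_image_of_injective _ hinj, ← Set.ncard_eq_toFinset_card _ hfin]
    exact Set.ncard_le_ncard hsub hfin
  · have : {γ : PG F | γ • z ∈ siegelSet (F := F) c D0} = ∅ := by
      ext γ
      simp only [Set.mem_ofPred_eq, Set.mem_empty_iff_false, iff_false]
      exact fun hγ => h ⟨γ, hγ⟩
    rw [this]
    exact ⟨Set.finite_empty, by simp⟩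

/-- **(R3), two-point form**: if `d` and `g d` are in the finite set `D0` and the product of all heights of `x`
and `g x` is larger than a constant then `g` is upper triangular. -/
theorem exists_sep [IsTotallyComplex F] (D0 : Finset D) : ∃ B : ℝ, 0 < B ∧
    ∀ (x : Xi F) (g : GL (Fin 2) F) (d : D), d ∈ D0 → g • d ∈ D0 →
      B < ∏ w : InfinitePlace F, ((x w).y * ((g • x) w).y) → g 1 0 = 0 := by
  obtain ⟨m, hm0, hm⟩ := exists_denominator (F := F) D0
  have hmF : (m : F) ≠ 0 := Nat.cast_ne_zero.2 hm0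
  refine ⟨∏ w : InfinitePlace F, (2 * 1 * w (m : F)),
    Finset.prod_pos fun w _ => by
      have : 0 < w (m : F) := InfinitePlace.pos_iff.2 hmF
      linarith, fun x g d hd hgd hB => ?_⟩
  refine c_eq_zero_of_large (hm d hd g hgd 1 0 1 0) hmF (P := fun w => (g • x) w) (P' := x) (U := 1)
    (fun w => ?_) ?_
  · show cu ((g • x) w) (gAt w g • x w) ≤ 1
    rw [Xi.smul_apply, cu_self]
  · refine hB.trans_le (le_of_eq ?_)
    exact Finset.prod_congr rfl fun w _ => mul_comm _ _

/-- **(R3) with distances**: `P_w` and `g P'_w` at distance at most `arcosh U`. -/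
theorem exists_sep_cu [IsTotallyComplex F] (D0 : Finset D) (U : ℝ) (hU : 0 < U) : ∃ B : ℝ, 0 < B ∧
    ∀ (x x' : Xi F) (g : GL (Fin 2) F) (d : D), d ∈ D0 → g • d ∈ D0 →
      (∀ w, cu (x w) ((g • x') w) ≤ U) →
      B < ∏ w : InfinitePlace F, ((x w).y * (x' w).y) → g 1 0 = 0 := by
  obtain ⟨m, hm0, hm⟩ := exists_denominator (F := F) D0
  have hmF : (m : F) ≠ 0 := Nat.cast_ne_zero.2 hm0
  refine ⟨∏ w : InfinitePlace F, (2 * U * w (m : F)),
    Finset.prod_pos fun w _ => by
      have : 0 < w (m : F) := InfinitePlace.pos_iff.2 hmF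
      positivity, fun x x' g d hd hgd hcu hB => ?_⟩
  exact c_eq_zero_of_large (hm d hd g hgd 1 0 1 0) hmF (P := x) (P' := x') (U := U) hcu hB

/-- The box `‖z_w‖ ≤ c`, `c⁻¹ ≤ y_w ≤ T`, `d ∈ D0`. -/
def boxSet (c T : ℝ) (D0 : Finset D) : Set (Xi F × D) :=
  {z | (∀ w, ‖(z.1 w).z‖ ≤ c ∧ c⁻¹ ≤ (z.1 w).y ∧ (z.1 w).y ≤ T) ∧ z.2 ∈ D0}

omit [NumberField F] [MulAction (GL (Fin 2) F) D] [IsLevel F D] in
theorem boxSet_subset {c T : ℝ} (hc : 1 ≤ c) (hT : 1 ≤ T) (D0 : Finset D) :
    boxSet (F := F) c T D0 ⊆ siegelSet (F := F) (T * c) D0 := by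
  rintro z ⟨hz, hd⟩
  have hc0 : 0 < c := one_pos.trans_le hc
  refine ⟨fun w => ⟨(hz w).1.trans (le_mul_of_one_le_left hc0.le hT), ?_, fun w' => ?_⟩, hd⟩
  · refine le_trans ?_ (hz w).2.1
    exact inv_anti₀ hc0 (le_mul_of_one_le_left hc0.le hT)
  · have h1 := (hz w).2.2
    have h2 := (hz w').2.1
    have h3 : 1 ≤ c * (z.1 w').y := by
      have := mul_le_mul_of_nonneg_left h2 hc0.le
      rwa [mul_inv_cancel₀ hc0.ne'] at this
    calc (z.1 w).y ≤ T := h1
      _ ≤ T * (c * (z.1 w').y) := le_mul_of_one_le_right (one_pos.trans_le hT).le h3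
      _ = T * c * (z.1 w').y := by ring

/-- **Proper discontinuity**: only finitely many classes move a point of a box to a point of another box. -/
theorem boxSet_finite [IsTotallyComplex F] {c : ℝ} (hc : 0 < c) (T : ℝ) (D0 : Finset D) :
    {γ : PG F | ∃ z ∈ boxSet (F := F) c T D0, γ • z ∈ boxSet (F := F) c T D0}.Finite := by
  refine (siegelSet_finite (F := F) (max T 1 * max c 1) D0).subset ?_
  have hsub : boxSet (F := F) c T D0 ⊆ siegelSet (F := F) (max T 1 * max c 1) D0 := by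
    refine Set.Subset.trans ?_ (boxSet_subset (le_max_right c 1) (le_max_right T 1) D0)
    rintro z ⟨hz, hd⟩
    refine ⟨fun w => ⟨(hz w).1.trans (le_max_left _ _), ?_, (hz w).2.2.trans (le_max_left _ _)⟩, hd⟩
    exact (inv_anti₀ hc (le_max_left c 1)).trans (hz w).2.1
  rintro γ ⟨z, hz, hγz⟩
  exact ⟨z, hsub hz, hsub hγz⟩

end Fermat.Agent.LT.Red
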