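import Fermat.Agent.LT.Red.Siegel
import Fermat.Agent.LT.Red.SepLevel
import Fermat.Agent.LT.Unfold

/-!
# Finite volume of Siegel sets, the weight attached to a set
-/

namespace Fermat.Agent.LT

open Matrix NumberField MeasureTheory H3 ENNReal
open scoped MatrixGroups

section General

variable {G Z : Type*} [Group G] [Countable G] [MeasurableSpace Z] [MulAction G Z]
  [MeasurableConstSMul G Z]

/-- The number of translates of `z` in `A`. -/
noncomputable def mult (G : Type*) {Z : Type*} [Group G] [MulAction G Z] (A : Set Z) (z : Z) :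
    ℝ≥0∞ := ∑' g : G, A.indicator (fun _ => 1) (g • z)

omit [Countable G] [MeasurableSpace Z] [MeasurableConstSMul G Z] in
theorem mult_smul (A : Set Z) (g : G) (z : Z) : mult G A (g • z) = mult G A z := by
  unfold mult
  rw [← (Equiv.mulRight g).tsum_eq fun h : G => A.indicator (fun _ => (1 : ℝ≥0∞)) (h • z)]
  refine tsum_congr fun h => ?_
  rw [Equiv.coe_mulRight, mul_smul]

theorem measurable_mult {A : Set Z} (hA : MeasurableSet A) : Measurable (mult G A) :=
  Measurable.tsum fun g => (measurable_const.indicator hA).comp (measurable_const_smul g)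

/-- The weight attached to a set which meets every orbit a finite number of times. -/
noncomputable def setWeight (G : Type*) {Z : Type*} [Group G] [MulAction G Z] (A : Set Z) (z : Z) :
    ℝ≥0∞ := A.indicator (fun _ => 1) z / mult G A z

omit [Countable G] [MeasurableSpace Z] [MeasurableConstSMul G Z] in
theorem one_le_mult {A : Set Z} {z : Z} (h : ∃ g : G, g • z ∈ A) : 1 ≤ mult G A z := by
  obtain ⟨g, hg⟩ := h
  refine le_trans ?_ (ENNReal.le_tsum g)
  rw [Set.indicator_of_mem hg]

omit [Countable G] [MeasurableSpace Z] [MeasurableConstSMul G Z] in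
theorem mult_ne_top {A : Set Z} {z : Z} (h : {g : G | g • z ∈ A}.Finite) : mult G A z ≠ ∞ := by
  unfold mult
  rw [tsum_eq_sum (s := h.toFinset)]
  · refine ENNReal.sum_ne_top.2 fun g _ => ?_
    refine ne_top_of_le_ne_top one_ne_top (Set.indicator_le_self' (fun _ _ => zero_le) _)
  · intro g hg
    rw [Set.Finite.mem_toFinset] at hg
    exact Set.indicator_of_notMem (show g • z ∉ A from hg) _

theorem isWeight_setWeight {A : Set Z} (hA : MeasurableSet A) (h1 : ∀ z : Z, ∃ g : G, g • z ∈ A)
    (h2 : ∀ z : Z, {g : G | g • z ∈ A}.Finite) : IsWeight G (setWeight G A) where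
  meas := (measurable_const.indicator hA).div (measurable_mult hA)
  sum_eq z := by
    unfold setWeight
    simp_rw [mult_smul, div_eq_mul_inv]
    rw [ENNReal.tsum_mul_right]
    change mult G A z * (mult G A z)⁻¹ = 1
    refine ENNReal.mul_inv_cancel ?_ (mult_ne_top (h2 z))
    exact (one_pos.trans_le (one_le_mult (h1 z))).ne'

omit [Countable G] [MeasurableSpace Z] [MeasurableConstSMul G Z] in
theorem setWeight_le {A : Set Z} (h1 : ∀ z : Z, ∃ g : G, g • z ∈ A) (z : Z) :
    setWeight G A z ≤ A.indicator (fun _ => 1) z := by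
  unfold setWeight
  exact ENNReal.div_le_of_le_mul (le_mul_of_one_le_right zero_le (one_le_mult (h1 z)))

end General

section Volume

variable (F : Type*) [Field F] [NumberField F] {D : Type*} [MeasurableSpace D]
  [MeasurableSingletonClass D] [Countable D]

omit [MeasurableSingletonClass D] [Countable D] in
theorem measurableSet_Sieg [DiscreteMeasurableSpace D] (c : ℝ) (T : Set D) :
    MeasurableSet (Sieg F c T) := by
  have hz : ∀ w : InfinitePlace F, Measurable fun p : Xi F × D => (p.1 w).z := fun w =>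
    H3.measurable_z.comp ((measurable_pi_apply w).comp measurable_fst)
  have hy : ∀ w : InfinitePlace F, Measurable fun p : Xi F × D => (p.1 w).y := fun w =>
    H3.measurable_y.comp ((measurable_pi_apply w).comp measurable_fst)
  have h : Sieg F c T = (Prod.snd ⁻¹' T) ∩ ((⋂ w, {p : Xi F × D | ‖(p.1 w).z‖ ≤ c}) ∩
      ((⋂ w, {p : Xi F × D | c⁻¹ ≤ (p.1 w).y}) ∩
        ⋂ w, ⋂ w', {p : Xi F × D | (p.1 w).y ≤ c * (p.1 w').y})) := by
    ext p
    simp [Sieg]
  rw [h]
  refine (measurable_snd MeasurableSet.of_discrete).inter (MeasurableSet.inter ?_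
    (MeasurableSet.inter ?_ ?_))
  · exact MeasurableSet.iInter fun w => measurableSet_le (hz w).norm measurable_const
  · exact MeasurableSet.iInter fun w => measurableSet_le measurable_const (hy w)
  · exact MeasurableSet.iInter fun w => MeasurableSet.iInter fun w' =>
      measurableSet_le (hy w) ((hy w').const_mul c)

/-- **Finite volume** of Siegel sets. -/
theorem muZ_Sieg_lt_top {c : ℝ} (hc : 0 < c) (T : Finset D) :
    muZ F D (Sieg F c (T : Set D)) < ∞ := by
  let A : Set (Xi F) := Set.univ.pi fun _ : InfinitePlace F =>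
    {P : H3 | P.z ∈ Metric.closedBall (0 : ℂ) c ∧ c⁻¹ ≤ P.y}
  have hsub : Sieg F c (T : Set D) ⊆ A ×ˢ (T : Set D) := by
    rintro p ⟨h1, h2, h3, -⟩
    refine ⟨fun w _ => ⟨?_, h3 w⟩, h1⟩
    rw [mem_closedBall_zero_iff]
    exact h2 w
  refine (measure_mono hsub).trans_lt ?_
  unfold muZ
  rw [Measure.prod_prod]
  refine ENNReal.mul_lt_top ?_ ?_
  · have h1 : (volume : Measure (Xi F)) A = ∏ _w : InfinitePlace F,
        volume {P : H3 | P.z ∈ Metric.closedBall (0 : ℂ) c ∧ c⁻¹ ≤ P.y} :=
      Measure.pi_pi (fun _ : InfinitePlace F => (volume : Measure H3)) _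
    rw [h1]
    refine ENNReal.prod_lt_top fun w _ => ?_
    rw [volume_strip Metric.isClosed_closedBall.measurableSet (inv_pos.2 hc)]
    exact ENNReal.mul_lt_top measure_closedBall_lt_top ENNReal.ofReal_lt_top
  · rw [Measure.count_apply_finset]
    exact ENNReal.natCast_lt_top _

end Volume

section Countable

instance countable_PG (F : Type*) [Field F] [NumberField F] : Countable (PG F) := by
  have : Countable F := (Module.finBasis ℚ F).equivFun.injective.countable
  have : Countable (Matrix (Fin 2) (Fin 2) F) := inferInstanceAs (Countable (Fin 2 → Fin 2 → F))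
  have : Countable (GL (Fin 2) F) :=
    Function.Injective.countable (f := fun g : GL (Fin 2) F => g.1) fun _ _ h => Units.ext h
  exact Quotient.countable

end Countable

section Main

variable (F : Type*) [Field F] [NumberField F] [IsTotallyComplex F] {D : Type*}

omit [NumberField F] [IsTotallyComplex F] in
theorem Sieg_eq_siegelSet (c : ℝ) (T : Finset D) :
    Sieg F c (T : Set D) = Red.siegelSet (F := F) c T := by
  ext p
  constructor
  · rintro ⟨h1, h2, h3, h4⟩
    exact ⟨fun w => ⟨h2 w, h3 w, h4 w⟩, h1⟩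
  · rintro ⟨h1, h2⟩
    exact ⟨h2, fun w => (h1 w).1, fun w => (h1 w).2.1, fun w w' => (h1 w).2.2 w'⟩

variable [MulAction (GL (Fin 2) F) D] [IsLevel F D]

/-- Uniform multiplicity of Siegel sets (helper17's theorem for `Sieg`). -/
theorem exists_mult_le (c : ℝ) (T : Finset D) : ∃ M : ℕ, ∀ z : Xi F × D,
    {γ : PG F | γ • z ∈ Sieg F c (T : Set D)}.Finite ∧
      mult (PG F) (Sieg F c (T : Set D)) z ≤ M := by
  obtain ⟨M, hM⟩ := Red.exists_card_le (F := F) c T
  refine ⟨M, fun z => ?_⟩
  rw [Sieg_eq_siegelSet]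
  refine ⟨(hM z).1, ?_⟩
  have h1 : mult (PG F) (Red.siegelSet (F := F) c T) z = ((hM z).1.toFinset.card : ℝ≥0∞) := by
    unfold mult
    rw [tsum_eq_sum (s := (hM z).1.toFinset)]
    · rw [Finset.sum_congr rfl (g := fun _ => (1 : ℝ≥0∞))]
      · simp
      · intro g hg
        rw [Set.Finite.mem_toFinset] at hg
        exact Set.indicator_of_mem (show g • z ∈ Red.siegelSet (F := F) c T from hg) _
    · intro g hg
      rw [Set.Finite.mem_toFinset] at hg
      exact Set.indicator_of_notMem (show g • z ∉ Red.siegelSet (F := F) c T from hg) _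
  rw [h1, ← Set.ncard_eq_toFinset_card _ (hM z).1]
  exact_mod_cast (hM z).2

variable (D) [MeasurableSpace D] [DiscreteMeasurableSpace D]

/-- **R4**: there is a weight which is bounded by the indicator function of a Siegel set; it has
finite total mass. -/
theorem exists_weight : ∃ (c : ℝ) (T : Finset D) (w : Xi F × D → ℝ≥0∞), 1 ≤ c ∧
    IsWeight (PG F) w ∧ (∀ z, w z ≤ (Sieg F c (T : Set D)).indicator (fun _ => 1) z) ∧
    ∫⁻ z, w z ∂(muZ F D) < ∞ := by
  have : Countable D := IsLevel.countable F
  obtain ⟨c, T, hc, h⟩ := exists_siegel F D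
  obtain ⟨M, hM⟩ := exists_mult_le F c T
  have h' : ∀ z : Xi F × D, ∃ g : PG F, g • z ∈ Sieg F c (T : Set D) := fun z => by
    obtain ⟨g, hg⟩ := h z
    exact ⟨QuotientGroup.mk g, hg⟩
  have hm := measurableSet_Sieg F (D := D) c T
  refine ⟨c, T, setWeight (PG F) (Sieg F c (T : Set D)), hc,
    isWeight_setWeight hm h' fun z => (hM z).1, setWeight_le h', ?_⟩
  refine (lintegral_mono (setWeight_le h')).trans_lt ?_
  rw [lintegral_indicator_const hm, one_mul]
  exact muZ_Sieg_lt_top F (one_pos.trans_le hc) T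

/-- Every weight has finite total mass. -/
theorem isFiniteMeasure_weight [Countable D] {w : Xi F × D → ℝ≥0∞} (hw : IsWeight (PG F) w) :
    IsFiniteMeasure ((muZ F D).withDensity w) := by
  obtain ⟨c, T, w', -, hw', -, hfin⟩ := exists_weight F D
  refine ⟨?_⟩
  have h1 : ∫⁻ z, w z * 1 ∂(muZ F D) = ∫⁻ z, w' z * 1 ∂(muZ F D) :=
    hw.lintegral_mul_eq hw' measurable_const fun _ _ => rfl
  simp only [mul_one] at h1
  rw [withDensity_apply _ MeasurableSet.univ, Measure.restrict_univ, h1]
  exact hfin

/-- Integration over a Siegel set is controlled by the integral over the quotient. -/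
theorem lintegral_Sieg_le [Countable D] {w : Xi F × D → ℝ≥0∞} (hw : IsWeight (PG F) w) (c : ℝ)
    (T : Finset D) : ∃ M : ℕ, ∀ f : Xi F × D → ℝ≥0∞, Measurable f →
      (∀ (g : PG F) z, f (g • z) = f z) →
      ∫⁻ z in Sieg F c (T : Set D), f z ∂(muZ F D) ≤ M * ∫⁻ z, f z ∂(muZ F D).withDensity w := by
  obtain ⟨M, hM⟩ := exists_mult_le F c T
  refine ⟨M, fun f hf hinv => ?_⟩
  have hm := measurableSet_Sieg F (D := D) c (T : Set D)
  rw [← lintegral_indicator hm, lintegral_withDensity_eq_lintegral_mul _ hw.meas hf]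
  have h1 : ∫⁻ z, (Sieg F c (T : Set D)).indicator f z ∂(muZ F D) =
      ∑' g : PG F, ∫⁻ z, w (g • z) * (Sieg F c (T : Set D)).indicator f z ∂(muZ F D) := by
    have h0 := lintegral_tsum (μ := muZ F D)
      (f := fun (g : PG F) z => w (g • z) * (Sieg F c (T : Set D)).indicator f z)
      fun g => ((hw.meas.comp (measurable_const_smul g)).mul (hf.indicator hm)).aemeasurable
    rw [← h0]
    refine lintegral_congr fun z => ?_
    rw [ENNReal.tsum_mul_right, hw.sum_eq, one_mul]
  have h2 : ∀ g : PG F, ∫⁻ z, w (g • z) * (Sieg F c (T : Set D)).indicator f z ∂(muZ F D) =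
      ∫⁻ z, w z * f z * (Sieg F c (T : Set D)).indicator (fun _ => 1) (g⁻¹ • z) ∂(muZ F D) := by
    intro g
    rw [← IsWeight.lintegral_smul g (fun z => w z * f z *
      (Sieg F c (T : Set D)).indicator (fun _ => 1) (g⁻¹ • z))]
    refine lintegral_congr fun z => ?_
    rw [inv_smul_smul, hinv]
    by_cases hz : z ∈ Sieg F c (T : Set D)
    · rw [Set.indicator_of_mem hz, Set.indicator_of_mem hz, mul_one]
    · rw [Set.indicator_of_notMem hz, Set.indicator_of_notMem hz, mul_zero, mul_zero]
  rw [h1]
  simp_rw [h2]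
  have h0 := lintegral_tsum (μ := muZ F D)
    (f := fun (g : PG F) z => w z * f z *
      (Sieg F c (T : Set D)).indicator (fun _ => (1 : ℝ≥0∞)) (g⁻¹ • z))
    fun g => ((hw.meas.mul hf).mul ((measurable_const.indicator hm).comp
      (measurable_const_smul g⁻¹))).aemeasurable
  rw [← h0, ← lintegral_const_mul _ (hw.meas.mul hf)]
  refine lintegral_mono fun z => ?_
  rw [ENNReal.tsum_mul_left, ← (Equiv.inv (PG F)).tsum_eq]
  simp only [Equiv.inv_apply, inv_inv]
  rw [mul_comm (M : ℝ≥0∞)]
  exact mul_le_mul_right (hM z).2 _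

end Main

end Fermat.Agent.LT
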