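import Mathlib
import Fermat.Agent.LT.Red.SepLevel

/-!
# Counting in the cusp (S47A, block B3: (C1))

For `x` in the cusp (`‖x_w.z‖ ≤ c`, `c⁻¹ ≤ x_w.y`) at most `C ∏ y_w²` elements of `PGL₂(F)` move a given
point of `Z = X_∞ × D` into the ball of radius `R` around `x`, with discrete part in a finite set.
-/

set_option autoImplicit false

open NumberField Complex Module
open Fermat.Agent.LT.H3

noncomputable section

namespace Fermat.Agent.LT.Red

/-! ### Algebraic integers in a box -/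

section Box

variable {F : Type*} [Field F] [NumberField F]

/-- The cell of an algebraic integer. -/
def cell (a : 𝓞 F) (w : InfinitePlace F) : ℤ × ℤ :=
  (⌊2 * (w.embedding (a : F)).re⌋, ⌊2 * (w.embedding (a : F)).im⌋)

theorem cell_injective [IsTotallyComplex F] : Function.Injective (cell (F := F)) := by
  classical
  intro a b hab
  by_contra hne
  have h0 : ((a - b : 𝓞 F) : F) ≠ 0 := by
    intro h
    apply hne
    have : (a - b : 𝓞 F) = 0 := RingOfIntegers.ext (by simpa using h)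
    exact sub_eq_zero.1 this
  have h1 := one_le_prod (RingOfIntegers.isIntegral_coe (a - b)) h0
  have h2 : ∀ w : InfinitePlace F, w ((a - b : 𝓞 F) : F) < 1 := by
    intro w
    have hw := congrFun hab w
    simp only [cell, Prod.mk.injEq] at hw
    have hre := Int.abs_sub_lt_one_of_floor_eq_floor hw.1
    have him := Int.abs_sub_lt_one_of_floor_eq_floor hw.2
    rw [← InfinitePlace.norm_embedding_eq]
    have e : w.embedding ((a - b : 𝓞 F) : F) = w.embedding (a : F) - w.embedding (b : F) := by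
      rw [← map_sub]; rfl
    rw [e]
    set u := w.embedding (a : F) - w.embedding (b : F) with hu
    have hre' : |u.re| < 1 / 2 := by
      have : u.re = (w.embedding (a : F)).re - (w.embedding (b : F)).re := by simp [hu]
      rw [this]
      have h3 : |2 * ((w.embedding (a : F)).re - (w.embedding (b : F)).re)| < 1 := by
        rw [mul_sub]; exact hre
      rw [abs_mul, abs_two] at h3
      linarith
    have him' : |u.im| < 1 / 2 := by
      have : u.im = (w.embedding (a : F)).im - (w.embedding (b : F)).im := by simp [hu]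
      rw [this]
      have h3 : |2 * ((w.embedding (a : F)).im - (w.embedding (b : F)).im)| < 1 := by
        rw [mul_sub]; exact him
      rw [abs_mul, abs_two] at h3
      linarith
    calc ‖u‖ ≤ |u.re| + |u.im| := Complex.norm_le_abs_re_add_abs_im u
      _ < 1 := by linarith
  have h3 : ∏ w : InfinitePlace F, w ((a - b : 𝓞 F) : F) < 1 := by
    obtain ⟨w0⟩ : Nonempty (InfinitePlace F) := inferInstance
    rw [← Finset.mul_prod_erase Finset.univ _ (Finset.mem_univ w0)]
    have h4 : ∏ w ∈ Finset.univ.erase w0, w ((a - b : 𝓞 F) : F) ≤ 1 :=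
      Finset.prod_le_one (fun w _ => apply_nonneg w _) fun w _ => (h2 w).le
    have h5 : 0 ≤ ∏ w ∈ Finset.univ.erase w0, w ((a - b : 𝓞 F) : F) :=
      Finset.prod_nonneg fun w _ => apply_nonneg w _
    nlinarith [h2 w0, apply_nonneg w0 ((a - b : 𝓞 F) : F)]
  linarith

/-- **The number of algebraic integers in a box.** -/
theorem exists_box [IsTotallyComplex F] (B : InfinitePlace F → ℝ) (hB : ∀ w, 0 ≤ B w) :
    ∃ T : Finset (𝓞 F), (∀ a : 𝓞 F, (∀ w : InfinitePlace F, w (a : F) ≤ B w) → a ∈ T) ∧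
      (T.card : ℝ) ≤ ∏ w, (4 * B w + 3) ^ 2 := by
  classical
  let M : InfinitePlace F → ℕ := fun w => ⌈2 * B w⌉₊
  let T : Finset (InfinitePlace F → ℤ × ℤ) := Fintype.piFinset fun w =>
    Finset.Icc (-(M w : ℤ)) (M w) ×ˢ Finset.Icc (-(M w : ℤ)) (M w)
  have hM : ∀ w, 2 * B w ≤ M w := fun w => Nat.le_ceil _
  have hfloor : ∀ (w : InfinitePlace F) (t : ℝ), |t| ≤ B w →
      ⌊2 * t⌋ ∈ Finset.Icc (-(M w : ℤ)) (M w) := by
    intro w t ht
    have h1 := abs_le.1 ht
    rw [Finset.mem_Icc]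
    constructor
    · rw [Int.le_floor]
      push_cast
      linarith [hM w, h1.1]
    · have : (⌊2 * t⌋ : ℝ) ≤ M w := (Int.floor_le _).trans (by linarith [hM w, h1.2])
      exact_mod_cast this
  have hmaps : Set.MapsTo (cell (F := F)) {a : 𝓞 F | ∀ w : InfinitePlace F, w (a : F) ≤ B w}
      (T : Set (InfinitePlace F → ℤ × ℤ)) := by
    intro a ha
    rw [Finset.mem_coe, Fintype.mem_piFinset]
    intro w
    have hw := ha w
    rw [← InfinitePlace.norm_embedding_eq] at hw
    rw [Finset.mem_product]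
    exact ⟨hfloor w _ ((Complex.abs_re_le_norm _).trans hw),
      hfloor w _ ((Complex.abs_im_le_norm _).trans hw)⟩
  have hfin : {a : 𝓞 F | ∀ w : InfinitePlace F, w (a : F) ≤ B w}.Finite :=
    Set.Finite.of_injOn hmaps cell_injective.injOn T.finite_toSet
  refine ⟨hfin.toFinset, fun a ha => hfin.mem_toFinset.2 ha, ?_⟩
  have hcard : hfin.toFinset.card ≤ T.card := by
    refine Finset.card_le_card_of_injOn (cell (F := F)) ?_ cell_injective.injOn
    intro a ha
    exact hmaps (hfin.mem_toFinset.1 ha)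
  have hT : T.card = ∏ w, (2 * M w + 1) ^ 2 := by
    rw [Fintype.card_piFinset]
    refine Finset.prod_congr rfl fun w _ => ?_
    rw [Finset.card_product, Int.card_Icc, pow_two]
    congr 1 <;> omega
  refine (Nat.cast_le.2 hcard).trans ?_
  rw [hT]
  push_cast
  refine Finset.prod_le_prod (fun w _ => by positivity) fun w _ => ?_
  have h1 : (M w : ℝ) < 2 * B w + 1 := Nat.ceil_lt_add_one (by linarith [hB w])
  have h2 : (0 : ℝ) ≤ M w := Nat.cast_nonneg _
  exact pow_le_pow_left₀ (by positivity) (by linarith) 2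

end Box

/-! ### One place -/

section OnePlace

/-- If `P` and `g P` are close to height `Y` and not far from the vertical geodesic over `0` (in the
hyperbolic metric), then the entries of `g` are bounded, after conjugation with `diag (Y, 1)`. -/
theorem entries_scaled {g : GL (Fin 2) ℂ} {P : H3} {Y c : ℝ} (hY : 0 < Y) (hc : 1 ≤ c)
    (hz : ‖P.z‖ ≤ c * Y) (hz' : ‖(g • P).z‖ ≤ c * Y) (h1 : Y ≤ c * P.y) (h2 : P.y ≤ c * Y)
    (h1' : Y ≤ c * (g • P).y) (h2' : (g • P).y ≤ c * Y) :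
    normSq (g 0 0) ≤ 12 * c ^ 6 * adet g ∧ normSq (g 1 1) ≤ 12 * c ^ 6 * adet g ∧
      normSq (g 1 0) * Y ^ 2 ≤ 12 * c ^ 6 * adet g ∧
      normSq (g 0 1) ≤ 12 * c ^ 6 * adet g * Y ^ 2 := by
  have hYc : (Y : ℂ) ≠ 0 := by exact_mod_cast hY.ne'
  let a : GL (Fin 2) ℂ := ut (Y : ℂ) 0 1 hYc one_ne_zero
  let Q : H3 := a⁻¹ • P
  let h : GL (Fin 2) ℂ := a⁻¹ * g * a
  have hPQ : P = a • Q := by simp [Q]
  have haz : ∀ R : H3, (a • R).z = Y * R.z := by
    intro R
    rw [z_ut_smul]; simp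
  have hay : ∀ R : H3, (a • R).y = Y * R.y := by
    intro R
    rw [y_ut_smul]; simp [abs_of_pos hY]
  have hhQ : a • (h • Q) = g • P := by
    simp only [h, Q, smul_smul]
    congr 1
    group
  have e1 : ‖Q.z‖ ≤ c := by
    rw [hPQ, haz, norm_mul, Complex.norm_real, Real.norm_of_nonneg hY.le, mul_comm c] at hz
    exact le_of_mul_le_mul_left hz hY
  have e2 : ‖(h • Q).z‖ ≤ c := by
    rw [← hhQ, haz, norm_mul, Complex.norm_real, Real.norm_of_nonneg hY.le, mul_comm c] at hz'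
    exact le_of_mul_le_mul_left hz' hY
  have hc0 : 0 < c := one_pos.trans_le hc
  have e3 : c⁻¹ ≤ Q.y := by
    rw [hPQ, hay] at h1
    have : Y * 1 ≤ Y * (c * Q.y) := by linarith
    have := le_of_mul_le_mul_left this hY
    rw [inv_le_iff_one_le_mul₀ hc0]
    linarith
  have e4 : Q.y ≤ c := by
    rw [hPQ, hay, mul_comm c] at h2
    exact le_of_mul_le_mul_left h2 hY
  have e5 : c⁻¹ ≤ (h • Q).y := by
    rw [← hhQ, hay] at h1'
    have : Y * 1 ≤ Y * (c * (h • Q).y) := by linarith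
    have := le_of_mul_le_mul_left this hY
    rw [inv_le_iff_one_le_mul₀ hc0]
    linarith
  have e6 : (h • Q).y ≤ c := by
    rw [← hhQ, hay, mul_comm c] at h2'
    exact le_of_mul_le_mul_left h2' hY
  have key := entries_le (g := h) (P := Q) hc e1 e2 e3 e4 e5 e6
  have hC : 2 * ((c ^ 2 + c ^ 2) * (c * c) + (c ^ 2 + c ^ 2) * c ^ 4) + 2 * (c * c + c ^ 4)
      ≤ 12 * c ^ 6 := by
    have h2 : c ^ 2 ≤ c ^ 6 := pow_le_pow_right₀ hc (by norm_num)
    have h4 : c ^ 4 ≤ c ^ 6 := pow_le_pow_right₀ hc (by norm_num)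
    nlinarith
  have hdet : adet h = adet g := by
    have : adet h = adet a⁻¹ * adet g * adet a := by
      simp only [h, adet_mul]
    rw [this]
    have h1 : adet a⁻¹ * adet a = 1 := by rw [← adet_mul, inv_mul_cancel, adet_one]
    calc adet a⁻¹ * adet g * adet a = adet g * (adet a⁻¹ * adet a) := by ring
      _ = adet g := by rw [h1, mul_one]
  rw [hdet] at key
  have hA := adet_pos g
  have key' : ∀ i j, normSq (h i j) ≤ 12 * c ^ 6 * adet g := fun i j =>
    (key i j).trans (mul_le_mul_of_nonneg_right hC hA.le)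
  have hmat : a * h = g * a := by simp only [h]; group
  have hij : ∀ i j, (a * h) i j = (g * a) i j := fun i j => by rw [hmat]
  have m00 := hij 0 0
  have m01 := hij 0 1
  have m10 := hij 1 0
  have m11 := hij 1 1
  simp only [Units.val_mul, Matrix.mul_apply, Fin.sum_univ_two, a, coe_ut, Matrix.of_apply,
    Matrix.cons_val', Matrix.cons_val_zero, Matrix.cons_val_one, Matrix.cons_val_fin_one,
    Matrix.empty_val', zero_mul, mul_zero, add_zero, zero_add, mul_one, one_mul] at m00 m01 m10 m11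
  have g00 : g 0 0 = h 0 0 := by
    have : (Y : ℂ) * h 0 0 = Y * g 0 0 := by rw [m00]; ring
    exact (mul_left_cancel₀ hYc this).symm
  have g01 : g 0 1 = Y * h 0 1 := m01.symm
  have g10 : h 1 0 = g 1 0 * Y := m10
  have g11 : g 1 1 = h 1 1 := m11.symm
  refine ⟨by rw [g00]; exact key' 0 0, by rw [g11]; exact key' 1 1, ?_, ?_⟩
  · have := key' 1 0
    rw [g10, normSq_mul, normSq_ofReal] at this
    rw [pow_two]; exact this
  · rw [g01, normSq_mul, normSq_ofReal]
    have := key' 0 1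
    nlinarith [mul_pos hY hY]

/-- Points at bounded distance from a point of the cusp. -/
theorem near_bounds {P Q : H3} {R c : ℝ} (hc : 0 ≤ c) (h : cu P Q ≤ R) (hz : ‖P.z‖ ≤ c)
    (hy : c⁻¹ ≤ P.y) (hc1 : 0 < c) :
    ‖Q.z‖ ≤ (c ^ 2 + 2 * R) * P.y ∧ P.y ≤ (c ^ 2 + 2 * R) * Q.y ∧
      Q.y ≤ (c ^ 2 + 2 * R) * P.y := by
  have hR : 1 ≤ R := (one_le_cu P Q).trans h
  have h1 : Q.y ≤ 2 * R * P.y := y_le_of_cu_le h
  have h2 : P.y ≤ 2 * R * Q.y := y_le_of_cu_le (by rw [cu_comm]; exact h)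
  have h3 := normSq_le_of_cu_le h
  have hP := P.y_pos
  have hQ := Q.y_pos
  have hcy : 1 ≤ c * P.y := by
    have := mul_le_mul_of_nonneg_left hy hc
    rwa [mul_inv_cancel₀ hc1.ne'] at this
  have h4 : ‖P.z - Q.z‖ ≤ 2 * R * P.y := by
    have h5 : ‖P.z - Q.z‖ ^ 2 ≤ (2 * R * P.y) ^ 2 := by
      rw [← normSq_eq_norm_sq]
      refine h3.trans ?_
      nlinarith [mul_pos hP hQ, mul_pos hP hP, mul_le_mul_of_nonneg_left h1 (by positivity : 0 ≤ 2 * R * P.y)]
    exact abs_le_of_sq_le_sq' h5 (by positivity) |>.2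
  refine ⟨?_, ?_, ?_⟩
  · have h6 : ‖Q.z‖ ≤ ‖P.z‖ + ‖P.z - Q.z‖ := by
      have := norm_sub_le P.z (P.z - Q.z)
      simpa using this
    have h7 : c ≤ c ^ 2 * P.y := by nlinarith
    calc ‖Q.z‖ ≤ c + 2 * R * P.y := by linarith
      _ ≤ c ^ 2 * P.y + 2 * R * P.y := by linarith
      _ = _ := by ring
  · refine h2.trans ?_
    have := mul_nonneg (sq_nonneg c) hQ.le
    linarith
  · refine h1.trans ?_
    have := mul_nonneg (sq_nonneg c) hP.le
    linarith

end OnePlace

/-! ### The tensor determines the class -/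

section Tensor

variable {F : Type*} [Field F]

/-- The entries other than the upper right one. -/
def ent : Fin 3 → Fin 2 × Fin 2 := ![(0, 0), (1, 0), (1, 1)]

/-- `m g_p g_q / det g`. -/
def ten (m : F) (g : GL (Fin 2) F) (p q : Fin 2 × Fin 2) : F :=
  m * (g p.1 p.2 * g q.1 q.2 / (g : Matrix (Fin 2) (Fin 2) F).det)

theorem mk_eq_of_ten {m : F} (hm : m ≠ 0) {g g' : GL (Fin 2) F}
    (h : ∀ p q : Fin 3, ten m g (ent p) (ent q) = ten m g' (ent p) (ent q))
    (h01 : g 1 0 = 0 → g' 1 0 = 0 → ten m g (0, 0) (0, 1) = ten m g' (0, 0) (0, 1)) :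
    (QuotientGroup.mk g : PG F) = QuotientGroup.mk g' := by
  have hd := det_ne_zero' g
  have hd' := det_ne_zero' g'
  set d := (g : Matrix (Fin 2) (Fin 2) F).det with hdd
  set d' := (g' : Matrix (Fin 2) (Fin 2) F).det with hdd'
  have edet : d = g 0 0 * g 1 1 - g 0 1 * g 1 0 := Matrix.det_fin_two _
  have edet' : d' = g' 0 0 * g' 1 1 - g' 0 1 * g' 1 0 := Matrix.det_fin_two _
  have H : ∀ p q : Fin 3, g (ent p).1 (ent p).2 * g (ent q).1 (ent q).2 * d' =
      g' (ent p).1 (ent p).2 * g' (ent q).1 (ent q).2 * d := by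
    intro p q
    have := h p q
    unfold ten at this
    have h1 := mul_left_cancel₀ hm this
    rwa [← hdd, ← hdd', div_eq_div_iff hd hd'] at h1
  have key : ∃ t : F, t ≠ 0 ∧ ∀ i j, g' i j = t * g i j := by
    by_cases hc : g 1 0 = 0
    · have hc' : g' 1 0 = 0 := by
        have := H 1 1
        simp only [ent, Matrix.cons_val_one, Matrix.cons_val_zero] at this
        rw [hc] at this
        have h2 : g' 1 0 * g' 1 0 * d = 0 := by rw [← this]; ring
        rcases mul_eq_zero.1 h2 with h3 | h3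
        · exact (mul_self_eq_zero.1 h3)
        · exact absurd h3 hd
      have ha : g 0 0 ≠ 0 := by
        intro h0
        apply hd
        rw [edet, h0, hc]; ring
      have ha' : g' 0 0 ≠ 0 := by
        intro h0
        apply hd'
        rw [edet', h0, hc']; ring
      have e01 : g 0 0 * g 0 1 * d' = g' 0 0 * g' 0 1 * d := by
        have := h01 hc hc'
        unfold ten at this
        have h1 := mul_left_cancel₀ hm this
        rwa [← hdd, ← hdd', div_eq_div_iff hd hd'] at h1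
      have e00 := H 0 0
      have e11 := H 0 2
      simp only [ent, Matrix.cons_val_zero, Matrix.cons_val] at e00 e11
      refine ⟨g' 0 0 / g 0 0, div_ne_zero ha' ha, fun i j => ?_⟩
      rw [div_mul_eq_mul_div, eq_div_iff ha]
      fin_cases i <;> fin_cases j
      · rfl
      · show g' 0 1 * g 0 0 = g' 0 0 * g 0 1
        have h1 : g 0 0 * d * (g' 0 1 * g 0 0) * g' 0 0 = g 0 0 * d * (g' 0 0 * g 0 1) * g' 0 0 := by
          linear_combination (-(g 0 0) ^ 2) * e01 + (g 0 0 * g 0 1) * e00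
        exact mul_left_cancel₀ (mul_ne_zero ha hd) (mul_right_cancel₀ ha' h1)
      · show g' 1 0 * g 0 0 = g' 0 0 * g 1 0
        rw [hc, hc']; ring
      · show g' 1 1 * g 0 0 = g' 0 0 * g 1 1
        have h1 : g 0 0 * d * (g' 1 1 * g 0 0) * g' 0 0 = g 0 0 * d * (g' 0 0 * g 1 1) * g' 0 0 := by
          linear_combination (-(g 0 0) ^ 2) * e11 + (g 0 0 * g 1 1) * e00
        exact mul_left_cancel₀ (mul_ne_zero ha hd) (mul_right_cancel₀ ha' h1)
    · have hc' : g' 1 0 ≠ 0 := by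
        intro h0
        have := H 1 1
        simp only [ent, Matrix.cons_val_one, Matrix.cons_val_zero] at this
        rw [h0] at this
        have h2 : g 1 0 * g 1 0 * d' = 0 := by rw [this]; ring
        rcases mul_eq_zero.1 h2 with h3 | h3
        · exact hc (mul_self_eq_zero.1 h3)
        · exact hd' h3
      have e11 := H 1 1
      have e10 := H 1 0
      have e12 := H 1 2
      have e02 := H 0 2
      simp only [ent, Matrix.cons_val_zero, Matrix.cons_val_one, Matrix.cons_val] at e11 e10 e12 e02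
      refine ⟨g' 1 0 / g 1 0, div_ne_zero hc' hc, fun i j => ?_⟩
      rw [div_mul_eq_mul_div, eq_div_iff hc]
      have hne : g 1 0 * d ≠ 0 := mul_ne_zero hc hd
      have k00 : g' 0 0 * g 1 0 = g' 1 0 * g 0 0 := by
        have h1 : g 1 0 * d * (g' 0 0 * g 1 0) * g' 1 0 = g 1 0 * d * (g' 1 0 * g 0 0) * g' 1 0 := by
          linear_combination (-(g 1 0) ^ 2) * e10 + (g 1 0 * g 0 0) * e11
        exact mul_left_cancel₀ hne (mul_right_cancel₀ hc' h1)
      have k11 : g' 1 1 * g 1 0 = g' 1 0 * g 1 1 := by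
        have h1 : g 1 0 * d * (g' 1 1 * g 1 0) * g' 1 0 = g 1 0 * d * (g' 1 0 * g 1 1) * g' 1 0 := by
          linear_combination (-(g 1 0) ^ 2) * e12 + (g 1 0 * g 1 1) * e11
        exact mul_left_cancel₀ hne (mul_right_cancel₀ hc' h1)
      have k01 : g' 0 1 * g 1 0 = g' 1 0 * g 0 1 := by
        have e3 : g 0 1 * g 1 0 * d' = g' 0 1 * g' 1 0 * d := by
          linear_combination e02 + d' * edet - d * edet'
        have h1 : g 1 0 * d * (g' 0 1 * g 1 0) * g' 1 0 = g 1 0 * d * (g' 1 0 * g 0 1) * g' 1 0 := by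
          linear_combination (-(g 1 0) ^ 2) * e3 + (g 1 0 * g 0 1) * e11
        exact mul_left_cancel₀ hne (mul_right_cancel₀ hc' h1)
      fin_cases i <;> fin_cases j
      · exact k00
      · exact k01
      · rfl
      · exact k11
  obtain ⟨t, ht, h⟩ := key
  rw [pg_mk_eq_iff]
  refine ⟨Units.mk0 t ht, ?_⟩
  ext i j
  rw [h i j]
  simp [Matrix.mul_apply, Matrix.scalar_apply, Matrix.diagonal_apply, mul_comm]

end Tensor

/-! ### Counting -/

section Count

variable {F : Type*} [Field F] [NumberField F] [IsTotallyComplex F]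
variable {D : Type*} [MulAction (GL (Fin 2) F) D] [IsLevel F D]

/-- The scale of an entry. -/
def scl (c Y : ℝ) (p : Fin 2 × Fin 2) : ℝ := if p = (0, 1) then Y else c

omit [NumberField F] [IsTotallyComplex F] in
theorem w_entry_le {w : InfinitePlace F} {g : GL (Fin 2) F} {K c Y : ℝ} (hc : 1 ≤ c)
    (hY : c⁻¹ ≤ Y) (hK : 0 ≤ K)
    (h : normSq (gAt w g 0 0) ≤ K * adet (gAt w g) ∧ normSq (gAt w g 1 1) ≤ K * adet (gAt w g) ∧
      normSq (gAt w g 1 0) * Y ^ 2 ≤ K * adet (gAt w g) ∧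
      normSq (gAt w g 0 1) ≤ K * adet (gAt w g) * Y ^ 2) (p : Fin 2 × Fin 2) :
    w (g p.1 p.2) ^ 2 ≤ K * w (g : Matrix (Fin 2) (Fin 2) F).det * scl c Y p ^ 2 := by
  obtain ⟨h00, h11, h10, h01⟩ := h
  rw [gAt_apply, normSq_embedding, adet_gAt] at h00 h11 h10 h01
  have hA : 0 ≤ K * w (g : Matrix (Fin 2) (Fin 2) F).det := mul_nonneg hK (apply_nonneg w _)
  have hc2 : 1 ≤ c ^ 2 := by nlinarith
  have hcY : 1 ≤ c * Y := by
    have := mul_le_mul_of_nonneg_left hY (zero_le_one.trans hc)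
    rwa [mul_inv_cancel₀ (one_pos.trans_le hc).ne'] at this
  obtain ⟨i, j⟩ := p
  fin_cases i <;> fin_cases j
  · show w (g 0 0) ^ 2 ≤ K * w _ * scl c Y (0, 0) ^ 2
    have : scl c Y (0, 0) = c := by simp [scl]
    rw [this]
    exact h00.trans (le_mul_of_one_le_right hA hc2)
  · show w (g 0 1) ^ 2 ≤ K * w _ * scl c Y (0, 1) ^ 2
    have : scl c Y (0, 1) = Y := by simp [scl]
    rw [this]
    exact h01
  · show w (g 1 0) ^ 2 ≤ K * w _ * scl c Y (1, 0) ^ 2
    have : scl c Y (1, 0) = c := by simp [scl]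
    rw [this]
    have h2 : 1 ≤ (c * Y) ^ 2 := by nlinarith
    calc w (g 1 0) ^ 2 ≤ w (g 1 0) ^ 2 * (c * Y) ^ 2 :=
          le_mul_of_one_le_right (sq_nonneg _) h2
      _ = (w (g 1 0) ^ 2 * Y ^ 2) * c ^ 2 := by ring
      _ ≤ _ := mul_le_mul_of_nonneg_right h10 (sq_nonneg c)
  · show w (g 1 1) ^ 2 ≤ K * w _ * scl c Y (1, 1) ^ 2
    have : scl c Y (1, 1) = c := by simp [scl]
    rw [this]
    exact h11.trans (le_mul_of_one_le_right hA hc2)

omit [NumberField F] [IsTotallyComplex F] in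
theorem w_ten_le {w : InfinitePlace F} {g : GL (Fin 2) F} {K c Y : ℝ} (hK : 0 ≤ K)
    (hc : 0 ≤ c) (hY : 0 ≤ Y)
    (h : ∀ p : Fin 2 × Fin 2,
      w (g p.1 p.2) ^ 2 ≤ K * w (g : Matrix (Fin 2) (Fin 2) F).det * scl c Y p ^ 2)
    (m : ℕ) (p q : Fin 2 × Fin 2) :
    w (ten (m : F) g p q) ≤ m * K * (scl c Y p * scl c Y q) := by
  have hs : ∀ p, 0 ≤ scl c Y p := fun p => by unfold scl; split_ifs <;> assumption
  have hd : 0 < w (g : Matrix (Fin 2) (Fin 2) F).det := InfinitePlace.pos_iff.2 (det_ne_zero' g)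
  have hm : w (m : F) = m := by simp
  unfold ten
  rw [map_mul, map_div₀, map_mul, hm]
  have h1 : w (g p.1 p.2) * w (g q.1 q.2) ≤
      K * w (g : Matrix (Fin 2) (Fin 2) F).det * (scl c Y p * scl c Y q) := by
    have hA : 0 ≤ K * w (g : Matrix (Fin 2) (Fin 2) F).det := mul_nonneg hK hd.le
    have h2 : (w (g p.1 p.2) * w (g q.1 q.2)) ^ 2 ≤
        (K * w (g : Matrix (Fin 2) (Fin 2) F).det * (scl c Y p * scl c Y q)) ^ 2 := by
      calc (w (g p.1 p.2) * w (g q.1 q.2)) ^ 2 = w (g p.1 p.2) ^ 2 * w (g q.1 q.2) ^ 2 := by ring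
        _ ≤ (K * w (g : Matrix (Fin 2) (Fin 2) F).det * scl c Y p ^ 2) *
            (K * w (g : Matrix (Fin 2) (Fin 2) F).det * scl c Y q ^ 2) :=
          mul_le_mul (h p) (h q) (sq_nonneg _) (mul_nonneg hA (sq_nonneg _))
        _ = _ := by ring
    exact abs_le_of_sq_le_sq' h2 (mul_nonneg hA (mul_nonneg (hs p) (hs q))) |>.2
  calc (m : ℝ) * (w (g p.1 p.2) * w (g q.1 q.2) / w (g : Matrix (Fin 2) (Fin 2) F).det)
      ≤ m * (K * w (g : Matrix (Fin 2) (Fin 2) F).det * (scl c Y p * scl c Y q) /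
          w (g : Matrix (Fin 2) (Fin 2) F).det) := by gcongr
    _ = m * K * (scl c Y p * scl c Y q) := by field_simp

/-- The ball around `x` with discrete part in `D1`. -/
def ball (R : ℝ) (D1 : Finset D) (x : Xi F) : Set (Xi F × D) :=
  {z | (∀ w, cu (x w) (z.1 w) ≤ R) ∧ z.2 ∈ D1}

/-- **Counting lemma**. -/
theorem exists_count (R c : ℝ) (hc : 1 ≤ c) (D1 : Finset D) : ∃ C : ℝ, 0 ≤ C ∧
    ∀ x : Xi F, (∀ w, ‖(x w).z‖ ≤ c) → (∀ w, c⁻¹ ≤ (x w).y) → ∀ z' : Xi F × D,
      {γ : PG F | γ • z' ∈ ball R D1 x}.Finite ∧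
      ({γ : PG F | γ • z' ∈ ball R D1 x}.ncard : ℝ) ≤ C * ∏ w, (x w).y ^ 2 := by
  classical
  obtain ⟨m, hm0, hm⟩ := exists_denominator (F := F) D1
  have hmF : (m : F) ≠ 0 := Nat.cast_ne_zero.2 hm0
  have hc0 : 0 < c := one_pos.trans_le hc
  set c1 : ℝ := c ^ 2 + 2 * |R| with hc1
  have hc11 : 1 ≤ c1 := by nlinarith [abs_nonneg R]
  set K : ℝ := 12 * c1 ^ 6 with hKd
  have hK : 0 ≤ K := by positivity
  set B1 : ℝ := m * K * (c * c) with hB1
  have hB10 : 0 ≤ B1 := by positivity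
  obtain ⟨T1, hT1, hT1c⟩ := exists_box (F := F) (fun _ => B1) (fun _ => hB10)
  refine ⟨(T1.card : ℝ) ^ 9 * ∏ _w : InfinitePlace F, (4 * (m * K * c) + 3 * c) ^ 2, by positivity,
    fun x hxz hxy z' => ?_⟩
  obtain ⟨T2, hT2, hT2c⟩ := exists_box (F := F) (fun w => m * K * (c * (x w).y))
    (fun w => by have := (x w).y_pos; positivity)
  by_cases hne : ∃ γ0 : PG F, γ0 • z' ∈ ball R D1 x
  swap
  · have : {γ : PG F | γ • z' ∈ ball R D1 x} = ∅ := by
      ext γ
      simp only [Set.mem_ofPred_eq, Set.mem_empty_iff_false, iff_false]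
      exact fun h => hne ⟨γ, h⟩
    rw [this]
    refine ⟨Set.finite_empty, ?_⟩
    rw [Set.ncard_empty, Nat.cast_zero]
    have : ∀ w : InfinitePlace F, 0 < (x w).y := fun w => (x w).y_pos
    positivity
  obtain ⟨γ0, h0⟩ := hne
  -- properties of the representatives
  have hprop : ∀ γ : PG F, γ • z' ∈ ball R D1 x → ∀ g : GL (Fin 2) F,
      (QuotientGroup.mk g : PG F) = γ * γ0⁻¹ → (∀ p q, IsIntegral ℤ (ten (m : F) g p q)) ∧
        ∀ (w : InfinitePlace F) (p q : Fin 2 × Fin 2),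
          w (ten (m : F) g p q) ≤ m * K * (scl c (x w).y p * scl c (x w).y q) := by
    intro γ hγ g hg
    have e1 : γ • z' = (QuotientGroup.mk g : PG F) • (γ0 • z') := by
      rw [hg, ← mul_smul, inv_mul_cancel_right]
    constructor
    · intro p q
      refine hm (γ0 • z').2 h0.2 g ?_ p.1 p.2 q.1 q.2
      have : (γ • z').2 = g • (γ0 • z').2 := by rw [e1]; rfl
      rw [← this]; exact hγ.2
    · intro w p q
      have hb := h0.1 w
      have hb' := hγ.1 w
      have hR : |R| = R := abs_of_nonneg ((zero_le_one.trans (one_le_cu _ _)).trans hb)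
      have n1 := near_bounds hc0.le hb (hxz w) (hxy w) hc0
      have n2 := near_bounds hc0.le hb' (hxz w) (hxy w) hc0
      have e2 : (γ • z').1 w = gAt w g • (γ0 • z').1 w := by
        rw [e1]; rfl
      rw [e2] at n2
      rw [← hR] at n1 n2
      have hen := entries_scaled (g := gAt w g) (P := (γ0 • z').1 w) (Y := (x w).y) (c := c1)
        (x w).y_pos hc11 n1.1 n2.1 n1.2.1 n1.2.2 n2.2.1 n2.2.2
      exact w_ten_le hK hc0.le (x w).y_pos.le
        (w_entry_le hc (hxy w) hK hen) m p q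
  -- the map
  let rep : PG F → GL (Fin 2) F := fun γ => Quotient.out (γ * γ0⁻¹)
  have hrep : ∀ γ, (QuotientGroup.mk (rep γ) : PG F) = γ * γ0⁻¹ := fun γ =>
    QuotientGroup.out_eq' _
  have hex : ∀ a : F, ∃ y : 𝓞 F, IsIntegral ℤ a → (y : F) = a := fun a => by
    by_cases h : IsIntegral ℤ a
    · exact ⟨⟨a, h⟩, fun _ => rfl⟩
    · exact ⟨0, fun h' => absurd h' h⟩
  choose int hint using hex
  let Φ : PG F → (Fin 3 × Fin 3 → 𝓞 F) × 𝓞 F := fun γ =>
    (fun pq => int (ten (m : F) (rep γ) (ent pq.1) (ent pq.2)),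
      if (rep γ) 1 0 = 0 then int (ten (m : F) (rep γ) (0, 0) (0, 1)) else 0)
  let T : Finset ((Fin 3 × Fin 3 → 𝓞 F) × 𝓞 F) := (Fintype.piFinset fun _ => T1) ×ˢ T2
  have hscl1 : ∀ (i : Fin 3) (Y : ℝ), scl c Y (ent i) = c := by
    intro i Y
    fin_cases i <;> simp [scl, ent]
  have hmaps : ∀ γ ∈ {γ : PG F | γ • z' ∈ ball R D1 x}, Φ γ ∈ (T : Set _) := by
    intro γ hγ
    obtain ⟨hI, hW⟩ := hprop γ hγ (rep γ) (hrep γ)
    rw [Finset.mem_coe, Finset.mem_product]
    refine ⟨Fintype.mem_piFinset.2 fun pq => hT1 _ fun w => ?_, ?_⟩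
    · show w ((int (ten (m : F) (rep γ) (ent pq.1) (ent pq.2)) : 𝓞 F) : F) ≤ B1
      rw [hint _ (hI _ _)]
      have := hW w (ent pq.1) (ent pq.2)
      rwa [hscl1, hscl1] at this
    · refine hT2 _ fun w => ?_
      show w (((if (rep γ) 1 0 = 0 then int (ten (m : F) (rep γ) (0, 0) (0, 1)) else 0 : 𝓞 F)) : F)
        ≤ m * K * (c * (x w).y)
      split_ifs
      · rw [hint _ (hI _ _)]
        have := hW w (0, 0) (0, 1)
        simpa [scl] using this
      · have := (x w).y_pos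
        have h0 : w ((0 : 𝓞 F) : F) = 0 := by simp
        rw [h0]
        positivity
  have hinj : Set.InjOn Φ {γ : PG F | γ • z' ∈ ball R D1 x} := by
    intro γ hγ γ' hγ' hΦ
    obtain ⟨hI, -⟩ := hprop γ hγ (rep γ) (hrep γ)
    obtain ⟨hI', -⟩ := hprop γ' hγ' (rep γ') (hrep γ')
    have h1 := congrArg Prod.fst hΦ
    have h2 := congrArg Prod.snd hΦ
    have h3 : (QuotientGroup.mk (rep γ) : PG F) = QuotientGroup.mk (rep γ') := by
      refine mk_eq_of_ten hmF (fun p q => ?_) fun hc hc' => ?_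
      · have := congrFun h1 (p, q)
        have := congrArg (fun a : 𝓞 F => (a : F)) this
        simpa only [Φ, hint _ (hI _ _), hint _ (hI' _ _)] using this
      · have := congrArg (fun a : 𝓞 F => (a : F)) h2
        simpa only [Φ, if_pos hc, if_pos hc', hint _ (hI _ _), hint _ (hI' _ _)] using this
    rw [hrep, hrep] at h3
    exact mul_right_cancel h3
  have hfin : {γ : PG F | γ • z' ∈ ball R D1 x}.Finite :=
    Set.Finite.of_injOn hmaps hinj T.finite_toSet
  refine ⟨hfin, ?_⟩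
  have hcard : {γ : PG F | γ • z' ∈ ball R D1 x}.ncard ≤ T.card := by
    rw [← Set.ncard_coe_finset]
    exact Set.ncard_le_ncard_of_injOn Φ hmaps hinj T.finite_toSet
  have hTc : T.card = T1.card ^ 9 * T2.card := by
    rw [Finset.card_product, Fintype.card_piFinset, Finset.prod_const]
    simp
  refine (Nat.cast_le.2 hcard).trans ?_
  rw [hTc]
  push_cast
  rw [mul_assoc]
  refine mul_le_mul_of_nonneg_left ?_ (by positivity)
  refine hT2c.trans ?_
  rw [← Finset.prod_mul_distrib]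
  refine Finset.prod_le_prod (fun w _ => by positivity) fun w _ => ?_
  have hy := (x w).y_pos
  have hcy : 1 ≤ c * (x w).y := by
    have := mul_le_mul_of_nonneg_left (hxy w) hc0.le
    rwa [mul_inv_cancel₀ hc0.ne'] at this
  rw [← mul_pow]
  refine pow_le_pow_left₀ (by positivity) ?_ 2
  nlinarith

end Count

end Fermat.Agent.LT.Red
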