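import Mathlib
import Fermat.Agent.LT.Red.RowBound
import Fermat.Agent.LT.Red.Weight

/-!
# Pointwise bound by the `L²` norm (S47A, block B3: (C1))

`|∫ κ(x, x') f(x', d) dx'| ≤ C y_w^n ‖f‖₂` on a Siegel set, `n` the number of infinite places.
-/

set_option autoImplicit false

open NumberField MeasureTheory ENNReal
open Fermat.Agent.LT.H3

noncomputable section

namespace Fermat.Agent.LT.Red

section General

variable {G Z : Type*} [Group G] [Countable G] [MeasurableSpace Z] [MulAction G Z]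
  [MeasurableConstSMul G Z] {μ : Measure Z} [SMulInvariantMeasure G Z μ] {w : Z → ℝ≥0∞}

/-- An integral over a set which meets every orbit at most `N` times. -/
theorem setLIntegral_le_of_mult (hw : IsWeight G w) {A : Set Z} (hA : MeasurableSet A) {N : ℝ≥0∞}
    (hN : ∀ z, ∑' g : G, A.indicator (fun _ => (1 : ℝ≥0∞)) (g • z) ≤ N) {f : Z → ℝ≥0∞}
    (hf : Measurable f) (hinv : ∀ (g : G) z, f (g • z) = f z) :
    ∫⁻ z in A, f z ∂μ ≤ N * ∫⁻ z, f z ∂μ.withDensity w := by
  rw [← lintegral_indicator hA, lintegral_withDensity_eq_lintegral_mul _ hw.meas hf]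
  have h1 : ∫⁻ z, A.indicator f z ∂μ = ∑' g : G, ∫⁻ z, w (g • z) * A.indicator f z ∂μ := by
    have h0 := lintegral_tsum (μ := μ) (f := fun (g : G) z => w (g • z) * A.indicator f z)
      fun g => ((hw.meas.comp (measurable_const_smul g)).mul (hf.indicator hA)).aemeasurable
    rw [← h0]
    refine lintegral_congr fun z => ?_
    rw [ENNReal.tsum_mul_right, hw.sum_eq, one_mul]
  have h2 : ∀ g : G, ∫⁻ z, w (g • z) * A.indicator f z ∂μ =
      ∫⁻ z, w z * f z * A.indicator (fun _ => 1) (g⁻¹ • z) ∂μ := by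
    intro g
    rw [← IsWeight.lintegral_smul g (fun z => w z * f z * A.indicator (fun _ => 1) (g⁻¹ • z))]
    refine lintegral_congr fun z => ?_
    rw [inv_smul_smul, hinv]
    by_cases hz : z ∈ A
    · rw [Set.indicator_of_mem hz, Set.indicator_of_mem hz, mul_one]
    · rw [Set.indicator_of_notMem hz, Set.indicator_of_notMem hz, mul_zero, mul_zero]
  rw [h1]
  simp_rw [h2]
  have h0 := lintegral_tsum (μ := μ)
    (f := fun (g : G) z => w z * f z * A.indicator (fun _ => (1 : ℝ≥0∞)) (g⁻¹ • z))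
    fun g => ((hw.meas.mul hf).mul ((measurable_const.indicator hA).comp
      (measurable_const_smul g⁻¹))).aemeasurable
  rw [← h0, ← lintegral_const_mul _ (hw.meas.mul hf)]
  refine lintegral_mono fun z => ?_
  rw [ENNReal.tsum_mul_left, ← (Equiv.inv G).tsum_eq]
  simp only [Equiv.inv_apply, inv_inv]
  rw [mul_comm N]
  exact mul_le_mul_right (hN z) _

omit [Countable G] [MeasurableSpace Z] [MeasurableConstSMul G Z] in
theorem tsum_indicator_le {A : Set Z} {z : Z} (h : {g : G | g • z ∈ A}.Finite) {N : ℝ}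
    (hN : ({g : G | g • z ∈ A}.ncard : ℝ) ≤ N) :
    ∑' g : G, A.indicator (fun _ => (1 : ℝ≥0∞)) (g • z) ≤ ENNReal.ofReal N := by
  have h1 : ∑' g : G, A.indicator (fun _ => (1 : ℝ≥0∞)) (g • z) = (h.toFinset.card : ℝ≥0∞) := by
    rw [tsum_eq_sum (s := h.toFinset)]
    · rw [Finset.sum_congr rfl (g := fun _ => (1 : ℝ≥0∞))]
      · simp
      · intro g hg
        rw [Set.Finite.mem_toFinset] at hg
        exact Set.indicator_of_mem (show g • z ∈ A from hg) _
    · intro g hg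
      rw [Set.Finite.mem_toFinset] at hg
      exact Set.indicator_of_notMem (show g • z ∉ A from hg) _
  rw [h1, ← Set.ncard_eq_toFinset_card _ h, ← ENNReal.ofReal_natCast]
  exact ENNReal.ofReal_le_ofReal hN

end General

section Main

variable {F : Type*} [Field F] [NumberField F] [IsTotallyComplex F]
variable {D : Type*} [MeasurableSpace D] [DiscreteMeasurableSpace D] [Countable D]

/-- The ball in `X_∞`. -/
def xball (R : ℝ) (x : Xi F) : Set (Xi F) := {x' | ∀ w, cu (x w) (x' w) ≤ R}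

omit [NumberField F] [IsTotallyComplex F] in
theorem xball_eq (R : ℝ) (x : Xi F) :
    xball R x = Set.univ.pi fun w : InfinitePlace F => {P : H3 | cu (x w) P ≤ R} := by
  ext x'
  exact Set.mem_univ_pi.symm

omit [IsTotallyComplex F] in
theorem measurableSet_xball (R : ℝ) (x : Xi F) : MeasurableSet (xball R x) := by
  rw [xball_eq]
  exact MeasurableSet.univ_pi fun w => (isCompact_ball (x w) R).isClosed.measurableSet

/-- The volume of a ball of `H3` -/
def vball (R : ℝ) : ℝ≥0∞ := volume {P : H3 | cu j P ≤ R}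

theorem vball_lt_top (R : ℝ) : vball R < ∞ := (isCompact_ball j R).measure_lt_top

theorem volume_ball_eq (P : H3) (R : ℝ) : volume {Q : H3 | cu P Q ≤ R} = vball R := by
  obtain ⟨g, hg⟩ := MulAction.exists_smul_eq (GL (Fin 2) ℂ) P j
  have h := (measurePreserving_smul g (volume : Measure H3)).measure_preimage
    (s := {Q : H3 | cu j Q ≤ R}) (isCompact_ball j R).isClosed.measurableSet.nullMeasurableSet
  unfold vball
  rw [← h]
  congr 1
  ext Q
  simp only [Set.mem_ofPred_eq, Set.mem_preimage]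
  rw [← hg, cu_smul]

omit [IsTotallyComplex F] in
theorem volume_xball (R : ℝ) (x : Xi F) :
    volume (xball R x) = vball R ^ Fintype.card (InfinitePlace F) := by
  rw [xball_eq]
  have h : (volume : Measure (Xi F)) (Set.univ.pi fun w : InfinitePlace F => {P | cu (x w) P ≤ R}) =
      ∏ w : InfinitePlace F, volume {P | cu (x w) P ≤ R} :=
    Measure.pi_pi (fun _ : InfinitePlace F => (volume : Measure H3)) _
  rw [h]
  simp_rw [volume_ball_eq]
  rw [Finset.prod_const, Finset.card_univ]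

variable [MulAction (GL (Fin 2) F) D] [IsLevel F D]

/-- **(C1), integral of an invariant function over a ball in the cusp.** -/
theorem exists_lintegral_xball_le (R c : ℝ) (hc : 1 ≤ c) (T : Finset D) : ∃ C : ℝ, 0 ≤ C ∧
    ∀ w : Xi F × D → ℝ≥0∞, IsWeight (PG F) w → ∀ f : Xi F × D → ℝ≥0∞, Measurable f →
    (∀ (g : PG F) z, f (g • z) = f z) → ∀ z ∈ Sieg F c (T : Set D),
      ∫⁻ x' in xball R z.1, f (x', z.2) ≤
        ENNReal.ofReal (C * ∏ w, (z.1 w).y ^ 2) * ∫⁻ z, f z ∂(muZ F D).withDensity w := by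
  obtain ⟨C, hC, h⟩ := exists_count (F := F) R c hc T
  refine ⟨C, hC, fun w hw f hf hinv z hz => ?_⟩
  obtain ⟨h1, h2, h3, -⟩ := hz
  set A : Set (Xi F × D) := xball R z.1 ×ˢ {z.2} with hAdef
  have hA : MeasurableSet A := (measurableSet_xball R z.1).prod (MeasurableSet.singleton _)
  have hsub : A ⊆ ball R T z.1 := by
    rintro p ⟨hp1, hp2⟩
    refine ⟨hp1, ?_⟩
    rw [Set.mem_singleton_iff] at hp2
    rw [hp2]
    exact h1
  have hcount : ∀ z' : Xi F × D, ∑' g : PG F, A.indicator (fun _ => (1 : ℝ≥0∞)) (g • z') ≤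
      ENNReal.ofReal (C * ∏ w, (z.1 w).y ^ 2) := by
    intro z'
    obtain ⟨hfin, hcard⟩ := h z.1 h2 h3 z'
    have hs : {g : PG F | g • z' ∈ A} ⊆ {g : PG F | g • z' ∈ ball R T z.1} := fun g hg => hsub hg
    refine tsum_indicator_le (hfin.subset hs) (le_trans ?_ hcard)
    exact_mod_cast Set.ncard_le_ncard hs hfin
  have h4 := setLIntegral_le_of_mult (μ := muZ F D) hw hA hcount hf hinv
  refine le_trans (le_of_eq ?_) h4
  have h5 : ∫⁻ p in A, f p ∂(muZ F D) = ∫⁻ p, f p ∂((volume.restrict (xball R z.1)).prod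
      (Measure.count.restrict {z.2})) := by
    rw [hAdef, muZ, Measure.prod_restrict]
  rw [h5, lintegral_prod_symm _ hf.aemeasurable]
  rw [lintegral_singleton']
  · simp
  · exact Measurable.lintegral_prod_left' hf

omit [IsTotallyComplex F] [MeasurableSpace D] [DiscreteMeasurableSpace D] [Countable D]
  [MulAction (GL (Fin 2) F) D] [IsLevel F D] in
theorem prod_y_le {c : ℝ} {T : Set D} {z : Xi F × D}
    (hz : z ∈ Sieg F c T) (w : InfinitePlace F) :
    ∏ w', (z.1 w').y ≤ c ^ Fintype.card (InfinitePlace F) *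
      (z.1 w).y ^ Fintype.card (InfinitePlace F) := by
  rw [← mul_pow]
  calc ∏ w', (z.1 w').y ≤ ∏ _w' : InfinitePlace F, c * (z.1 w).y :=
        Finset.prod_le_prod (fun w' _ => (z.1 w').y_pos.le) fun w' _ => hz.2.2.2 w' w
    _ = _ := by rw [Finset.prod_const, Finset.card_univ]

/-- **(C1)** -/
theorem exists_lintegral_enorm_le (R c : ℝ) (hc : 1 ≤ c) (T : Finset D) : ∃ C : ℝ, 0 ≤ C ∧
    ∀ w : Xi F × D → ℝ≥0∞, IsWeight (PG F) w → ∀ f : Xi F × D → ℂ, Measurable f →
    (∀ (g : PG F) z, f (g • z) = f z) → ∀ z ∈ Sieg F c (T : Set D), ∀ v : InfinitePlace F,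
      ∫⁻ x' in xball R z.1, ‖f (x', z.2)‖ₑ ≤
        ENNReal.ofReal (C * (z.1 v).y ^ Fintype.card (InfinitePlace F)) *
          eLpNorm f 2 ((muZ F D).withDensity w) := by
  obtain ⟨C, hC, h⟩ := exists_lintegral_xball_le (F := F) R c hc T
  set n := Fintype.card (InfinitePlace F) with hn
  set V : ℝ := (vball R ^ n).toReal with hV
  have hVt : vball R ^ n ≠ ∞ := ENNReal.pow_ne_top (vball_lt_top R).ne
  refine ⟨Real.sqrt (V * C) * c ^ n, by positivity, fun w hw f hf hinv z hz v => ?_⟩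
  have h1 := h w hw (fun z => ‖f z‖ₑ ^ 2) (hf.enorm.pow_const 2)
    (fun g z => by simp only [hinv]) z hz
  have hmf : Measurable fun x' : Xi F => ‖f (x', z.2)‖ₑ := (hf.comp measurable_prodMk_right).enorm
  have hcs := ENNReal.lintegral_mul_le_Lp_mul_Lq ((volume : Measure (Xi F)).restrict (xball R z.1))
    (Real.HolderConjugate.two_two) (f := fun _ => (1 : ℝ≥0∞)) (g := fun x' => ‖f (x', z.2)‖ₑ)
    aemeasurable_const hmf.aemeasurable
  simp only [Pi.mul_apply, one_mul, lintegral_const, Measure.restrict_apply_univ,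
    ENNReal.rpow_ofNat, one_pow] at hcs
  rw [volume_xball, ← hn] at hcs
  have hnorm : eLpNorm f 2 ((muZ F D).withDensity w) =
      (∫⁻ z, ‖f z‖ₑ ^ 2 ∂(muZ F D).withDensity w) ^ (1 / 2 : ℝ) := by
    rw [eLpNorm_eq_lintegral_rpow_enorm_toReal two_ne_zero ENNReal.ofNat_ne_top]
    simp
  rw [hnorm]
  set I : ℝ≥0∞ := ∫⁻ z, ‖f z‖ₑ ^ 2 ∂(muZ F D).withDensity w with hI
  refine hcs.trans ?_
  have h2 : (∫⁻ x' in xball R z.1, ‖f (x', z.2)‖ₑ ^ 2) ^ (1 / 2 : ℝ) ≤
      (ENNReal.ofReal (C * ∏ w, (z.1 w).y ^ 2) * I) ^ (1 / 2 : ℝ) :=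
    ENNReal.rpow_le_rpow h1 (by norm_num)
  refine (mul_le_mul_right h2 _).trans ?_
  rw [ENNReal.mul_rpow_of_nonneg (ENNReal.ofReal (C * ∏ w, (z.1 w).y ^ 2)) I
    (by norm_num : (0 : ℝ) ≤ 1 / 2), ← mul_assoc]
  refine mul_le_mul_left ?_ _
  have h3 : vball R ^ n = ENNReal.ofReal V := (ENNReal.ofReal_toReal hVt).symm
  have hP : 0 ≤ C * ∏ w, (z.1 w).y ^ 2 := mul_nonneg hC (Finset.prod_nonneg fun w _ => sq_nonneg _)
  rw [h3, ENNReal.ofReal_rpow_of_nonneg ENNReal.toReal_nonneg (by norm_num),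
    ENNReal.ofReal_rpow_of_nonneg hP (by norm_num), ← ENNReal.ofReal_mul (by positivity)]
  refine ENNReal.ofReal_le_ofReal ?_
  rw [← Real.sqrt_eq_rpow, ← Real.sqrt_eq_rpow, ← Real.sqrt_mul ENNReal.toReal_nonneg,
    ← mul_assoc V C, Real.sqrt_mul (mul_nonneg ENNReal.toReal_nonneg hC), Finset.prod_pow,
    Real.sqrt_sq (Finset.prod_nonneg fun w _ => (z.1 w).y_pos.le), mul_assoc]
  exact mul_le_mul_of_nonneg_left (prod_y_le hz v) (Real.sqrt_nonneg _)

/-- **(C1) for kernels**: `κ` bounded by `Λ`, supported in `cu ≤ R`. -/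
theorem exists_norm_integral_le (R c Λ : ℝ) (hc : 1 ≤ c) (hΛ : 0 ≤ Λ) (T : Finset D) :
    ∃ C : ℝ, 0 ≤ C ∧ ∀ κ : Xi F → Xi F → ℂ, (∀ x x', κ x x' ≠ 0 → ∀ w, cu (x w) (x' w) ≤ R) →
    (∀ x x', ‖κ x x'‖ ≤ Λ) →
    ∀ w : Xi F × D → ℝ≥0∞, IsWeight (PG F) w → ∀ f : Xi F × D → ℂ, Measurable f →
    (∀ (g : PG F) z, f (g • z) = f z) → MemLp f 2 ((muZ F D).withDensity w) →
    ∀ z ∈ Sieg F c (T : Set D), ∀ v : InfinitePlace F,
      ‖∫ x', κ z.1 x' * f (x', z.2)‖ ≤ C * (z.1 v).y ^ Fintype.card (InfinitePlace F) *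
          (eLpNorm f 2 ((muZ F D).withDensity w)).toReal := by
  obtain ⟨C, hC, h⟩ := exists_lintegral_enorm_le (F := F) R c hc T
  refine ⟨Λ * C, by positivity, fun κ hs hb w hw f hf hinv hmem z hz v => ?_⟩
  have hy := (z.1 v).y_pos
  have h1 : ‖∫ x', κ z.1 x' * f (x', z.2)‖ₑ ≤
      ENNReal.ofReal (Λ * C * (z.1 v).y ^ Fintype.card (InfinitePlace F)) *
        eLpNorm f 2 ((muZ F D).withDensity w) := by
    refine (enorm_integral_le_lintegral_enorm _).trans ?_
    have h2 : ∀ x', ‖κ z.1 x' * f (x', z.2)‖ₑ ≤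
        (xball R z.1).indicator (fun x' => ENNReal.ofReal Λ * ‖f (x', z.2)‖ₑ) x' := by
      intro x'
      by_cases hx : x' ∈ xball R z.1
      · rw [Set.indicator_of_mem hx, enorm_mul]
        refine mul_le_mul_left ?_ _
        rw [← ofReal_norm]
        exact ENNReal.ofReal_le_ofReal (hb _ _)
      · have : κ z.1 x' = 0 := by
          by_contra h0
          exact hx (hs _ _ h0)
        rw [this, zero_mul, enorm_zero]
        exact zero_le
    refine (lintegral_mono h2).trans ?_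
    have hmf : Measurable fun x' : Xi F => ‖f (x', z.2)‖ₑ :=
      (hf.comp measurable_prodMk_right).enorm
    rw [lintegral_indicator (measurableSet_xball R z.1), lintegral_const_mul _ hmf]
    refine (mul_le_mul_right (h w hw f hf hinv z hz v) _).trans (le_of_eq ?_)
    rw [← mul_assoc, ← ENNReal.ofReal_mul hΛ, mul_assoc]
  have h3 := hmem.2.ne
  have h4 := ENNReal.toReal_mono (ENNReal.mul_ne_top ENNReal.ofReal_ne_top h3) h1
  rw [toReal_enorm, ENNReal.toReal_mul, ENNReal.toReal_ofReal (by positivity)] at h4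
  exact h4

end Main

end Fermat.Agent.LT.Red
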