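import Mathlib
import Fermat.Agent.LT.Red.RowL2

/-!
# Local properties of `x ↦ ∫ κ(x, x') f(x') dx'` on `X_∞` (S47A, block B3)
-/

set_option autoImplicit false

open NumberField MeasureTheory ENNReal Filter Topology
open Fermat.Agent.LT.H3

noncomputable section

namespace Fermat.Agent.LT.Red

/-- A weak triangle inequality. -/
theorem cu_le_of_le {P Q S : H3} {A B : ℝ} (h1 : cu P Q ≤ A) (h2 : cu Q S ≤ B) :
    cu P S ≤ 12 * (A * B) := by
  have hA : 1 ≤ A := (one_le_cu P Q).trans h1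
  have hB : 1 ≤ B := (one_le_cu Q S).trans h2
  have hP := P.y_pos
  have hQ := Q.y_pos
  have hS := S.y_pos
  have a1 : Q.y ≤ 2 * A * P.y := y_le_of_cu_le h1
  have a2 : P.y ≤ 2 * A * Q.y := y_le_of_cu_le (by rw [cu_comm]; exact h1)
  have b1 : S.y ≤ 2 * B * Q.y := y_le_of_cu_le h2
  have b2 : Q.y ≤ 2 * B * S.y := y_le_of_cu_le (by rw [cu_comm]; exact h2)
  have n1 := normSq_le_of_cu_le h1
  have n2 := normSq_le_of_cu_le h2
  have c1 : S.y ≤ 4 * (A * B) * P.y := by
    calc S.y ≤ 2 * B * Q.y := b1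
      _ ≤ 2 * B * (2 * A * P.y) := by gcongr
      _ = _ := by ring
  have c2 : P.y ≤ 4 * (A * B) * S.y := by
    calc P.y ≤ 2 * A * Q.y := a2
      _ ≤ 2 * A * (2 * B * S.y) := by gcongr
      _ = _ := by ring
  have m1 : Complex.normSq (P.z - Q.z) ≤ 4 * (A * B) * (P.y * S.y) := by
    calc Complex.normSq (P.z - Q.z) ≤ 2 * A * P.y * Q.y := n1
      _ ≤ 2 * A * P.y * (2 * B * S.y) := by gcongr
      _ = _ := by ring
  have m2 : Complex.normSq (Q.z - S.z) ≤ 4 * (A * B) * (P.y * S.y) := by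
    calc Complex.normSq (Q.z - S.z) ≤ 2 * B * Q.y * S.y := n2
      _ ≤ 2 * B * (2 * A * P.y) * S.y := by gcongr
      _ = _ := by ring
  have m3 : Complex.normSq (P.z - S.z) ≤ 16 * (A * B) * (P.y * S.y) := by
    have e : P.z - S.z = (P.z - Q.z) + (Q.z - S.z) := by ring
    have h : Complex.normSq (P.z - S.z) ≤
        2 * (Complex.normSq (P.z - Q.z) + Complex.normSq (Q.z - S.z)) := by
      rw [e, Complex.normSq_eq_norm_sq, Complex.normSq_eq_norm_sq, Complex.normSq_eq_norm_sq]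
      have h3 := norm_add_le (P.z - Q.z) (Q.z - S.z)
      nlinarith [sq_nonneg (‖P.z - Q.z‖ - ‖Q.z - S.z‖), norm_nonneg (P.z - Q.z),
        norm_nonneg (Q.z - S.z), norm_nonneg ((P.z - Q.z) + (Q.z - S.z))]
    linarith
  unfold cu
  rw [div_le_iff₀ (by positivity)]
  have k1 : P.y ^ 2 ≤ 4 * (A * B) * (P.y * S.y) := by
    calc P.y ^ 2 = P.y * P.y := by ring
      _ ≤ P.y * (4 * (A * B) * S.y) := by gcongr
      _ = _ := by ring
  have k2 : S.y ^ 2 ≤ 4 * (A * B) * (P.y * S.y) := by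
    calc S.y ^ 2 = S.y * S.y := by ring
      _ ≤ 4 * (A * B) * P.y * S.y := by gcongr
      _ = _ := by ring
  nlinarith

variable {F : Type*} [Field F] [NumberField F]

omit [NumberField F] in
theorem isCompact_xball (R : ℝ) (x : Xi F) : IsCompact (xball R x) := by
  rw [xball_eq]
  exact isCompact_univ_pi fun w => isCompact_ball (x w) R

theorem xball_mem_nhds {R : ℝ} (hR : 1 < R) (x : Xi F) : xball R x ∈ 𝓝 x := by
  rw [xball_eq]
  refine set_pi_mem_nhds Set.finite_univ fun w _ => ?_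
  have h1 : IsOpen {P : H3 | cu (x w) P < R} :=
    isOpen_lt (continuous_cu_right (x w)) continuous_const
  refine mem_of_superset (h1.mem_nhds ?_) fun P (hP : cu (x w) P < R) => hP.le
  show cu (x w) (x w) < R
  rw [cu_self]; exact hR

omit [NumberField F] in
theorem xball_subset {R S : ℝ} {x x' : Xi F} (h : x' ∈ xball S x) :
    xball R x' ⊆ xball (12 * (S * R)) x := fun _ hy w => cu_le_of_le (h w) (hy w)

section Op

variable {κ : Xi F → Xi F → ℂ} {R Λ : ℝ} (hs : ∀ x x', κ x x' ≠ 0 → ∀ w, cu (x w) (x' w) ≤ R)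
  (hb : ∀ x x', ‖κ x x'‖ ≤ Λ)

include hs hb in
/-- The operator is bounded by the integral over a ball. -/
theorem norm_integral_ker_le {f : Xi F → ℂ} (x : Xi F) :
    ‖∫ x', κ x x' * f x'‖ₑ ≤ ENNReal.ofReal Λ * ∫⁻ x' in xball R x, ‖f x'‖ₑ := by
  refine (enorm_integral_le_lintegral_enorm _).trans ?_
  have h2 : ∀ x', ‖κ x x' * f x'‖ₑ ≤
      (xball R x).indicator (fun x' => ENNReal.ofReal Λ * ‖f x'‖ₑ) x' := by
    intro x'
    by_cases hx : x' ∈ xball R x
    · rw [Set.indicator_of_mem hx, enorm_mul]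
      refine mul_le_mul_left ?_ _
      rw [← ofReal_norm]
      exact ENNReal.ofReal_le_ofReal (hb _ _)
    · have : κ x x' = 0 := by
        by_contra h0
        exact hx (hs _ _ h0)
      rw [this, zero_mul, enorm_zero]
      exact zero_le
  refine (lintegral_mono h2).trans ?_
  rw [lintegral_indicator (measurableSet_xball R x)]
  exact (lintegral_const_mul' _ _ ENNReal.ofReal_ne_top).le

include hs hb in
/-- Local boundedness. -/
theorem exists_local_bound {f : Xi F → ℂ} (hf : LocallyIntegrable f) (x : Xi F) (S : ℝ) :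
    ∃ M : ℝ, 0 ≤ M ∧ ∀ x₁ ∈ xball S x, ‖∫ x', κ x₁ x' * f x'‖ ≤ M := by
  have hint : IntegrableOn f (xball (12 * (S * R)) x) :=
    hf.integrableOn_isCompact (isCompact_xball _ x)
  have hfin : ENNReal.ofReal Λ * ∫⁻ x' in xball (12 * (S * R)) x, ‖f x'‖ₑ ≠ ∞ :=
    ENNReal.mul_ne_top ENNReal.ofReal_ne_top hint.2.ne
  refine ⟨(ENNReal.ofReal Λ * ∫⁻ x' in xball (12 * (S * R)) x, ‖f x'‖ₑ).toReal,
    ENNReal.toReal_nonneg, fun x₁ hx₁ => ?_⟩
  have h1 := norm_integral_ker_le hs hb (f := f) x₁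
  have h2 : ENNReal.ofReal Λ * ∫⁻ x' in xball R x₁, ‖f x'‖ₑ ≤
      ENNReal.ofReal Λ * ∫⁻ x' in xball (12 * (S * R)) x, ‖f x'‖ₑ := by
    gcongr
    exact xball_subset hx₁
  have h3 := ENNReal.toReal_mono hfin (h1.trans h2)
  rwa [toReal_enorm] at h3

theorem measurable_integral_ker (hm : Measurable (Function.uncurry κ)) {f : Xi F → ℂ}
    (hf : Measurable f) : Measurable fun x => ∫ x', κ x x' * f x' := by
  have h : StronglyMeasurable (Function.uncurry fun x x' : Xi F => κ x x' * f x') :=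
    (hm.mul (hf.comp measurable_snd)).stronglyMeasurable
  exact h.integral_prod_right.measurable

include hs hb in
theorem locallyIntegrable_integral_ker (hm : Measurable (Function.uncurry κ)) {f : Xi F → ℂ}
    (hf : Measurable f) (hl : LocallyIntegrable f) :
    LocallyIntegrable fun x => ∫ x', κ x x' * f x' := by
  intro x
  obtain ⟨M, hM, h⟩ := exists_local_bound hs hb hl x 2
  refine ⟨xball 2 x, xball_mem_nhds one_lt_two x, ?_⟩
  refine Measure.integrableOn_of_bounded (M := M) (isCompact_xball 2 x).measure_lt_top.ne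
    (measurable_integral_ker hm hf).aestronglyMeasurable ?_
  exact (ae_restrict_iff' (measurableSet_xball 2 x)).2 (Eventually.of_forall fun x₁ hx₁ => h x₁ hx₁)

include hs hb in
/-- Continuity. -/
theorem continuous_integral_ker (hc : Continuous (Function.uncurry κ)) {f : Xi F → ℂ}
    (hf : Measurable f) (hl : LocallyIntegrable f) :
    Continuous fun x => ∫ x', κ x x' * f x' := by
  refine continuous_iff_continuousAt.2 fun x => ?_
  have hint : IntegrableOn f (xball (12 * (2 * R)) x) :=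
    hl.integrableOn_isCompact (isCompact_xball _ x)
  refine continuousAt_of_dominated (F := fun x x' => κ x x' * f x')
    (bound := (xball (12 * (2 * R)) x).indicator fun x' => Λ * ‖f x'‖) ?_ ?_ ?_ ?_
  · refine Eventually.of_forall fun x₁ => ?_
    have h1 : Continuous fun x' => κ x₁ x' := hc.comp (continuous_const.prodMk continuous_id)
    exact (h1.measurable.mul hf).aestronglyMeasurable
  · filter_upwards [xball_mem_nhds one_lt_two x] with x₁ hx₁
    refine Eventually.of_forall fun x' => ?_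
    by_cases hx : x' ∈ xball R x₁
    · rw [Set.indicator_of_mem (xball_subset hx₁ hx), norm_mul]
      exact mul_le_mul_of_nonneg_right (hb _ _) (norm_nonneg _)
    · have : κ x₁ x' = 0 := by
        by_contra h0
        exact hx (hs _ _ h0)
      rw [this, zero_mul, norm_zero]
      refine Set.indicator_nonneg (fun x' _ => ?_) _
      exact mul_nonneg ((norm_nonneg _).trans (hb x x)) (norm_nonneg _)
  · exact (integrable_indicator_iff (measurableSet_xball _ x)).2 (hint.norm.const_mul Λ)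
  · refine Eventually.of_forall fun x' => ?_
    have h1 : Continuous fun x₁ => κ x₁ x' := hc.comp (continuous_id.prodMk continuous_const)
    exact (h1.mul continuous_const).continuousAt

end Op

/-! ### `L²` functions on the quotient are locally integrable -/

section L2

variable [IsTotallyComplex F] {D : Type*} [MeasurableSpace D] [DiscreteMeasurableSpace D]
  [Countable D] [MulAction (GL (Fin 2) F) D]

omit [IsTotallyComplex F] [MeasurableSpace D] [DiscreteMeasurableSpace D] [Countable D]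
  [MulAction (GL (Fin 2) F) D] in
theorem exists_mem_Sieg (z : Xi F × D) : ∃ c : ℝ, 1 ≤ c ∧ z ∈ Sieg F c {z.2} := by
  have h1 : ∀ w, 0 < (z.1 w).y := fun w => (z.1 w).y_pos
  have s1 : 0 ≤ ∑ w, ‖(z.1 w).z‖ := Finset.sum_nonneg fun w _ => norm_nonneg _
  have s2 : 0 ≤ ∑ w, ((z.1 w).y)⁻¹ := Finset.sum_nonneg fun w _ => (inv_pos.2 (h1 w)).le
  have s3 : 0 ≤ ∑ w, (z.1 w).y := Finset.sum_nonneg fun w _ => (h1 w).le
  have s4 := mul_nonneg s3 s2
  refine ⟨1 + ∑ w, ‖(z.1 w).z‖ + ∑ w, ((z.1 w).y)⁻¹ + (∑ w, (z.1 w).y) * ∑ w, ((z.1 w).y)⁻¹,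
    by linarith, rfl, fun w => ?_, fun w => ?_, fun w w' => ?_⟩
  · have := Finset.single_le_sum (f := fun w => ‖(z.1 w).z‖) (fun w _ => norm_nonneg _)
      (Finset.mem_univ w)
    linarith
  · have h2 := Finset.single_le_sum (f := fun w => ((z.1 w).y)⁻¹)
      (fun w _ => (inv_pos.2 (h1 w)).le) (Finset.mem_univ w)
    rw [inv_le_comm₀ (by linarith) (h1 w)]
    have h3 : ((z.1 w).y)⁻¹ ≤ ∑ w, ((z.1 w).y)⁻¹ := h2
    linarith
  · have h2 : (z.1 w).y ≤ ∑ w, (z.1 w).y := Finset.single_le_sum (f := fun w => (z.1 w).y)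
      (fun w _ => (h1 w).le) (Finset.mem_univ w)
    have h3 : ((z.1 w').y)⁻¹ ≤ ∑ w, ((z.1 w).y)⁻¹ :=
      Finset.single_le_sum (f := fun w => ((z.1 w).y)⁻¹) (fun w _ => (inv_pos.2 (h1 w)).le)
        (Finset.mem_univ w')
    have h4 : (z.1 w).y ≤ ((∑ w, (z.1 w).y) * ∑ w, ((z.1 w).y)⁻¹) * (z.1 w').y := by
      calc (z.1 w).y = (z.1 w).y * ((z.1 w').y)⁻¹ * (z.1 w').y := by
            rw [mul_assoc, inv_mul_cancel₀ (h1 w').ne', mul_one]
        _ ≤ ((∑ w, (z.1 w).y) * ∑ w, ((z.1 w).y)⁻¹) * (z.1 w').y := by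
            refine mul_le_mul_of_nonneg_right ?_ (h1 w').le
            exact mul_le_mul h2 h3 (inv_pos.2 (h1 w')).le s3
    refine h4.trans (mul_le_mul_of_nonneg_right ?_ (h1 w').le)
    linarith

variable [IsLevel F D]

theorem locallyIntegrable_of_memLp {w : Xi F × D → ℝ≥0∞} (hw : IsWeight (PG F) w)
    {f : Xi F × D → ℂ} (hf : Measurable f) (hinv : ∀ (g : GL (Fin 2) F) z, f (g • z) = f z)
    (hmem : MemLp f 2 ((muZ F D).withDensity w)) (d : D) :
    LocallyIntegrable fun x => f (x, d) := by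
  intro x
  obtain ⟨c, hc, hz⟩ := exists_mem_Sieg (F := F) (x, d)
  obtain ⟨C, -, h⟩ := exists_lintegral_enorm_le (F := F) (D := D) 2 c hc {d}
  obtain ⟨v⟩ : Nonempty (InfinitePlace F) := inferInstance
  have h1 := h w hw f hf (fun g z => by
    obtain ⟨g, rfl⟩ := QuotientGroup.mk_surjective g
    exact hinv g z) (x, d) (by simpa using hz) v
  refine ⟨xball 2 x, xball_mem_nhds one_lt_two x,
    (hf.comp measurable_prodMk_right).aestronglyMeasurable, ?_⟩
  exact h1.trans_lt (ENNReal.mul_lt_top ENNReal.ofReal_lt_top hmem.2)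

end L2

end Fermat.Agent.LT.Red
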