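import Fermat.Agent.LT.CT
import Fermat.Agent.LT.PeriodicBound

/-!
# The lattices `m 𝓞 F` in `ℂⁿ`
-/

namespace Fermat.Agent.LT

open Matrix NumberField MeasureTheory H3 Module
open scoped Pointwise

variable (F : Type*) [Field F] [NumberField F] [IsTotallyComplex F]

/-- The basis of `m 𝓞 F`. -/
noncomputable def mBasis {m : ℕ} (hm : m ≠ 0) :
    Basis (Free.ChooseBasisIndex ℤ (𝓞 F)) ℝ (InfinitePlace F → ℂ) :=
  (embBasis F).unitsSMul fun _ => Units.mk0 (m : ℝ) (Nat.cast_ne_zero.2 hm)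

/-- The lattice `m 𝓞 F`. -/
noncomputable def mLat {m : ℕ} (hm : m ≠ 0) : Submodule ℤ (InfinitePlace F → ℂ) :=
  Submodule.span ℤ (Set.range (mBasis F hm))

noncomputable instance {m : ℕ} (hm : m ≠ 0) : DiscreteTopology (mLat F hm) :=
  inferInstanceAs (DiscreteTopology (Submodule.span ℤ (Set.range (mBasis F hm))))

noncomputable instance {m : ℕ} (hm : m ≠ 0) : IsZLattice ℝ (mLat F hm) :=
  inferInstanceAs (IsZLattice ℝ (Submodule.span ℤ (Set.range (mBasis F hm))))

/-- The integral basis of `m 𝓞 F`. -/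
noncomputable def mZBasis {m : ℕ} (hm : m ≠ 0) :
    Basis (Free.ChooseBasisIndex ℤ (𝓞 F)) ℤ (mLat F hm) :=
  (mBasis F hm).restrictScalars ℤ

theorem mZBasis_ofZLatticeBasis {m : ℕ} (hm : m ≠ 0) :
    (mZBasis F hm).ofZLatticeBasis ℝ = mBasis F hm := by
  apply Basis.eq_of_apply_eq
  intro i
  rw [Basis.ofZLatticeBasis_apply]
  exact (mBasis F hm).restrictScalars_apply ℤ i

variable {F}

theorem mBasis_apply {m : ℕ} (hm : m ≠ 0) (i : Free.ChooseBasisIndex ℤ (𝓞 F)) :
    mBasis F hm i = (m : ℝ) • embBasis F i := by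
  rw [mBasis, Basis.unitsSMul_apply]; rfl

theorem fdom_eq {m : ℕ} (hm : m ≠ 0) : fdom F m = ZSpan.fundamentalDomain (mBasis F hm) := by
  have hm' : (m : ℝ) ≠ 0 := Nat.cast_ne_zero.2 hm
  ext x
  rw [fdom, Set.mem_smul_set_iff_inv_smul_mem₀ hm', ZSpan.mem_fundamentalDomain,
    ZSpan.mem_fundamentalDomain]
  refine forall_congr' fun i => ?_
  rw [mBasis, Basis.repr_unitsSMul, map_smul, Finsupp.smul_apply]
  rfl

theorem mem_mLat {m : ℕ} (hm : m ≠ 0) {x : InfinitePlace F → ℂ} :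
    x ∈ mLat F hm ↔ ∃ a : 𝓞 F, emb F ((m : F) * a) = x := by
  have h1 : mLat F hm = (Submodule.span ℤ (Set.range (embBasis F))).map
      ((LinearMap.lsmul ℝ (InfinitePlace F → ℂ) (m : ℝ)).restrictScalars ℤ) := by
    rw [Submodule.map_span, ← Set.range_comp]
    unfold mLat
    congr 2
    funext i
    exact mBasis_apply hm i
  rw [h1]
  constructor
  · rintro ⟨y, hy, rfl⟩
    obtain ⟨a, rfl⟩ := (mem_span_embBasis F).1 hy
    refine ⟨a, ?_⟩
    funext w
    simp
  · rintro ⟨a, rfl⟩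
    refine ⟨emb F a, (mem_span_embBasis F).2 ⟨a, rfl⟩, ?_⟩
    funext w
    simp

theorem measurableSet_fdom (m : ℕ) : MeasurableSet (fdom F m) := by
  by_cases hm : m = 0
  · subst hm
    have h : fdom F 0 ⊆ {0} := by
      rintro _ ⟨x, -, rfl⟩
      simp
    exact (Set.finite_singleton _).subset h |>.measurableSet
  · rw [fdom_eq hm]
    exact ZSpan.fundamentalDomain_measurableSet _

theorem isBounded_fdom (m : ℕ) : Bornology.IsBounded (fdom F m) := by
  by_cases hm : m = 0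
  · subst hm
    have h : fdom F 0 ⊆ {0} := by
      rintro _ ⟨x, -, rfl⟩
      simp
    exact Bornology.isBounded_singleton.subset h
  · rw [fdom_eq hm]
    exact ZSpan.fundamentalDomain_isBounded _

variable {D : Type*} [MulAction (GL (Fin 2) F) D]

/-- Invariant functions are periodic. -/
theorem periodic_of_inv {E : Type*} {f : Xi F × D → E} (hf : ∀ (g : GL (Fin 2) F) z, f (g • z) = f z)
    {m : ℕ} (hm : m ≠ 0) {d : D} (hd : ∀ a : 𝓞 F, nb ((m : F) * a) • d = d)
    {y : InfinitePlace F → ℝ} (hy : ∀ w, 0 < y w) (ξ : mLat F hm) (z : InfinitePlace F → ℂ) :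
    f (pt ((ξ : InfinitePlace F → ℂ) + z) y, d) = f (pt z y, d) := by
  obtain ⟨a, ha⟩ := (mem_mLat hm).1 ξ.2
  rw [← hf (nb ((m : F) * a)) (pt z y, d)]
  have h1 : nb ((m : F) * a) • ((pt z y, d) : Xi F × D) =
      (nb ((m : F) * a) • pt z y, nb ((m : F) * a) • d) := rfl
  rw [h1, hd, nb_smul_pt _ hy, ha, add_comm]

end Fermat.Agent.LT
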