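import Mathlib

/-!
# Finitely many cusps

Every nonzero vector of `(𝓞 F)²` is, up to a scalar, of the form `(0, 1) σ γ` with `σ` in a finite set
and `γ ∈ SL₂(𝓞 F)`.
-/

namespace Fermat.Agent.LT

open NumberField Matrix
open scoped MatrixGroups nonZeroDivisors

/-- Two pairs generating the same nonzero ideal of a Dedekind domain are equivalent under `SL₂`. -/
theorem exists_SL2_of_span_eq {R : Type*} [CommRing R] [IsDedekindDomain R] (p q : Fin 2 → R)
    (hp : p ≠ 0) (h : Ideal.span {p 0, p 1} = Ideal.span {q 0, q 1}) :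
    ∃ γ : SL(2, R), p ᵥ* (γ : Matrix (Fin 2) (Fin 2) R) = q := by
  obtain ⟨c, hc, hc0⟩ : ∃ c ∈ Ideal.span {p 0, p 1}, c ≠ 0 := by
    by_cases h0 : p 0 = 0
    · refine ⟨p 1, Ideal.subset_span (by simp), fun h1 => hp ?_⟩
      funext i
      fin_cases i <;> simp [h0, h1]
    · exact ⟨p 0, Ideal.subset_span (by simp), h0⟩
  obtain ⟨J', hJ'⟩ := Ideal.dvd_span_singleton.2 hc
  have key : ∀ r : Fin 2 → R, Ideal.span {r 0, r 1} * J' = Ideal.span {c} →
      ∃ s t : R, s ∈ J' ∧ t ∈ J' ∧ s * r 1 - t * r 0 = c := by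
    intro r hr
    have h1 : c ∈ Ideal.span {r 0, r 1} * J' := by
      rw [hr]; exact Ideal.mem_span_singleton_self c
    rw [Ideal.span_insert, Ideal.sup_mul, Submodule.mem_sup] at h1
    obtain ⟨x, hx, y, hy, hxy⟩ := h1
    obtain ⟨t, ht, rfl⟩ := Ideal.mem_span_singleton_mul.1 hx
    obtain ⟨s, hs, rfl⟩ := Ideal.mem_span_singleton_mul.1 hy
    exact ⟨s, -t, hs, neg_mem ht, by rw [← hxy]; ring⟩
  obtain ⟨s, t, hs, ht, hst⟩ := key p hJ'.symm
  obtain ⟨s', t', hs', ht', hst'⟩ := key q (by rw [← h, hJ'])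
  -- `c` divides the product of an element of the ideal with an element of `J'`
  have hdiv : ∀ a b a' b' : R, a ∈ Ideal.span {p 0, p 1} → b ∈ J' → a' ∈ Ideal.span {p 0, p 1} →
      b' ∈ J' → c ∣ a * b - a' * b' := by
    intro a b a' b' ha hb ha' hb'
    rw [← Ideal.mem_span_singleton, hJ']
    exact sub_mem (Ideal.mul_mem_mul ha hb) (Ideal.mul_mem_mul ha' hb')
  have hp0 : p 0 ∈ Ideal.span {p 0, p 1} := Ideal.subset_span (by simp)
  have hp1 : p 1 ∈ Ideal.span {p 0, p 1} := Ideal.subset_span (by simp)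
  have hq0 : q 0 ∈ Ideal.span {p 0, p 1} := by rw [h]; exact Ideal.subset_span (by simp)
  have hq1 : q 1 ∈ Ideal.span {p 0, p 1} := by rw [h]; exact Ideal.subset_span (by simp)
  obtain ⟨m00, h00⟩ := hdiv (p 1) s' (q 0) t hp1 hs' hq0 ht
  obtain ⟨m01, h01⟩ := hdiv (p 1) t' (q 1) t hp1 ht' hq1 ht
  obtain ⟨m10, h10⟩ := hdiv (q 0) s (p 0) s' hq0 hs hp0 hs'
  obtain ⟨m11, h11⟩ := hdiv (q 1) s (p 0) t' hq1 hs hp0 ht'
  refine ⟨⟨!![m00, m01; m10, m11], ?_⟩, ?_⟩
  · rw [Matrix.det_fin_two_of]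
    apply mul_left_cancel₀ hc0
    apply mul_left_cancel₀ hc0
    have e1 : c * (c * (m00 * m11 - m01 * m10)) = (c * m00) * (c * m11) - (c * m01) * (c * m10) := by
      ring
    rw [e1, ← h00, ← h01, ← h10, ← h11]
    linear_combination (s * p 1 - t * p 0) * hst' + c * hst
  · funext j
    fin_cases j
    · simp [Matrix.vecMul, dotProduct, Fin.sum_univ_two]
      apply mul_left_cancel₀ hc0
      linear_combination p 0 * (-h00) - p 1 * h10 + q 0 * hst
    · simp [Matrix.vecMul, dotProduct, Fin.sum_univ_two]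
      apply mul_left_cancel₀ hc0
      linear_combination p 0 * (-h01) - p 1 * h11 + q 1 * hst

/-- Every nonzero row is the bottom row of an invertible matrix. -/
theorem exists_gl_row {F : Type*} [Field F] (w : Fin 2 → F) (hw : w ≠ 0) :
    ∃ g : GL (Fin 2) F, ∀ j, g 1 j = w j := by
  by_cases h : w 1 = 0
  · have h0 : w 0 ≠ 0 := by
      intro h0
      apply hw
      funext i
      fin_cases i <;> simp [h0, h]
    refine ⟨GeneralLinearGroup.mkOfDetNeZero !![0, 1; w 0, w 1] ?_, ?_⟩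
    · rw [Matrix.det_fin_two_of]
      simpa using h0
    · intro j
      fin_cases j <;> rfl
  · refine ⟨GeneralLinearGroup.mkOfDetNeZero !![1, 0; w 0, w 1] ?_, ?_⟩
    · rw [Matrix.det_fin_two_of]
      simpa using h
    · intro j
      fin_cases j <;> rfl

variable (F : Type*) [Field F] [NumberField F]

/-- **Finitely many cusps.** -/
theorem exists_cusp_reps : ∃ (S : Finset (GL (Fin 2) F)) (B : ℝ), ∀ v : Fin 2 → 𝓞 F, v ≠ 0 →
    ∃ σ ∈ S, ∃ γ : SL(2, 𝓞 F), ∃ a : F, a ≠ 0 ∧ ∏ w : InfinitePlace F, w a ^ w.mult ≤ B ∧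
      ∀ j, (σ * SpecialLinearGroup.mapGL F γ) 1 j = a * v j := by
  classical
  -- the ideal generated by a nonzero pair
  have hI : ∀ v : Fin 2 → 𝓞 F, v ≠ 0 → Ideal.span {v 0, v 1} ∈ (Ideal (𝓞 F))⁰ := by
    intro v hv
    rw [mem_nonZeroDivisors_iff_ne_zero]
    intro h
    rw [Ideal.zero_eq_bot, Ideal.span_eq_bot] at h
    apply hv
    funext i
    fin_cases i
    · exact h _ (by simp)
    · exact h _ (by simp)
  -- choose a representative in each class
  let P : ClassGroup (𝓞 F) → (Fin 2 → 𝓞 F) → Prop := fun C v =>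
    ∃ hv : v ≠ 0, ClassGroup.mk0 ⟨_, hI v hv⟩ = C
  let rep : ClassGroup (𝓞 F) → (Fin 2 → 𝓞 F) := fun C =>
    if h : ∃ v, P C v then h.choose else fun _ => 1
  have hrep0 : ∀ C, rep C ≠ 0 := by
    intro C
    by_cases h : ∃ v, P C v
    · simp only [rep, dif_pos h]
      exact h.choose_spec.1
    · simp only [rep, dif_neg h]
      intro h0
      exact one_ne_zero (congrFun h0 0)
  have hrep : ∀ v (hv : v ≠ 0), P (ClassGroup.mk0 ⟨_, hI v hv⟩)
      (rep (ClassGroup.mk0 ⟨_, hI v hv⟩)) := by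
    intro v hv
    have h : ∃ v', P (ClassGroup.mk0 ⟨_, hI v hv⟩) v' := ⟨v, hv, rfl⟩
    simp only [rep, dif_pos h]
    exact h.choose_spec
  have hg : ∀ C, ∃ g : GL (Fin 2) F, ∀ j, g 1 j = ((rep C j : 𝓞 F) : F) := by
    intro C
    refine exists_gl_row _ fun h => hrep0 C ?_
    funext j
    exact RingOfIntegers.ext (congrFun h j)
  choose g hg using hg
  refine ⟨Finset.univ.image g, ∑ C : ClassGroup (𝓞 F),
    (Ideal.absNorm (Ideal.span {rep C 0, rep C 1}) : ℝ), fun v hv => ?_⟩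
  set C := ClassGroup.mk0 ⟨_, hI v hv⟩ with hC
  obtain ⟨h0, h1⟩ : P C (rep C) := hrep v hv
  obtain ⟨y, x, hy, hx, hxy⟩ := ClassGroup.mk0_eq_mk0_iff.1 h1
  simp only at hxy
  have e1 : ∀ (a : 𝓞 F) (r : Fin 2 → 𝓞 F), Ideal.span {a} * Ideal.span {r 0, r 1} =
      Ideal.span {(a • r) 0, (a • r) 1} := by
    intro a r
    rw [Ideal.span_mul_span']
    congr 1
    simp [Set.singleton_mul, Set.image_insert_eq]
  rw [e1, e1] at hxy
  obtain ⟨γ, hγ⟩ := exists_SL2_of_span_eq (y • rep C) (x • v) (smul_ne_zero hy h0) hxy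
  have hyF : ((y : 𝓞 F) : F) ≠ 0 := by exact_mod_cast hy
  have hxF : ((x : 𝓞 F) : F) ≠ 0 := by exact_mod_cast hx
  refine ⟨g C, Finset.mem_image_of_mem _ (Finset.mem_univ _), γ, (x : F) / y,
    div_ne_zero hxF hyF, ?_, ?_⟩
  · rw [InfinitePlace.prod_eq_abs_norm]
    -- norms
    have h2 : Ideal.absNorm (Ideal.span {y}) * Ideal.absNorm (Ideal.span {rep C 0, rep C 1}) =
        Ideal.absNorm (Ideal.span {x}) * Ideal.absNorm (Ideal.span {v 0, v 1}) := by
      rw [← map_mul, ← map_mul, e1, e1, hxy]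
    have h3 : (1 : ℝ) ≤ Ideal.absNorm (Ideal.span {v 0, v 1}) := by
      have : Ideal.absNorm (Ideal.span {v 0, v 1}) ≠ 0 := by
        rw [Ne, Ideal.absNorm_eq_zero_iff]
        exact nonZeroDivisors.ne_zero (hI v hv)
      exact_mod_cast Nat.one_le_iff_ne_zero.2 this
    have h4 : ∀ a : 𝓞 F, ((|Algebra.norm ℚ (a : F)| : ℚ) : ℝ) = Ideal.absNorm (Ideal.span {a}) := by
      intro a
      rw [Ideal.absNorm_span_singleton]
      have : Algebra.norm ℚ (a : F) = (Algebra.norm ℤ a : ℤ) := by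
        exact (Algebra.coe_norm_int a).symm
      rw [this]
      push_cast
      rw [Nat.cast_natAbs]
      push_cast
      rfl
    have h5 : ((|Algebra.norm ℚ ((x : F) / y)| : ℚ) : ℝ) * Ideal.absNorm (Ideal.span {y})
        = Ideal.absNorm (Ideal.span {x}) := by
      rw [← h4, ← h4, ← Rat.cast_mul, ← abs_mul, ← map_mul, div_mul_cancel₀ _ hyF]
    have hy0 : (0 : ℝ) < Ideal.absNorm (Ideal.span {y}) := by
      have : Ideal.absNorm (Ideal.span {y}) ≠ 0 := by
        rw [Ne, Ideal.absNorm_eq_zero_iff, Ideal.span_singleton_eq_bot]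
        exact hy
      exact_mod_cast Nat.pos_of_ne_zero this
    have h6 : ((|Algebra.norm ℚ ((x : F) / y)| : ℚ) : ℝ) ≤
        Ideal.absNorm (Ideal.span {rep C 0, rep C 1}) := by
      have h2' : (Ideal.absNorm (Ideal.span {y}) : ℝ) *
          Ideal.absNorm (Ideal.span {rep C 0, rep C 1}) =
          Ideal.absNorm (Ideal.span {x}) * Ideal.absNorm (Ideal.span {v 0, v 1}) := by
        exact_mod_cast h2
      rw [← h5] at h2'
      have h7 : (Ideal.absNorm (Ideal.span {rep C 0, rep C 1}) : ℝ) =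
          ((|Algebra.norm ℚ ((x : F) / y)| : ℚ) : ℝ) * Ideal.absNorm (Ideal.span {v 0, v 1}) := by
        apply mul_left_cancel₀ hy0.ne'
        rw [h2']
        ring
      rw [h7]
      refine le_mul_of_one_le_right ?_ h3
      exact_mod_cast abs_nonneg _
    refine h6.trans ?_
    exact Finset.single_le_sum (f := fun C : ClassGroup (𝓞 F) =>
      (Ideal.absNorm (Ideal.span {rep C 0, rep C 1}) : ℝ)) (fun _ _ => by positivity)
      (Finset.mem_univ C)
  · intro j
    have h2 := congrFun hγ j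
    simp only [Matrix.vecMul, dotProduct, Fin.sum_univ_two, Pi.smul_apply, smul_eq_mul] at h2
    have h3 := congrArg (algebraMap (𝓞 F) F) h2
    simp only [map_add, map_mul] at h3
    have h4 : (g C * SpecialLinearGroup.mapGL F γ) 1 j =
        (rep C 0 : F) * (γ 0 j : F) + (rep C 1 : F) * (γ 1 j : F) := by
      change ((g C : Matrix (Fin 2) (Fin 2) F) * (SpecialLinearGroup.mapGL F γ :
        Matrix (Fin 2) (Fin 2) F)) 1 j = _
      rw [Matrix.mul_apply, Fin.sum_univ_two]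
      simp [hg]
    rw [h4, div_mul_eq_mul_div, eq_div_iff hyF]
    calc _ = (y : F) * (rep C 0 : F) * (γ 0 j : F) + (y : F) * (rep C 1 : F) * (γ 1 j : F) := by ring
      _ = _ := h3

end Fermat.Agent.LT
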