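import Mathlib

/-!
# Balancing with units congruent to one modulo `m`

For every `m ≠ 0` there is `c` such that every family of positive reals indexed by the infinite
places can be made `c`-balanced by multiplication by a unit which is congruent to one modulo `m`.
-/

namespace Fermat.Agent.LT

open NumberField NumberField.InfinitePlace NumberField.Units
  NumberField.Units.dirichletUnitTheorem Module

/-- A lattice is cocompact: every vector is at bounded distance from the lattice. -/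
theorem exists_lattice_near {E : Type*} [NormedAddCommGroup E] [NormedSpace ℝ E]
    [FiniteDimensional ℝ E] (L : Submodule ℤ E) [DiscreteTopology L] [IsZLattice ℝ L] :
    ∃ C : ℝ, 0 < C ∧ ∀ x : E, ∃ l ∈ L, ‖x - l‖ ≤ C := by
  classical
  have : Module.Free ℤ L := ZLattice.module_free ℝ L
  have : Module.Finite ℤ L := ZLattice.module_finite ℝ L
  let b := (Module.Free.chooseBasis ℤ L).ofZLatticeBasis ℝ L
  refine ⟨∑ i, ‖b i‖ + 1, by positivity, fun x => ⟨ZSpan.floor b x, ?_, ?_⟩⟩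
  · have h := (ZSpan.floor b x).2
    exact (le_of_eq (Basis.ofZLatticeBasis_span ℝ L (Module.Free.chooseBasis ℤ L))) h
  · have := ZSpan.norm_fract_le (K := ℝ) b x
    rw [ZSpan.fract] at this
    linarith

variable (F : Type*) [Field F] [NumberField F]

/-- There is an exponent `N ≠ 0` such that every `N`-th power of a unit is congruent to one
modulo `m`. -/
theorem exists_pow_unit_cong (m : ℕ) (hm : m ≠ 0) : ∃ N : ℕ, N ≠ 0 ∧ ∀ u : (𝓞 F)ˣ,
    ∃ a : 𝓞 F, ((u ^ N : (𝓞 F)ˣ) : 𝓞 F) - 1 = m * a := by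
  classical
  let I : Ideal (𝓞 F) := Ideal.span {(m : 𝓞 F)}
  have hI : I ≠ ⊥ := by
    rw [Ne, Ideal.span_singleton_eq_bot]
    exact_mod_cast hm
  have : Finite (𝓞 F ⧸ I) := Ideal.finiteQuotientOfFreeOfNeBot I hI
  have : Fintype (𝓞 F ⧸ I)ˣ := Fintype.ofFinite _
  refine ⟨Fintype.card (𝓞 F ⧸ I)ˣ, Fintype.card_ne_zero, fun u => ?_⟩
  have h1 : (Units.map (Ideal.Quotient.mk I).toMonoidHom u) ^ Fintype.card (𝓞 F ⧸ I)ˣ = 1 :=
    pow_card_eq_one
  have h2 : Ideal.Quotient.mk I ((u ^ Fintype.card (𝓞 F ⧸ I)ˣ : (𝓞 F)ˣ) : 𝓞 F) = 1 := by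
    rw [← map_pow] at h1
    exact congrArg (Units.val) h1
  rw [← sub_eq_zero, ← map_one (Ideal.Quotient.mk I), ← map_sub, Ideal.Quotient.eq_zero_iff_mem,
    Ideal.mem_span_singleton'] at h2
  obtain ⟨a, ha⟩ := h2
  exact ⟨a, by rw [← ha, mul_comm]⟩

/-- **Balancing with units.** -/
theorem exists_unit_balanced (m : ℕ) (hm : m ≠ 0) : ∃ c : ℝ, 1 ≤ c ∧
    ∀ y : InfinitePlace F → ℝ, (∀ w, 0 < y w) → ∃ ε : (𝓞 F)ˣ,
      (∃ a : 𝓞 F, (ε : 𝓞 F) - 1 = m * a) ∧
      ∀ w w' : InfinitePlace F, w (ε : F) * y w ≤ c * (w' (ε : F) * y w') := by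
  classical
  obtain ⟨N, hN, hpow⟩ := exists_pow_unit_cong F m hm
  obtain ⟨C, hC, hnear⟩ := exists_lattice_near (unitLattice F)
  have hN' : (0 : ℝ) < N := by positivity
  let n : ℝ := Fintype.card (InfinitePlace F)
  have hn : 1 ≤ n := by
    simp only [n]
    exact_mod_cast (Fintype.card_pos : 0 < Fintype.card (InfinitePlace F))
  let B : ℝ := n * (N * C)
  have hNC : 0 < N * C := by positivity
  refine ⟨Real.exp (2 * B), Real.one_le_exp (by positivity), fun y hy => ?_⟩
  let M : ℝ := ∑ w : InfinitePlace F, (w.mult : ℝ)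
  have hM : 0 < M := Finset.sum_pos (fun w _ => by exact_mod_cast mult_pos) Finset.univ_nonempty
  let A : ℝ := (∑ w : InfinitePlace F, w.mult * Real.log (y w)) / M
  let t : InfinitePlace F → ℝ := fun w => w.mult * (A - Real.log (y w))
  have ht : ∑ w, t w = 0 := by
    simp only [t, mul_sub, Finset.sum_sub_distrib, ← Finset.sum_mul]
    rw [sub_eq_zero]
    simp only [A]
    rw [mul_div_cancel₀ _ hM.ne']
  obtain ⟨l, hl, hle⟩ := hnear (fun w => t w.1 / N)
  obtain ⟨u, rfl⟩ : ∃ u : (𝓞 F)ˣ, logEmbedding F (Additive.ofMul u) = l := by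
    obtain ⟨u, -, hu⟩ := hl
    exact ⟨u.toMul, hu⟩
  have key1 : ∀ w : InfinitePlace F, w ≠ w₀ →
      |w.mult * Real.log (w ((u ^ N : (𝓞 F)ˣ) : F)) - t w| ≤ N * C := by
    intro w hw
    have h1 := (norm_le_pi_norm _ (⟨w, hw⟩ : {w : InfinitePlace F // w ≠ w₀})).trans hle
    simp only [Pi.sub_apply, logEmbedding_component, Real.norm_eq_abs] at h1
    have h2 : w.mult * Real.log (w ((u ^ N : (𝓞 F)ˣ) : F)) - t w
        = -(N * (t w / N - w.mult * Real.log (w (u : F)))) := by
      have : w ((u ^ N : (𝓞 F)ˣ) : F) = w (u : F) ^ N := by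
        simp
      rw [this, Real.log_pow]
      field_simp
      ring
    rw [h2, abs_neg, abs_mul, abs_of_pos hN']
    gcongr
  have key2 : ∀ w : InfinitePlace F,
      |w.mult * Real.log (w ((u ^ N : (𝓞 F)ˣ) : F)) - t w| ≤ B := by
    intro w
    by_cases hw : w = w₀
    · have h1 : ∑ w : InfinitePlace F, (w.mult * Real.log (w ((u ^ N : (𝓞 F)ˣ) : F)) - t w) = 0 := by
        rw [Finset.sum_sub_distrib, ht, sub_zero]
        exact sum_mult_mul_log (u ^ N)
      rw [← Finset.add_sum_erase _ _ (Finset.mem_univ w), add_eq_zero_iff_eq_neg] at h1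
      rw [h1, abs_neg]
      refine (Finset.abs_sum_le_sum_abs _ _).trans ?_
      calc _ ≤ ∑ w' ∈ Finset.univ.erase w, N * C := by
            refine Finset.sum_le_sum fun w' hw' => key1 w' ?_
            rw [← hw]
            exact Finset.ne_of_mem_erase hw'
        _ = (Finset.univ.erase w).card * (N * C) := by rw [Finset.sum_const, nsmul_eq_mul]
        _ ≤ n * (N * C) := by
            gcongr
            simp only [n]
            exact_mod_cast (Finset.card_le_univ _)
    · refine (key1 w hw).trans ?_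
      simp only [B]
      nlinarith
  have key3 : ∀ w : InfinitePlace F,
      |Real.log (w ((u ^ N : (𝓞 F)ˣ) : F) * y w) - A| ≤ B := by
    intro w
    have hpos : 0 < w ((u ^ N : (𝓞 F)ˣ) : F) := pos_at_place _ _
    have hmul : (1 : ℝ) ≤ w.mult := by exact_mod_cast (mult_pos : 0 < w.mult)
    have h1 : w.mult * Real.log (w ((u ^ N : (𝓞 F)ˣ) : F)) - t w
        = w.mult * (Real.log (w ((u ^ N : (𝓞 F)ˣ) : F) * y w) - A) := by
      rw [Real.log_mul hpos.ne' (hy w).ne']
      simp only [t]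
      ring
    have h2 := key2 w
    rw [h1, abs_mul, abs_of_pos (by linarith)] at h2
    exact (le_mul_of_one_le_left (abs_nonneg _) hmul).trans h2
  obtain ⟨a, ha⟩ := hpow u
  refine ⟨u ^ N, ⟨a, ha⟩, fun w w' => ?_⟩
  have hp : 0 < w ((u ^ N : (𝓞 F)ˣ) : F) * y w := mul_pos (pos_at_place _ _) (hy w)
  have hp' : 0 < w' ((u ^ N : (𝓞 F)ˣ) : F) * y w' := mul_pos (pos_at_place _ _) (hy w')
  have h1 := abs_le.1 (key3 w)
  have h2 := abs_le.1 (key3 w')
  rw [← Real.log_le_log_iff hp (by positivity), Real.log_mul (Real.exp_pos _).ne' hp'.ne',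
    Real.log_exp]
  linarith [h1.2, h2.1]

end Fermat.Agent.LT
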