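import Fermat.Agent.LT.CT
import Fermat.Agent.LT.Minkowski2
import Fermat.Agent.LT.Red.Cusps
import Fermat.Agent.LT.Red.Units

/-!
# Siegel sets: every point of `Z = X_∞ × D` is equivalent to a point of a Siegel set
-/

namespace Fermat.Agent.LT

open Matrix NumberField MeasureTheory H3
open scoped MatrixGroups

section Finite

variable {F : Type*} [Field F] [NumberField F] {D : Type*} [MulAction (GL (Fin 2) F) D]

/-- Elements of `SL₂(𝓞 F)` which agree modulo `m` act in the same way on a point of modulus `m`. -/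
theorem mapGL_smul_eq_of_cong {m : ℕ} {d : D} (h : IsMod F m d) {γ γ' : SL(2, 𝓞 F)}
    (hγ : SpecialLinearGroup.map (Ideal.Quotient.mk (Ideal.span {(m : 𝓞 F)})) γ =
      SpecialLinearGroup.map (Ideal.Quotient.mk (Ideal.span {(m : 𝓞 F)})) γ') :
    SpecialLinearGroup.mapGL F γ • d = SpecialLinearGroup.mapGL F γ' • d := by
  have hm : (m : F) ≠ 0 := by exact_mod_cast h.1
  have h1 : SpecialLinearGroup.map (Ideal.Quotient.mk (Ideal.span {(m : 𝓞 F)})) (γ⁻¹ * γ') = 1 := by
    rw [map_mul, map_inv, hγ, inv_mul_cancel]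
  have h2 : SpecialLinearGroup.mapGL F (γ⁻¹ * γ') • d = d := by
    refine h.2 _ ⟨fun i j => ?_, ?_⟩
    · have h3 : Ideal.Quotient.mk (Ideal.span {(m : 𝓞 F)})
          ((γ⁻¹ * γ') i j - (1 : Matrix (Fin 2) (Fin 2) (𝓞 F)) i j) = 0 := by
        have h4 := congrArg (fun g : SL(2, 𝓞 F ⧸ Ideal.span {(m : 𝓞 F)}) => g i j) h1
        simp only [SpecialLinearGroup.map_apply_coe, RingHom.mapMatrix_apply, Matrix.map_apply] at h4
        rw [map_sub, h4, sub_eq_zero]
        by_cases hij : i = j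
        · subst hij; simp
        · simp [hij]
      rw [Ideal.Quotient.eq_zero_iff_mem, Ideal.mem_span_singleton'] at h3
      obtain ⟨a, ha⟩ := h3
      have h5 : ((SpecialLinearGroup.mapGL F (γ⁻¹ * γ') : GL (Fin 2) F) i j -
          (1 : Matrix (Fin 2) (Fin 2) F) i j) = (a : F) * m := by
        have h6 := congrArg (algebraMap (𝓞 F) F) ha
        rw [map_mul, map_sub, map_natCast] at h6
        rw [h6]
        congr 1
        by_cases hij : i = j
        · subst hij; simp
        · simp [hij]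
      rw [h5, mul_div_cancel_right₀ _ hm]
      exact RingOfIntegers.isIntegral_coe a
    · have : (SpecialLinearGroup.mapGL F (γ⁻¹ * γ')).1.det = 1 := by
        exact congrArg Units.val (SpecialLinearGroup.det_mapGL (S := F) (γ⁻¹ * γ'))
      rw [this, inv_one]
      exact isIntegral_one
  rw [map_mul, map_inv, mul_smul, inv_smul_eq_iff] at h2
  exact h2.symm

/-- The orbits of `SL₂(𝓞 F)` on `D` are finite. -/
theorem finite_orbit_SL2 {m : ℕ} {d : D} (h : IsMod F m d) :
    (Set.range fun γ : SL(2, 𝓞 F) => SpecialLinearGroup.mapGL F γ • d).Finite := by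
  have hI : Ideal.span {(m : 𝓞 F)} ≠ ⊥ := by
    rw [Ne, Ideal.span_singleton_eq_bot]
    exact_mod_cast h.1
  have : Finite (𝓞 F ⧸ Ideal.span {(m : 𝓞 F)}) := Ideal.finiteQuotientOfFreeOfNeBot _ hI
  have : Finite SL(2, 𝓞 F ⧸ Ideal.span {(m : 𝓞 F)}) :=
    Finite.of_injective (fun g => (g : Matrix (Fin 2) (Fin 2) (𝓞 F ⧸ Ideal.span {(m : 𝓞 F)})))
      fun _ _ h => Subtype.ext h
  have hf : Function.FactorsThrough (fun γ : SL(2, 𝓞 F) => SpecialLinearGroup.mapGL F γ • d)
      (SpecialLinearGroup.map (Ideal.Quotient.mk (Ideal.span {(m : 𝓞 F)}))) := fun γ γ' hγ =>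
    mapGL_smul_eq_of_cong h hγ
  have : Nonempty D := ⟨d⟩
  obtain ⟨e, he⟩ := (Function.factorsThrough_iff _).1 hf
  rw [he]
  exact (Set.finite_range e).subset (Set.range_comp_subset_range _ _)

end Finite

section Siegel

variable (F : Type*) [Field F] {D : Type*}

/-- Siegel sets: `d` in a given set, `z` bounded, `y` bounded below and balanced. -/
def Sieg (c : ℝ) (T : Set D) : Set (Xi F × D) :=
  {p | p.2 ∈ T ∧ (∀ w, ‖(p.1 w).z‖ ≤ c) ∧ (∀ w, c⁻¹ ≤ (p.1 w).y) ∧
    ∀ w w', (p.1 w).y ≤ c * (p.1 w').y}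

theorem Sieg_mono {c c' : ℝ} {T T' : Set D} (hc : 0 < c) (h : c ≤ c') (hT : T ⊆ T') :
    Sieg F c T ⊆ Sieg F c' T' := by
  rintro p ⟨h1, h2, h3, h4⟩
  refine ⟨hT h1, fun w => (h2 w).trans h, fun w => (inv_anti₀ hc h).trans (h3 w), fun w w' => ?_⟩
  exact (h4 w w').trans (mul_le_mul_of_nonneg_right h (p.1 w').y_pos.le)

variable [NumberField F] [IsTotallyComplex F] [MulAction (GL (Fin 2) F) D]

variable (D) in
/-- **Reduction theory**: every point is equivalent to a point of a fixed Siegel set. -/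
theorem exists_siegel [IsLevel F D] : ∃ (c : ℝ) (T : Finset D), 1 ≤ c ∧
    ∀ p : Xi F × D, ∃ g : GL (Fin 2) F, g • p ∈ Sieg F c (T : Set D) := by
  classical
  obtain ⟨T0, hT0⟩ := IsLevel.finite_orbits (F := F) (D := D)
  obtain ⟨C, hC, hshort⟩ := exists_short_vector F
  obtain ⟨S, B, hreps⟩ := exists_cusp_reps F
  -- the finite set of second coordinates
  have hTfin : (⋃ σ ∈ S, ⋃ d ∈ T0, (fun d' : D => σ • d') ''
      (Set.range fun γ : SL(2, 𝓞 F) => SpecialLinearGroup.mapGL F γ • d)).Finite := by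
    refine Set.Finite.biUnion S.finite_toSet fun σ _ => Set.Finite.biUnion T0.finite_toSet
      fun d _ => Set.Finite.image _ ?_
    obtain ⟨m, hm⟩ := exists_isMod F d
    exact finite_orbit_SL2 hm
  obtain ⟨m, hm0, hm⟩ := exists_isMod_finset F hTfin.toFinset
  obtain ⟨cu, hcu, hunit⟩ := exists_unit_balanced F m hm0
  obtain ⟨cz, hcz, hnear⟩ := exists_int_near F m hm0
  -- lower bound for the determinants
  obtain ⟨δ, hδ, hδS⟩ : ∃ δ : ℝ, 0 < δ ∧ ∀ σ ∈ S, δ ≤ ∏ w : InfinitePlace F, w σ.1.det := by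
    have hpos : ∀ σ : GL (Fin 2) F, 0 < ∏ w : InfinitePlace F, w σ.1.det := fun σ =>
      Finset.prod_pos fun w _ => InfinitePlace.pos_iff.2 (GeneralLinearGroup.det_ne_zero σ)
    by_cases hS : S.Nonempty
    · obtain ⟨σ0, h0, hmin⟩ := S.exists_min_image
        (fun σ => ∏ w : InfinitePlace F, w σ.1.det) hS
      exact ⟨_, hpos σ0, hmin⟩
    · rw [Finset.not_nonempty_iff_eq_empty] at hS
      exact ⟨1, one_pos, by simp [hS]⟩
  let B' : ℝ := max B 1
  have hB' : 0 < B' := lt_of_lt_of_le one_pos (le_max_right _ _)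
  let n : ℕ := Fintype.card (InfinitePlace F)
  let P : ℝ := δ / (B' * C ^ n)
  have hP : 0 < P := by positivity
  let t : ℝ := min 1 P
  have ht : 0 < t := lt_min one_pos hP
  have ht1 : t ≤ 1 := min_le_left _ _
  refine ⟨max (max cu cz) (cu / t), hTfin.toFinset, ?_, fun p => ?_⟩
  · exact le_max_of_le_left (le_max_of_le_left hcu)
  obtain ⟨g0, hg0⟩ := hT0 p.2
  set p1 := g0 • p with hp1
  have hd1 : p1.2 ∈ T0 := hg0
  obtain ⟨v0, v1, hv, hq⟩ := hshort (fun w => (p1.1 w).z) (fun w => (p1.1 w).y)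
    (fun w => (p1.1 w).y_pos)
  have hv' : ![v0, v1] ≠ 0 := by
    intro h
    rcases hv with h0 | h0
    · exact h0 (congrFun h 0)
    · exact h0 (congrFun h 1)
  obtain ⟨σ, hσ, γ, a, ha0, haB, hrow⟩ := hreps ![v0, v1] hv'
  set g1 := σ * SpecialLinearGroup.mapGL F γ with hg1
  set p2 := g1 • p1 with hp2
  have hd2 : p2.2 ∈ hTfin.toFinset := by
    rw [Set.Finite.mem_toFinset]
    simp only [Set.mem_iUnion]
    refine ⟨σ, hσ, p1.2, hd1, SpecialLinearGroup.mapGL F γ • p1.2, ⟨γ, rfl⟩, ?_⟩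
    simp only [hp2, hg1, mul_smul]
    rfl
  have hdet : g1.1.det = σ.1.det := by
    have h7 : (SpecialLinearGroup.mapGL F γ : GL (Fin 2) F).1.det = 1 :=
      congrArg Units.val (SpecialLinearGroup.det_mapGL (S := F) γ)
    rw [hg1, Units.val_mul, Matrix.det_mul, h7, mul_one]
  -- the heights
  have hy2 : ∀ w : InfinitePlace F, w g1.1.det / (w a ^ 2 * C) ≤ (p2.1 w).y := by
    intro w
    have e1 : (p2.1 w).y = adet (GeneralLinearGroup.map (n := Fin 2) w.embedding g1) * (p1.1 w).y /
        den (GeneralLinearGroup.map (n := Fin 2) w.embedding g1) (p1.1 w) := rfl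
    have e2 : adet (GeneralLinearGroup.map (n := Fin 2) w.embedding g1) = w g1.1.det := by
      rw [← InfinitePlace.norm_embedding_eq]
      unfold adet
      congr 1
      change (g1.1.map w.embedding).det = _
      rw [← RingHom.mapMatrix_apply, ← RingHom.map_det]
    have e3 : den (GeneralLinearGroup.map (n := Fin 2) w.embedding g1) (p1.1 w) =
        w a ^ 2 * ((p1.1 w).y * qH3 (p1.1 w).z (p1.1 w).y (w.embedding v0) (w.embedding v1)) := by
      have h0 : (GeneralLinearGroup.map (n := Fin 2) w.embedding g1) 1 0 =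
          w.embedding a * w.embedding v0 := by
        have := hrow 0
        change w.embedding (g1 1 0) = _
        rw [this, map_mul]
        rfl
      have h1 : (GeneralLinearGroup.map (n := Fin 2) w.embedding g1) 1 1 =
          w.embedding a * w.embedding v1 := by
        have := hrow 1
        change w.embedding (g1 1 1) = _
        rw [this, map_mul]
        rfl
      have hyp := (p1.1 w).y_pos
      unfold den qH3
      rw [h0, h1, Complex.normSq_eq_norm_sq, Complex.normSq_eq_norm_sq]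
      have h2 : w.embedding a * w.embedding v0 * (p1.1 w).z + w.embedding a * w.embedding v1 =
          w.embedding a * (w.embedding v0 * (p1.1 w).z + w.embedding v1) := by ring
      rw [h2, norm_mul, norm_mul, InfinitePlace.norm_embedding_eq w a]
      field_simp
    have hyp := (p1.1 w).y_pos
    have hqp : 0 < qH3 (p1.1 w).z (p1.1 w).y (w.embedding v0) (w.embedding v1) := by
      refine qH3_pos hyp ?_
      rcases hv with h0 | h0
      · exact Or.inl ((map_ne_zero _).2 (by exact_mod_cast h0))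
      · exact Or.inr ((map_ne_zero _).2 (by exact_mod_cast h0))
    have hwa : 0 < w a := InfinitePlace.pos_iff.2 ha0
    have hwd : 0 < w g1.1.det := InfinitePlace.pos_iff.2 (GeneralLinearGroup.det_ne_zero g1)
    rw [e1, e2, e3]
    have e4 : w g1.1.det * (p1.1 w).y / (w a ^ 2 * ((p1.1 w).y *
        qH3 (p1.1 w).z (p1.1 w).y (w.embedding v0) (w.embedding v1))) =
        w g1.1.det / (w a ^ 2 * qH3 (p1.1 w).z (p1.1 w).y (w.embedding v0) (w.embedding v1)) := by
      field_simp
    rw [e4]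
    have := hq w
    gcongr
  have hprod2 : P ≤ ∏ w : InfinitePlace F, (p2.1 w).y := by
    have h1 : ∏ w : InfinitePlace F, w g1.1.det / (w a ^ 2 * C) ≤
        ∏ w : InfinitePlace F, (p2.1 w).y :=
      Finset.prod_le_prod (fun w _ => by positivity) fun w _ => hy2 w
    refine le_trans ?_ h1
    rw [Finset.prod_div_distrib, Finset.prod_mul_distrib, Finset.prod_const, Finset.card_univ, hdet]
    have h2 : ∏ w : InfinitePlace F, w a ^ 2 ≤ B' := by
      refine le_trans (le_of_eq ?_) (haB.trans (le_max_left _ _))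
      refine Finset.prod_congr rfl fun w _ => ?_
      rw [IsTotallyComplex.mult_eq]
    have h3 : 0 < ∏ w : InfinitePlace F, w a ^ 2 :=
      Finset.prod_pos fun w _ => pow_pos (InfinitePlace.pos_iff.2 ha0) _
    have h4 := hδS σ hσ
    simp only [P]
    gcongr
  -- balancing
  obtain ⟨ε, ⟨e, he⟩, hbal⟩ := hunit (fun w => (p2.1 w).y) (fun w => (p2.1 w).y_pos)
  obtain ⟨b, hb⟩ := hnear (fun w => w.embedding ((ε : 𝓞 F) : F) * (p2.1 w).z)
  have hε0 : ((ε : 𝓞 F) : F) ≠ 0 := by exact_mod_cast ε.ne_zero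
  have hm0' : (m : F) ≠ 0 := by exact_mod_cast hm0
  let g2 : GL (Fin 2) F := GeneralLinearGroup.mkOfDetNeZero !![((ε : 𝓞 F) : F), -(m * b); 0, 1] (by
    rw [Matrix.det_fin_two_of]; simp)
  have hg2 : (g2 : Matrix (Fin 2) (Fin 2) F) = !![((ε : 𝓞 F) : F), -(m * b); 0, 1] := rfl
  have hcong : IsCong F m g2 := by
    constructor
    · intro i j
      rw [hg2]
      fin_cases i <;> fin_cases j
      · have h5 := congrArg (algebraMap (𝓞 F) F) he
        rw [map_sub, map_one, map_mul, map_natCast] at h5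
        simp only [Fin.zero_eta, Fin.isValue, Matrix.of_apply, Matrix.cons_val', Matrix.cons_val_zero,
          Matrix.cons_val_fin_one, Matrix.one_apply_eq]
        rw [show ((ε : 𝓞 F) : F) - 1 = m * (e : F) from h5, mul_div_cancel_left₀ _ hm0']
        exact RingOfIntegers.isIntegral_coe e
      · simp only [Fin.zero_eta, Fin.mk_one, Fin.isValue, Matrix.of_apply, Matrix.cons_val',
          Matrix.cons_val_one, Matrix.cons_val_fin_one, Matrix.cons_val_zero, ne_eq, zero_ne_one,
          not_false_eq_true, Matrix.one_apply_ne, sub_zero]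
        rw [neg_div, mul_div_cancel_left₀ _ hm0']
        exact (RingOfIntegers.isIntegral_coe b).neg
      · simp [isIntegral_zero]
      · simp [isIntegral_zero]
    · rw [hg2, Matrix.det_fin_two_of]
      have : (((ε : 𝓞 F) : F) * 1 - -(m * (b : F)) * 0)⁻¹ = (((ε⁻¹ : (𝓞 F)ˣ) : 𝓞 F) : F) := by
        rw [mul_one, mul_zero, sub_zero]
        refine (eq_inv_of_mul_eq_one_left ?_).symm
        have h5 := congrArg (algebraMap (𝓞 F) F) ε.inv_mul
        rwa [map_mul, map_one] at h5
      rw [this]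
      exact RingOfIntegers.isIntegral_coe _
  refine ⟨g2 * g1 * g0, ?_⟩
  have hp3 : (g2 * g1 * g0) • p = g2 • p2 := by
    rw [hp2, hp1, smul_smul, smul_smul, mul_assoc]
  rw [hp3]
  have hd3 : (g2 • p2).2 = p2.2 := (hm _ hd2).2 g2 hcong
  have hmap10 : ∀ w : InfinitePlace F,
      (GeneralLinearGroup.map (n := Fin 2) w.embedding g2) 1 0 = 0 := fun w => by
    change w.embedding (g2 1 0) = 0
    rw [hg2]; simp
  have hmap11 : ∀ w : InfinitePlace F,
      (GeneralLinearGroup.map (n := Fin 2) w.embedding g2) 1 1 = 1 := fun w => by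
    change w.embedding (g2 1 1) = 1
    rw [hg2]; simp
  have hmap00 : ∀ w : InfinitePlace F,
      (GeneralLinearGroup.map (n := Fin 2) w.embedding g2) 0 0 = w.embedding ((ε : 𝓞 F) : F) :=
    fun w => by
    change w.embedding (g2 0 0) = _
    rw [hg2]; simp
  have hmap01 : ∀ w : InfinitePlace F,
      (GeneralLinearGroup.map (n := Fin 2) w.embedding g2) 0 1 = -(m * w.embedding (b : F)) :=
    fun w => by
    change w.embedding (g2 0 1) = _
    rw [hg2]; simp
  have hy3 : ∀ w : InfinitePlace F, ((g2 • p2).1 w).y = w ((ε : 𝓞 F) : F) * (p2.1 w).y := by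
    intro w
    change ((GeneralLinearGroup.map (n := Fin 2) w.embedding g2) • (p2.1 w)).y = _
    rw [y_smul_of_upper (hmap10 w), hmap11 w, hmap00 w, div_one, InfinitePlace.norm_embedding_eq]
  have hz3 : ∀ w : InfinitePlace F, ((g2 • p2).1 w).z =
      w.embedding ((ε : 𝓞 F) : F) * (p2.1 w).z - m * w.embedding (b : F) := by
    intro w
    change ((GeneralLinearGroup.map (n := Fin 2) w.embedding g2) • (p2.1 w)).z = _
    rw [z_smul_of_upper (hmap10 w), hmap11 w, hmap00 w, hmap01 w, div_one]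
    ring
  have hprod3 : t ≤ ∏ w : InfinitePlace F, ((g2 • p2).1 w).y := by
    refine (min_le_right _ _).trans (hprod2.trans (le_of_eq ?_))
    have h5 : ∏ w : InfinitePlace F, w ((ε : 𝓞 F) : F) = 1 := by
      have h6 := InfinitePlace.prod_eq_abs_norm ((ε : 𝓞 F) : F)
      have h7 : |Algebra.norm ℚ ((ε : 𝓞 F) : F)| = 1 := NumberField.isUnit_iff_norm.1 ε.isUnit
      rw [h7] at h6
      have h8 : (∏ w : InfinitePlace F, w ((ε : 𝓞 F) : F)) ^ 2 = 1 := by
        rw [← Finset.prod_pow]
        rw [Rat.cast_one] at h6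
        rw [← h6]
        refine Finset.prod_congr rfl fun w _ => ?_
        rw [IsTotallyComplex.mult_eq]
      have h9 : 0 ≤ ∏ w : InfinitePlace F, w ((ε : 𝓞 F) : F) :=
        Finset.prod_nonneg fun w _ => apply_nonneg _ _
      exact (pow_eq_one_iff_of_nonneg h9 two_ne_zero).1 h8
    simp_rw [hy3]
    rw [Finset.prod_mul_distrib, h5, one_mul]
  have hbal3 : ∀ w w', ((g2 • p2).1 w).y ≤ cu * ((g2 • p2).1 w').y := by
    intro w w'
    rw [hy3, hy3]
    exact hbal w w'
  have hlow : ∀ w, t / cu ≤ ((g2 • p2).1 w).y := by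
    intro w
    by_contra hlt
    rw [not_le] at hlt
    have hcu0 : 0 < cu := by linarith
    have h5 : ∀ w', ((g2 • p2).1 w').y < t := by
      intro w'
      refine (hbal3 w' w).trans_lt ?_
      rw [lt_div_iff₀ hcu0] at hlt
      rwa [mul_comm]
    have h6 : ∏ w : InfinitePlace F, ((g2 • p2).1 w).y < t := by
      rw [← Finset.mul_prod_erase _ _ (Finset.mem_univ w)]
      have h7 : ∏ w' ∈ Finset.univ.erase w, ((g2 • p2).1 w').y ≤ 1 :=
        Finset.prod_le_one (fun w' _ => ((g2 • p2).1 w').y_pos.le) fun w' _ => ((h5 w').le.trans ht1)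
      calc _ ≤ ((g2 • p2).1 w).y * 1 :=
            mul_le_mul_of_nonneg_left h7 ((g2 • p2).1 w).y_pos.le
        _ < t := by rw [mul_one]; exact h5 w
    exact absurd hprod3 (not_le.2 h6)
  refine ⟨?_, fun w => ?_, fun w => ?_, fun w w' => ?_⟩
  · rw [hd3]; exact Finset.mem_coe.2 hd2
  · rw [hz3]
    exact (hb w).trans (le_max_of_le_left (le_max_right _ _))
  · refine le_trans ?_ (hlow w)
    have h5 : t / cu = (cu / t)⁻¹ := (inv_div _ _).symm
    have h6 : 0 < cu / t := by positivity
    rw [h5]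
    exact inv_anti₀ h6 (le_max_right _ _)
  · refine (hbal3 w w').trans ?_
    exact mul_le_mul_of_nonneg_right (le_max_of_le_left (le_max_left _ _)) ((g2 • p2).1 w').y_pos.le

end Siegel

end Fermat.Agent.LT
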