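import Fermat.Agent.LT.Red.Fubini
import Fermat.Agent.LT.Red.Lattice
import Fermat.Agent.LT.Red.Siegel

/-!
# The growth step for cuspidal functions (C2)

If `f` is invariant, cuspidal, and bounded by `M` near the height of `x` in a Siegel set, then the
convolution of `f` with a Lipschitz point pair invariant of compact support is `O(M / y)` at `x`.
-/

namespace Fermat.Agent.LT

open Matrix NumberField MeasureTheory H3 Module Set
open scoped Pointwise ENNReal

section nu

theorem nu1_Ici {t : ℝ} (ht : 0 < t) : nu1 (Ici t) = ENNReal.ofReal (2 * t ^ 2)⁻¹ := by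
  have h1 := volume_strip (A := Metric.ball (0 : ℂ) 1) Metric.isOpen_ball.measurableSet ht
  have hm : MeasurableSet {P : H3 | P.z ∈ Metric.ball (0 : ℂ) 1 ∧ t ≤ P.y} :=
    (H3.measurable_z Metric.isOpen_ball.measurableSet).inter
      (measurableSet_le measurable_const H3.measurable_y)
  have h2 := measurePreserving_ofPair.measure_preimage hm.nullMeasurableSet
  have h3 : (volume : Measure ℂ).prod nu1
      (ofPair ⁻¹' {P : H3 | P.z ∈ Metric.ball (0 : ℂ) 1 ∧ t ≤ P.y}) =
      (volume : Measure ℂ).prod nu1 (Metric.ball (0 : ℂ) 1 ×ˢ Ici t) := by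
    have hpos : ∀ᵐ p ∂((volume : Measure ℂ).prod nu1), 0 < p.2 := by
      have h4 : ∀ᵐ y ∂nu1, 0 < y := by
        refine (withDensity_absolutelyContinuous _ _).ae_le ?_
        exact ae_restrict_mem measurableSet_Ioi
      exact Measure.quasiMeasurePreserving_snd.ae h4
    refine measure_congr ?_
    filter_upwards [hpos] with p hp
    apply propext
    change (ofPair p).z ∈ Metric.ball (0 : ℂ) 1 ∧ t ≤ (ofPair p).y ↔ _
    rw [z_ofPair, y_ofPair, if_pos hp, if_pos hp]
    rfl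
  rw [h3, h1, Measure.prod_prod] at h2
  have hb0 : volume (Metric.ball (0 : ℂ) 1) ≠ 0 := (Metric.measure_ball_pos _ _ one_pos).ne'
  have hbt : volume (Metric.ball (0 : ℂ) 1) ≠ ∞ := measure_ball_lt_top.ne
  exact (ENNReal.mul_right_inj hb0 hbt).1 h2

variable {F : Type*} [Field F] [NumberField F]

theorem nuF_box {t : InfinitePlace F → ℝ} (ht : ∀ w, 0 < t w) :
    nuF F (Set.univ.pi fun w => Ici (t w)) = ∏ w, ENNReal.ofReal (2 * t w ^ 2)⁻¹ := by
  unfold nuF
  rw [Measure.pi_pi]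
  exact Finset.prod_congr rfl fun w _ => nu1_Ici (ht w)

end nu

section Ker

variable {F : Type*} [Field F]

/-- Translation by `b ∈ ℂⁿ`. -/
noncomputable def tr (b : InfinitePlace F → ℂ) (x : Xi F) : Xi F := fun w => nb (b w) • x w

theorem tr_pt (b z : InfinitePlace F → ℂ) {y : InfinitePlace F → ℝ} (hy : ∀ w, 0 < y w) :
    tr b (pt z y) = pt (z + b) y := by
  funext w
  apply H3.ext
  · change (nb (b w) • (pt z y w)).z = _
    rw [nb_smul_z, pt_z hy, pt_z hy]; rfl
  · change (nb (b w) • (pt z y w)).y = _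
    rw [nb_smul_y, pt_y hy, pt_y hy]

variable [NumberField F]

/-- Kernels on `X_∞`: bounded, bounded support, Lipschitz in the unipotent direction, invariant
under translations. -/
structure HKer (κ : Xi F → Xi F → ℂ) (R Λ : ℝ) : Prop where
  meas : Measurable (Function.uncurry κ)
  supp : ∀ x x', κ x x' ≠ 0 → ∀ w, cu (x w) (x' w) ≤ R
  bdd : ∀ x x', ‖κ x x'‖ ≤ Λ
  trans : ∀ (b : InfinitePlace F → ℂ) x x', κ (tr b x) (tr b x') = κ x x'
  lip : ∀ (x : Xi F) (s : ℝ), 0 < s → (∀ w, s ≤ (x w).y) → ∀ y : InfinitePlace F → ℝ,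
    (∀ w, 0 < y w) → ∀ z z' : InfinitePlace F → ℂ,
      ‖κ x (pt z y) - κ x (pt z' y)‖ ≤ Λ / s * ‖z - z'‖

end Ker

section Main

variable {F : Type*} [Field F] [NumberField F] [IsTotallyComplex F] {D : Type*}
  [MeasurableSpace D] [DiscreteMeasurableSpace D] [MulAction (GL (Fin 2) F) D] [IsLevel F D]

omit [IsTotallyComplex F] in
theorem measurable_pt_left (y : InfinitePlace F → ℝ) :
    Measurable fun z : InfinitePlace F → ℂ => pt z y := by
  have h := (measurePreserving_pt F).measurable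
  exact h.comp (measurable_id.prodMk measurable_const)

/-- **C2, the growth step.** -/
theorem cusp_growth {κ : Xi F → Xi F → ℂ} {R Λ : ℝ} (hκ : HKer κ R Λ) (c : ℝ) (hc : 1 ≤ c)
    (T : Finset D) : ∃ c' C : ℝ, 1 ≤ c' ∧ 0 ≤ C ∧ ∀ f : Xi F × D → ℂ, Measurable f →
      (∀ (g : GL (Fin 2) F) z, f (g • z) = f z) → IsCusp f → ∀ z ∈ Sieg F c (T : Set D), ∀ M : ℝ,
        (∀ z' ∈ Sieg F c' (T : Set D), z'.2 = z.2 →
          (∀ w, (z.1 w).y ≤ c' * (z'.1 w).y ∧ (z'.1 w).y ≤ c' * (z.1 w).y) → ‖f z'‖ ≤ M) →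
        ∀ w, ‖∫ x', κ z.1 x' * f (x', z.2)‖ ≤ C * M / (z.1 w).y := by
  classical
  obtain ⟨m, hm, hmod⟩ := exists_isMod_finset F T
  obtain ⟨cz, hcz, hnear⟩ := exists_int_near F m hm
  obtain ⟨δ, hδ0, hδ⟩ : ∃ δ : ℝ, 0 ≤ δ ∧ ∀ u ∈ ZSpan.fundamentalDomain
      ((mZBasis F hm).ofZLatticeBasis ℝ), ‖u‖ ≤ δ := by
    obtain ⟨δ, hδ⟩ := (ZSpan.fundamentalDomain_isBounded
      ((mZBasis F hm).ofZLatticeBasis ℝ)).exists_norm_le
    exact ⟨max δ 0, le_max_right _ _, fun u hu => (hδ u hu).trans (le_max_left _ _)⟩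
  let R' : ℝ := max R 1
  have hR' : 1 ≤ R' := le_max_right _ _
  have hR0 : 0 < R' := by linarith
  have hc0 : 0 < c := by linarith
  have hΛ : 0 ≤ Λ := by
    have h1 := hκ.bdd default default
    exact (norm_nonneg _).trans h1
  let E := InfinitePlace F → ℂ
  let n : ℕ := Fintype.card (InfinitePlace F)
  let V : ℝ := (volume : Measure E).real (Metric.closedBall (0 : E) 1)
  have hV : 0 ≤ V := measureReal_nonneg
  -- constants
  let A : ℝ := 2 * R' * c + δ * c
  have hA : 0 ≤ A := by positivity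
  let C : ℝ := (Λ * c) * δ * (A ^ finrank ℝ E * V) * (2 * R' ^ 2 * c ^ 2) ^ n
  have hC : 0 ≤ C := by positivity
  let c' : ℝ := max (max cz (2 * R' * c)) (4 * R' ^ 2 * c)
  have h2Rc : 1 ≤ 2 * R' * c := by nlinarith
  have hc'1 : 1 ≤ c' := h2Rc.trans (le_max_of_le_left (le_max_right _ _))
  have hc'2 : 2 * R' ≤ c' := by
    refine le_trans ?_ (le_max_of_le_left (le_max_right _ _))
    nlinarith
  refine ⟨c', C, hc'1, hC, fun f hf hinv hcusp z hz M hM w0 => ?_⟩
  obtain ⟨hzT, hzz, hzy, hzb⟩ := hz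
  have hdm := (hmod z.2 hzT)
  have hdm' : ∀ a : 𝓞 F, nb ((m : F) * a) • z.2 = z.2 := fun a =>
    hdm.nb_smul (RingOfIntegers.isIntegral_coe a)
  set s : ℝ := (z.1 w0).y with hs
  have hs0 : 0 < s := (z.1 w0).y_pos
  have hsc : c⁻¹ ≤ s := hzy w0
  have hlow : ∀ w, s / c ≤ (z.1 w).y := fun w => by
    rw [div_le_iff₀ hc0, mul_comm]; exact hzb w0 w
  have hup : ∀ w, (z.1 w).y ≤ c * s := fun w => hzb w w0
  have hsc0 : 0 < s / c := by positivity
  have hcc' : c ≤ c' := by
    refine le_trans ?_ (le_max_of_le_left (le_max_right _ _))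
    nlinarith
  have hM0 : 0 ≤ M := by
    refine (norm_nonneg _).trans (hM z (Sieg_mono F hc0 hcc' subset_rfl ⟨hzT, hzz, hzy, hzb⟩) rfl
      fun w => ?_)
    exact ⟨le_mul_of_one_le_left (z.1 w).y_pos.le hc'1, le_mul_of_one_le_left (z.1 w).y_pos.le hc'1⟩
  -- the bound for `f` near the height of `z`
  have hfM : ∀ y' : InfinitePlace F → ℝ, (∀ w, 0 < y' w) → (∀ w, y' w ≤ 2 * R' * (z.1 w).y) →
      (∀ w, (z.1 w).y ≤ 2 * R' * y' w) → ∀ z' : E, ‖f (pt z' y', z.2)‖ ≤ M := by
    intro y' hy' h1 h2 z'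
    obtain ⟨a, ha⟩ := hnear z'
    have h3 : f (pt z' y', z.2) = f (pt (z' - emb F ((m : F) * a)) y', z.2) := by
      have h4 := hinv (nb (-((m : F) * a))) (pt z' y', z.2)
      rw [← h4]
      have h5 : nb (-((m : F) * a)) • ((pt z' y', z.2) : Xi F × D) =
        (nb (-((m : F) * a)) • pt z' y', nb (-((m : F) * a)) • z.2) := rfl
      rw [h5, nb_smul_pt _ hy', nb_neg, inv_smul_eq_iff.2 (hdm' a).symm, map_neg, sub_eq_add_neg]
    rw [h3]
    refine hM _ ⟨hzT, fun w => ?_, fun w => ?_, fun w w' => ?_⟩ rfl fun w => ⟨?_, ?_⟩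
    · rw [pt_z hy']
      refine le_trans (le_of_eq ?_) ((ha w).trans (le_max_of_le_left (le_max_left _ _)))
      change ‖z' w - w.embedding ((m : F) * a)‖ = _
      rw [map_mul, map_natCast]
    · rw [pt_y hy']
      have h6 := hzy w
      have h7 := h2 w
      have h8 : (2 * R' * c)⁻¹ ≤ y' w := by
        rw [inv_le_iff_one_le_mul₀ (by positivity)]
        have h9 : 1 ≤ c * (z.1 w).y := by
          rw [inv_le_iff_one_le_mul₀ hc0] at h6
          rw [mul_comm]; exact h6
        nlinarith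
      exact (inv_anti₀ (by positivity) (le_max_of_le_left (le_max_right _ _))).trans h8
    · rw [pt_y hy', pt_y hy']
      have h6 : y' w ≤ 4 * R' ^ 2 * c * y' w' := by
        calc y' w ≤ 2 * R' * (z.1 w).y := h1 w
          _ ≤ 2 * R' * (c * (z.1 w').y) := by gcongr; exact hzb w w'
          _ ≤ 2 * R' * (c * (2 * R' * y' w')) := by gcongr; exact h2 w'
          _ = 4 * R' ^ 2 * c * y' w' := by ring
      exact h6.trans (mul_le_mul_of_nonneg_right (le_max_right _ _) (hy' w').le)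
    · rw [pt_y hy']
      exact (h2 w).trans (mul_le_mul_of_nonneg_right hc'2 (hy' w).le)
    · rw [pt_y hy']
      exact (h1 w).trans (mul_le_mul_of_nonneg_right hc'2 (z.1 w).y_pos.le)
  -- supports
  have hsupp : ∀ (y' : InfinitePlace F → ℝ), (∀ w, 0 < y' w) → ∀ z' : E,
      κ z.1 (pt z' y') ≠ 0 → (∀ w, y' w ≤ 2 * R' * (z.1 w).y) ∧ (∀ w, (z.1 w).y ≤ 2 * R' * y' w) ∧
        ‖z' - fun w => (z.1 w).z‖ ≤ 2 * R' * c * s := by
    intro y' hy' z' hne
    have h1 : ∀ w, cu (z.1 w) (pt z' y' w) ≤ R' := fun w =>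
      (hκ.supp _ _ hne w).trans (le_max_left _ _)
    have h2 : ∀ w, y' w ≤ 2 * R' * (z.1 w).y := fun w => by
      have := y_le_of_cu_le (h1 w)
      rwa [pt_y hy'] at this
    have h3 : ∀ w, (z.1 w).y ≤ 2 * R' * y' w := fun w => by
      have := y_le_of_cu_le (by rw [cu_comm]; exact h1 w : cu (pt z' y' w) (z.1 w) ≤ R')
      rwa [pt_y hy'] at this
    refine ⟨h2, h3, ?_⟩
    rw [pi_norm_le_iff_of_nonneg (by positivity)]
    intro w
    have h4 := normSq_le_of_cu_le (h1 w)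
    rw [pt_y hy', pt_z hy', Complex.normSq_eq_norm_sq] at h4
    have h5 : ‖(z.1 w).z - z' w‖ ^ 2 ≤ (2 * R' * c * s) ^ 2 := by
      calc ‖(z.1 w).z - z' w‖ ^ 2 ≤ 2 * R' * (z.1 w).y * y' w := h4
        _ ≤ 2 * R' * (z.1 w).y * (2 * R' * (z.1 w).y) := by
            have := (z.1 w).y_pos
            gcongr
            exact h2 w
        _ = (2 * R' * (z.1 w).y) ^ 2 := by ring
        _ ≤ (2 * R' * (c * s)) ^ 2 := by
            have := (z.1 w).y_pos
            gcongr
            exact hup w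
        _ = (2 * R' * c * s) ^ 2 := by ring
    have h6 := abs_le_of_sq_le_sq h5 (by positivity)
    rw [abs_of_nonneg (norm_nonneg _), norm_sub_rev] at h6
    exact h6
  -- the inner integral
  have hinner : ∀ᵐ y' ∂(nuF F), ‖∫ z' : E, κ z.1 (pt z' y') * f (pt z' y', z.2)‖ ≤
      (Set.univ.pi fun w => Ici ((z.1 w).y / (2 * R'))).indicator
        (fun _ => (Λ / (s / c)) * δ * (volume : Measure E).real
          (Metric.closedBall (0 : E) (2 * R' * c * s + δ)) * M) y' := by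
    filter_upwards [ae_nuF (hcusp z.2 m hm hdm'), ae_nuF_pos F] with y' hcy hy'
    by_cases hr : (∀ w, y' w ≤ 2 * R' * (z.1 w).y) ∧ (∀ w, (z.1 w).y ≤ 2 * R' * y' w)
    · rw [Set.indicator_of_mem]
      · refine norm_integral_mul_periodic_le (mLat F hm) volume (mZBasis F hm) hδ
          (k := fun z' : E => κ z.1 (pt z' y')) (f := fun z' => f (pt z' y', z.2))
          (K := Λ / (s / c)) (by positivity) ?_ (c₀ := fun w => (z.1 w).z) (fun z' h => ?_) ?_
          (hfM y' hy' hr.1 hr.2) ?_ ?_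
        · exact fun a b => hκ.lip z.1 (s / c) hsc0 hlow y' hy' a b
        · exact (hsupp y' hy' z' h).2.2
        · exact hf.comp ((measurable_pt_left y').prodMk measurable_const)
        · exact fun ξ x => periodic_of_inv hinv hm hdm' hy' ξ x
        · rw [mZBasis_ofZLatticeBasis, ← fdom_eq hm]
          exact hcy
      · intro w _
        rw [mem_Ici, div_le_iff₀ (by positivity), mul_comm]
        exact hr.2 w
    · have h0 : ∀ z' : E, κ z.1 (pt z' y') = 0 := by
        intro z'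
        by_contra hne
        obtain ⟨h1, h2, -⟩ := hsupp y' hy' z' hne
        exact hr ⟨h1, h2⟩
      have h1 : ∫ z' : E, κ z.1 (pt z' y') * f (pt z' y', z.2) = 0 := by
        simp_rw [h0, zero_mul]
        exact integral_zero _ _
      rw [h1, norm_zero]
      exact Set.indicator_nonneg (fun _ _ => by positivity) _
  have hgoal0 : 0 ≤ C * M / s := by positivity
  by_cases hint : Integrable fun x' : Xi F => κ z.1 x' * f (x', z.2)
  swap
  · rw [integral_undef hint, norm_zero]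
    exact hgoal0
  rw [integral_Xi hint]
  have hYm : MeasurableSet (Set.univ.pi fun w : InfinitePlace F => Ici ((z.1 w).y / (2 * R'))) :=
    MeasurableSet.univ_pi fun _ => measurableSet_Ici
  have hYt : ∀ w : InfinitePlace F, 0 < (z.1 w).y / (2 * R') := fun w =>
    div_pos (z.1 w).y_pos (by positivity)
  have hYv : nuF F (Set.univ.pi fun w : InfinitePlace F => Ici ((z.1 w).y / (2 * R'))) =
      ENNReal.ofReal (∏ w : InfinitePlace F, (2 * ((z.1 w).y / (2 * R')) ^ 2)⁻¹) := by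
    rw [nuF_box hYt, ENNReal.ofReal_prod_of_nonneg]
    intro w _
    have := hYt w
    positivity
  have hYfin : nuF F (Set.univ.pi fun w : InfinitePlace F => Ici ((z.1 w).y / (2 * R'))) ≠ ⊤ := by
    rw [hYv]; exact ENNReal.ofReal_ne_top
  have hYr : (nuF F).real (Set.univ.pi fun w : InfinitePlace F => Ici ((z.1 w).y / (2 * R'))) ≤
      (2 * R' ^ 2 * c ^ 2) ^ n * ((s ^ 2)⁻¹) ^ n := by
    rw [measureReal_def, hYv, ENNReal.toReal_ofReal (Finset.prod_nonneg fun w _ => by
      have := hYt w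
      positivity), ← mul_pow]
    rw [show n = (Finset.univ : Finset (InfinitePlace F)).card from rfl, ← Finset.prod_const]
    refine Finset.prod_le_prod (fun w _ => by have := hYt w; positivity) fun w _ => ?_
    have h1 : (2 * ((z.1 w).y / (2 * R')) ^ 2)⁻¹ = 2 * R' ^ 2 * ((z.1 w).y ^ 2)⁻¹ := by
      have := (z.1 w).y_pos
      field_simp
    have h2 : ((z.1 w).y ^ 2)⁻¹ ≤ c ^ 2 * (s ^ 2)⁻¹ := by
      have h3 : (s / c) ^ 2 ≤ (z.1 w).y ^ 2 := by
        gcongr
        exact hlow w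
      calc ((z.1 w).y ^ 2)⁻¹ ≤ ((s / c) ^ 2)⁻¹ := inv_anti₀ (by positivity) h3
        _ = c ^ 2 * (s ^ 2)⁻¹ := by field_simp
    rw [h1]
    calc 2 * R' ^ 2 * ((z.1 w).y ^ 2)⁻¹ ≤ 2 * R' ^ 2 * (c ^ 2 * (s ^ 2)⁻¹) := by gcongr
      _ = 2 * R' ^ 2 * c ^ 2 * (s ^ 2)⁻¹ := by ring
  have hball : (volume : Measure E).real (Metric.closedBall (0 : E) (2 * R' * c * s + δ)) ≤
      A ^ finrank ℝ E * V * (s ^ 2) ^ n := by
    rw [Measure.addHaar_real_closedBall' _ _ (by positivity)]
    have h1 : 2 * R' * c * s + δ ≤ A * s := by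
      have h2 : 1 ≤ c * s := by
        rw [inv_le_iff_one_le_mul₀ hc0] at hsc
        rw [mul_comm]; exact hsc
      simp only [A]
      nlinarith
    have h2 : finrank ℝ E = 2 * n := by
      simp only [E, n]
      rw [Module.finrank_pi_fintype, Finset.sum_const, Complex.finrank_real_complex,
        Finset.card_univ, smul_eq_mul, mul_comm]
    calc (2 * R' * c * s + δ) ^ finrank ℝ E * V ≤ (A * s) ^ finrank ℝ E * V := by gcongr
      _ = A ^ finrank ℝ E * V * (s ^ 2) ^ n := by rw [mul_pow, ← pow_mul s 2 n, ← h2]; ring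
  refine (norm_integral_le_of_norm_le ?_ hinner).trans ?_
  · exact (integrable_indicator_iff hYm).2 (integrableOn_const hYfin)
  rw [integral_indicator_const _ hYm, smul_eq_mul]
  have hsn : (s ^ 2) ^ n * ((s ^ 2)⁻¹) ^ n = 1 := by
    rw [← mul_pow, mul_inv_cancel₀ (by positivity), one_pow]
  calc _ ≤ ((2 * R' ^ 2 * c ^ 2) ^ n * ((s ^ 2)⁻¹) ^ n) *
        (Λ / (s / c) * δ * (A ^ finrank ℝ E * V * (s ^ 2) ^ n) * M) := by
        gcongr
    _ = C * M / s * ((s ^ 2) ^ n * ((s ^ 2)⁻¹) ^ n) := by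
        simp only [C]
        field_simp
    _ = C * M / s := by rw [hsn, mul_one]

end Main

end Fermat.Agent.LT
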