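import Fermat.Agent.LT.Space

/-!
# The operator of a kernel on `X_∞`, acting on functions on `Z = X_∞ × D`
-/

set_option autoImplicit false

namespace Fermat.Agent.LT

open MeasureTheory NumberField

variable {F : Type*} [Field F] [NumberField F] {D : Type*}

/-- `(opK κ f)(x, d) = ∫ κ(x, x') f(x', d) dx'`. -/
noncomputable def opK (κ : Xi F → Xi F → ℂ) (f : Xi F × D → ℂ) (p : Xi F × D) : ℂ :=
  ∫ x', κ p.1 x' * f (x', p.2)

theorem opK_apply (κ : Xi F → Xi F → ℂ) (f : Xi F × D → ℂ) (x : Xi F) (d : D) :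
    opK κ f (x, d) = ∫ x', κ x x' * f (x', d) := rfl

/-- `opK` only depends on the almost everywhere class. -/
theorem opK_congr_ae {κ : Xi F → Xi F → ℂ} {f f' : Xi F × D → ℂ} {d : D}
    (h : (fun x => f (x, d)) =ᵐ[volume] fun x => f' (x, d)) (x : Xi F) :
    opK κ f (x, d) = opK κ f' (x, d) := by
  refine integral_congr_ae ?_
  filter_upwards [h] with x' hx'
  rw [hx']

/-- Invariant kernels preserve invariant functions. -/
theorem opK_smul [MulAction (GL (Fin 2) F) D] {κ : Xi F → Xi F → ℂ}
    (hκ : ∀ (g : GL (Fin 2) F) x x', κ (g • x) (g • x') = κ x x') {f : Xi F × D → ℂ}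
    (hf : ∀ (g : GL (Fin 2) F) z, f (g • z) = f z) (g : GL (Fin 2) F) (z : Xi F × D) :
    opK κ f (g • z) = opK κ f z := by
  obtain ⟨x, d⟩ := z
  have hmp := Xi.measurePreserving_smul (F := F) g
  have hme : MeasurableEmbedding fun x : Xi F => g • x := measurableEmbedding_const_smul g
  rw [show (g • ((x, d) : Xi F × D)) = (g • x, g • d) from rfl, opK_apply, opK_apply,
    ← hmp.integral_comp hme]
  refine integral_congr_ae (Filter.Eventually.of_forall fun x' => ?_)
  simp only
  rw [hκ, show (g • x', g • d) = g • ((x', d) : Xi F × D) from rfl, hf]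

end Fermat.Agent.LT
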