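import Mathlib
import Fermat.Agent.LT.Red.Growth
import Fermat.Agent.LT.Red.OpK
import Fermat.Agent.LT.Red.RowL2

/-!
# Cuspidal functions: bounds and rapid decay (S47A, block B3: (C3), (C4))

* `Grow f p` : `f` is `O(y^p)` on every Siegel set;
* `Grow.step` : for cuspidal `f` the exponent improves by one;
* `exists_sup_le` (C3): products of `n + 1` operators map cuspidal `L²` functions to bounded functions;
* `Grow.decay` (C4): rapid decay of cuspidal eigenfunctions.
-/

set_option autoImplicit false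

open NumberField MeasureTheory ENNReal
open Fermat.Agent.LT.H3

noncomputable section

namespace Fermat.Agent.LT.Red

variable {F : Type*} [Field F] [NumberField F] [IsTotallyComplex F]
variable {D : Type*} [MeasurableSpace D] [DiscreteMeasurableSpace D] [Countable D]
variable [MulAction (GL (Fin 2) F) D]

/-! ### Growth on Siegel sets -/

/-- `‖f z‖ ≤ A y_v^p` on the Siegel set. -/
def GrowOn (f : Xi F × D → ℂ) (p A c : ℝ) (T : Finset D) : Prop :=
  ∀ z ∈ Sieg F c (T : Set D), ∀ v : InfinitePlace F, ‖f z‖ ≤ A * (z.1 v).y ^ p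

/-- `f = O(y^p)` on every Siegel set. -/
def Grow (f : Xi F × D → ℂ) (p : ℝ) : Prop :=
  ∀ (c : ℝ) (T : Finset D), 1 ≤ c → ∃ A : ℝ, 0 ≤ A ∧ GrowOn f p A c T

omit [IsTotallyComplex F] [MeasurableSpace D] [DiscreteMeasurableSpace D] [Countable D]
  [MulAction (GL (Fin 2) F) D] [NumberField F] in
theorem GrowOn.mono_set {f : Xi F × D → ℂ} {p A c c' : ℝ} {T T' : Finset D}
    (h : GrowOn f p A c' T') (hs : Sieg F c (T : Set D) ⊆ Sieg F c' (T' : Set D)) :
    GrowOn f p A c T := fun z hz v => h z (hs hz) v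

/-- comparison of powers -/
theorem rpow_le_of_comparable {a b c p : ℝ} (ha : 0 < a) (hb : 0 < b) (hc : 1 ≤ c)
    (h1 : a ≤ c * b) (h2 : b ≤ c * a) : b ^ p ≤ c ^ |p| * a ^ p := by
  have hc0 : 0 < c := one_pos.trans_le hc
  rcases le_total 0 p with hp | hp
  · rw [abs_of_nonneg hp, ← Real.mul_rpow hc0.le ha.le]
    exact Real.rpow_le_rpow hb.le h2 hp
  · rw [abs_of_nonpos hp]
    have h3 : (c * b) ^ p ≤ a ^ p := Real.rpow_le_rpow_of_nonpos ha h1 hp
    rw [Real.mul_rpow hc0.le hb.le] at h3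
    calc b ^ p = c ^ (-p) * (c ^ p * b ^ p) := by
          rw [← mul_assoc, ← Real.rpow_add hc0, neg_add_cancel, Real.rpow_zero, one_mul]
      _ ≤ c ^ (-p) * a ^ p := mul_le_mul_of_nonneg_left h3 (Real.rpow_nonneg hc0.le _)

variable [IsLevel F D]

omit [Countable D] in
/-- The growth step, with explicit constants: everything but `A` is independent of `f`. -/
theorem exists_grow_step {κ : Xi F → Xi F → ℂ} {R Λ : ℝ} (hκ : HKer κ R Λ) (p c : ℝ) (hc : 1 ≤ c)
    (T : Finset D) : ∃ c' C : ℝ, 1 ≤ c' ∧ 0 ≤ C ∧ ∀ f : Xi F × D → ℂ, Measurable f →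
      (∀ (g : GL (Fin 2) F) z, f (g • z) = f z) → IsCusp f → ∀ A : ℝ, 0 ≤ A →
      GrowOn f p A c' T → GrowOn (opK κ f) (p - 1) (C * A) c T := by
  obtain ⟨c', C, hc', hC, h⟩ := cusp_growth (D := D) hκ c hc T
  have hc0 : 0 < c' := one_pos.trans_le hc'
  refine ⟨c', C * c' ^ |p|, hc', mul_nonneg hC (Real.rpow_nonneg hc0.le _),
    fun f hf hinv hcusp A hA hg z hz v => ?_⟩
  have hy := (z.1 v).y_pos
  have h1 := h f hf hinv hcusp z hz (A * (c' ^ |p| * (z.1 v).y ^ p)) (fun z' hz' _ hzz' => by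
    refine (hg z' hz' v).trans (mul_le_mul_of_nonneg_left ?_ hA)
    exact rpow_le_of_comparable hy (z'.1 v).y_pos hc' (hzz' v).1 (hzz' v).2) v
  refine h1.trans (le_of_eq ?_)
  rw [Real.rpow_sub_one hy.ne']
  ring

omit [IsTotallyComplex F] [MeasurableSpace D] [DiscreteMeasurableSpace D] [Countable D]
  [MulAction (GL (Fin 2) F) D] [NumberField F] [IsLevel F D] in
/-- comparison of exponents -/
theorem GrowOn.mono {f : Xi F × D → ℂ} {p q A c : ℝ} {T : Finset D} (hc : 1 ≤ c) (hA : 0 ≤ A)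
    (h : GrowOn f p A c T) (hpq : p ≤ q) : GrowOn f q (A * c ^ (q - p)) c T := by
  intro z hz v
  have hc0 : 0 < c := one_pos.trans_le hc
  have hy := (z.1 v).y_pos
  have hcy : 1 ≤ c * (z.1 v).y := by
    have := mul_le_mul_of_nonneg_left (hz.2.2.1 v) hc0.le
    rwa [mul_inv_cancel₀ hc0.ne'] at this
  refine (h z hz v).trans ?_
  rw [mul_assoc]
  refine mul_le_mul_of_nonneg_left ?_ hA
  have h1 : 1 ≤ (c * (z.1 v).y) ^ (q - p) := Real.one_le_rpow hcy (sub_nonneg.2 hpq)
  rw [Real.mul_rpow hc0.le hy.le] at h1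
  calc (z.1 v).y ^ p ≤ (z.1 v).y ^ p * (c ^ (q - p) * (z.1 v).y ^ (q - p)) :=
        le_mul_of_one_le_right (Real.rpow_nonneg hy.le _) h1
    _ = c ^ (q - p) * ((z.1 v).y ^ p * (z.1 v).y ^ (q - p)) := by ring
    _ = c ^ (q - p) * (z.1 v).y ^ q := by rw [← Real.rpow_add hy, add_sub_cancel]

omit [IsTotallyComplex F] [MeasurableSpace D] [DiscreteMeasurableSpace D] [Countable D]
  [MulAction (GL (Fin 2) F) D] [NumberField F] [IsLevel F D] in
theorem Grow.mono {f : Xi F × D → ℂ} {p q : ℝ} (h : Grow f p) (hpq : p ≤ q) : Grow f q := by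
  intro c T hc
  obtain ⟨A, hA, hg⟩ := h c T hc
  exact ⟨_, mul_nonneg hA (Real.rpow_nonneg (zero_le_one.trans hc) _), hg.mono hc hA hpq⟩

/-! ### Nice functions -/

/-- Measurable, invariant, cuspidal, locally integrable. -/
structure Nice (f : Xi F × D → ℂ) : Prop where
  meas : Measurable f
  inv : ∀ (g : GL (Fin 2) F) z, f (g • z) = f z
  cusp : IsCusp f
  loc : ∀ d, LocallyIntegrable fun x => f (x, d)

/-- A kernel for which everything works. -/
structure IsCKer (F : Type*) [Field F] [NumberField F] [IsTotallyComplex F] (D : Type*)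
    [MeasurableSpace D] [MulAction (GL (Fin 2) F) D] (κ : Xi F → Xi F → ℂ) : Prop where
  ker : ∃ R Λ : ℝ, HKer κ R Λ
  nice : ∀ f : Xi F × D → ℂ, Nice f → Nice (opK κ f)

omit [Countable D] in
theorem Grow.step {f : Xi F × D → ℂ} {p : ℝ} {κ : Xi F → Xi F → ℂ} {R Λ : ℝ} (hκ : HKer κ R Λ)
    (hf : Nice f) (h : Grow f p) : Grow (opK κ f) (p - 1) := by
  intro c T hc
  obtain ⟨c', C, hc', hC, hs⟩ := exists_grow_step (D := D) hκ p c hc T
  obtain ⟨A, hA, hg⟩ := h c' T hc'
  exact ⟨C * A, mul_nonneg hC hA, hs f hf.meas hf.inv hf.cusp A hA hg⟩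

/-- **(C4), rapid decay of cuspidal eigenfunctions of moderate growth.** -/
theorem Grow.decay {f : Xi F × D → ℂ} {p : ℝ} {κ : Xi F → Xi F → ℂ} {R Λ : ℝ} (hκ : HKer κ R Λ)
    (hf : Nice f) {a : ℂ} (ha : a ≠ 0) (he : ∀ z, opK κ f z = a * f z) (h : Grow f p) (q : ℝ) :
    Grow f q := by
  have h1 : ∀ k : ℕ, Grow f (p - k) := by
    intro k
    induction k with
    | zero => simpa using h
    | succ k ih =>
      have h2 := ih.step hκ hf
      intro c T hc
      obtain ⟨A, hA, hg⟩ := h2 c T hc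
      refine ⟨‖a‖⁻¹ * A, by positivity, fun z hz v => ?_⟩
      have h3 := hg z hz v
      rw [he, norm_mul] at h3
      have h4 : p - ((k + 1 : ℕ) : ℝ) = p - k - 1 := by push_cast; ring
      rw [h4, mul_assoc, ← div_eq_inv_mul, le_div_iff₀ (norm_pos_iff.2 ha), mul_comm]
      exact h3
  obtain ⟨k, hk⟩ := exists_nat_ge (p - q)
  exact (h1 k).mono (by linarith)

/-- **(C3)**, on Siegel sets. -/
theorem exists_iter_bound (l : List (Xi F → Xi F → ℂ)) (hl : ∀ κ ∈ l, IsCKer F D κ)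
    {κ₀ : Xi F → Xi F → ℂ} (hκ₀ : IsCKer F D κ₀) (c : ℝ) (hc : 1 ≤ c) (T : Finset D) :
    ∃ C : ℝ, 0 ≤ C ∧ ∀ w : Xi F × D → ℝ≥0∞, IsWeight (PG F) w → ∀ f : Xi F × D → ℂ, Nice f →
      MemLp f 2 ((muZ F D).withDensity w) →
      GrowOn (l.foldr opK (opK κ₀ f)) (Fintype.card (InfinitePlace F) - l.length)
        (C * (eLpNorm f 2 ((muZ F D).withDensity w)).toReal) c T := by
  induction l generalizing c with
  | nil =>
    obtain ⟨R, Λ, hκ⟩ := hκ₀.ker
    have hΛ : 0 ≤ Λ := (norm_nonneg _).trans (hκ.bdd default default)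
    obtain ⟨C, hC, h⟩ := exists_norm_integral_le (F := F) (D := D) R c Λ hc hΛ T
    refine ⟨C, hC, fun w hw f hf hmem z hz v => ?_⟩
    have h1 := h κ₀ hκ.supp hκ.bdd w hw f hf.meas (fun g z => by
      obtain ⟨g, rfl⟩ := QuotientGroup.mk_surjective g
      exact hf.inv g z) hmem z hz v
    simp only [List.foldr_nil, List.length_nil, Nat.cast_zero, sub_zero, Real.rpow_natCast]
    refine h1.trans (le_of_eq ?_)
    ring
  | cons κ l ih =>
    obtain ⟨R, Λ, hκ⟩ := (hl κ List.mem_cons_self).ker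
    obtain ⟨c', C', hc', hC', hs⟩ := exists_grow_step (D := D) hκ
      ((Fintype.card (InfinitePlace F) : ℝ) - l.length) c hc T
    have hl' : ∀ κ ∈ l, IsCKer F D κ := fun κ' h => hl κ' (List.mem_cons_of_mem _ h)
    obtain ⟨C, hC, h⟩ := ih hl' c' hc'
    refine ⟨C' * C, mul_nonneg hC' hC, fun w hw f hf hmem => ?_⟩
    have hN : Nice (l.foldr opK (opK κ₀ f)) := by
      clear ih h hs hl
      induction l with
      | nil => exact hκ₀.nice f hf
      | cons κ' l ih =>
        exact (hl' κ' List.mem_cons_self).nice _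
          (ih fun κ h => hl' κ (List.mem_cons_of_mem _ h))
    have h1 := hs _ hN.meas hN.inv hN.cusp _ (mul_nonneg hC ENNReal.toReal_nonneg) (h w hw f hf hmem)
    have h2 : (Fintype.card (InfinitePlace F) : ℝ) - ((κ :: l).length : ℕ) =
        (Fintype.card (InfinitePlace F) : ℝ) - l.length - 1 := by
      rw [List.length_cons]; push_cast; ring
    rw [h2, mul_assoc C']
    exact h1

/-! ### From Siegel sets to everywhere -/

omit [MeasurableSpace D] [DiscreteMeasurableSpace D] [Countable D] in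
variable (F D) in
/-- Bounded on Siegel sets implies bounded. -/
theorem exists_covering : ∃ (c : ℝ) (T : Finset D), 1 ≤ c ∧ ∀ (f : Xi F × D → ℂ),
    (∀ (g : GL (Fin 2) F) z, f (g • z) = f z) → ∀ M : ℝ,
      (∀ z ∈ Sieg F c (T : Set D), ‖f z‖ ≤ M) → ∀ z, ‖f z‖ ≤ M := by
  obtain ⟨c, T, hc, h⟩ := exists_siegel F D
  refine ⟨c, T, hc, fun f hinv M hM z => ?_⟩
  obtain ⟨g, hg⟩ := h z
  rw [← hinv g z]
  exact hM _ hg

/-- **(C3)**: products of at least `n + 1` operators are bounded from cuspidal `L²` functions to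
bounded functions. -/
theorem exists_sup_le (l : List (Xi F → Xi F → ℂ)) (hl : ∀ κ ∈ l, IsCKer F D κ)
    {κ₀ : Xi F → Xi F → ℂ} (hκ₀ : IsCKer F D κ₀)
    (hlen : Fintype.card (InfinitePlace F) ≤ l.length) :
    ∃ C : ℝ, 0 ≤ C ∧ ∀ w : Xi F × D → ℝ≥0∞, IsWeight (PG F) w → ∀ f : Xi F × D → ℂ, Nice f →
      MemLp f 2 ((muZ F D).withDensity w) →
      ∀ z, ‖l.foldr opK (opK κ₀ f) z‖ ≤ C * (eLpNorm f 2 ((muZ F D).withDensity w)).toReal := by
  obtain ⟨c, T, hc, hcov⟩ := exists_covering F D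
  obtain ⟨C, hC, h⟩ := exists_iter_bound (D := D) l hl hκ₀ c hc T
  obtain ⟨v⟩ : Nonempty (InfinitePlace F) := inferInstance
  refine ⟨C * c ^ ((l.length : ℝ) - Fintype.card (InfinitePlace F)),
    mul_nonneg hC (Real.rpow_nonneg (zero_le_one.trans hc) _), fun w hw f hf hmem => ?_⟩
  have hN : Nice (l.foldr opK (opK κ₀ f)) := by
    clear h hlen
    induction l with
    | nil => exact hκ₀.nice f hf
    | cons κ' l ih =>
      exact (hl κ' List.mem_cons_self).nice _
        (ih fun κ h => hl κ (List.mem_cons_of_mem _ h))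
  refine hcov _ hN.inv _ fun z hz => ?_
  have h1 := (h w hw f hf hmem).mono (q := 0) hc (mul_nonneg hC ENNReal.toReal_nonneg)
    (sub_nonpos.2 (by exact_mod_cast hlen)) z hz v
  rw [Real.rpow_zero, mul_one, zero_sub, neg_sub] at h1
  refine h1.trans (le_of_eq ?_)
  ring

/-! ### Growth on one covering Siegel set -/

omit [IsTotallyComplex F] in
/-- Heights do not increase much under a fixed element. -/
theorem exists_y_smul_le (g : GL (Fin 2) F) (c : ℝ) (hc : 1 ≤ c) : ∃ C : ℝ, 0 < C ∧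
    ∀ (x : Xi F), (∀ w, c⁻¹ ≤ (x w).y) → ∀ w, ((g • x) w).y ≤ C * (x w).y := by
  have hc0 : 0 < c := one_pos.trans_le hc
  have key : ∀ w : InfinitePlace F, ∃ C : ℝ, 0 < C ∧ ∀ P : H3, c⁻¹ ≤ P.y →
      (gAt w g • P).y ≤ C * P.y := by
    intro w
    have hA := adet_pos (gAt w g)
    by_cases h0 : (gAt w g) 1 0 = 0
    · have h1 := (upper_ne h0).2
      have h1' : 0 < Complex.normSq ((gAt w g) 1 1) := Complex.normSq_pos.2 h1
      refine ⟨adet (gAt w g) / Complex.normSq ((gAt w g) 1 1), by positivity, fun P _ => ?_⟩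
      rw [y_smul, den_of_upper h0]
      refine le_of_eq ?_
      field_simp
    · have h1' : 0 < Complex.normSq ((gAt w g) 1 0) := Complex.normSq_pos.2 h0
      refine ⟨adet (gAt w g) / Complex.normSq ((gAt w g) 1 0) * c ^ 2, by positivity,
        fun P hP => ?_⟩
      have h2 := normSq_c_mul_le (gAt w g) P
      have hy := P.y_pos
      have hy' := (gAt w g • P).y_pos
      have hcy : 1 ≤ c * P.y := by
        have := mul_le_mul_of_nonneg_left hP hc0.le
        rwa [mul_inv_cancel₀ hc0.ne'] at this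
      have h3 : (gAt w g • P).y * P.y ≤ adet (gAt w g) / Complex.normSq ((gAt w g) 1 0) := by
        rw [le_div_iff₀ h1']
        calc (gAt w g • P).y * P.y * Complex.normSq ((gAt w g) 1 0)
            = Complex.normSq ((gAt w g) 1 0) * (P.y * (gAt w g • P).y) := by ring
          _ ≤ _ := h2
      have h4 : 1 ≤ c ^ 2 * P.y * P.y := by nlinarith
      calc (gAt w g • P).y ≤ (gAt w g • P).y * (c ^ 2 * P.y * P.y) :=
            le_mul_of_one_le_right hy'.le h4
        _ = ((gAt w g • P).y * P.y) * (c ^ 2 * P.y) := by ring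
        _ ≤ (adet (gAt w g) / Complex.normSq ((gAt w g) 1 0)) * (c ^ 2 * P.y) :=
            mul_le_mul_of_nonneg_right h3 (by positivity)
        _ = _ := by ring
  choose C hC h using key
  refine ⟨∑ w, C w, Finset.sum_pos (fun w _ => hC w) Finset.univ_nonempty, fun x hx w => ?_⟩
  refine (h w (x w) (hx w)).trans (mul_le_mul_of_nonneg_right ?_ (x w).y_pos.le)
  exact Finset.single_le_sum (fun w _ => (hC w).le) (Finset.mem_univ w)

omit [MeasurableSpace D] [DiscreteMeasurableSpace D] [Countable D] in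
/-- **Moderate growth on one Siegel set which meets every orbit implies moderate growth on every
Siegel set.** -/
theorem grow_of_covering {f : Xi F × D → ℂ} (hinv : ∀ (g : GL (Fin 2) F) z, f (g • z) = f z)
    {c₀ : ℝ} {T₀ : Finset D} (hc₀ : 1 ≤ c₀)
    (hcov : ∀ z : Xi F × D, ∃ g : GL (Fin 2) F, g • z ∈ Sieg F c₀ (T₀ : Set D)) {p A : ℝ}
    (hp : 0 ≤ p) (hA : 0 ≤ A) (h : GrowOn f p A c₀ T₀) : Grow f p := by
  classical
  intro c T hc
  set c' := max c c₀ with hc'
  set T' := T ∪ T₀ with hT'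
  have hc'1 : 1 ≤ c' := hc.trans (le_max_left _ _)
  have hfin := siegelSet_finite (F := F) c' T'
  have key : ∀ γ : PG F, ∃ C : ℝ, 0 < C ∧ ∀ (x : Xi F), (∀ w, c'⁻¹ ≤ (x w).y) →
      ∀ w, ((γ • x) w).y ≤ C * (x w).y := by
    intro γ
    obtain ⟨g, rfl⟩ := QuotientGroup.mk_surjective γ
    exact exists_y_smul_le g c' hc'1
  choose C hC hy using key
  set B : ℝ := ∑ γ ∈ hfin.toFinset, C γ with hB
  have hB0 : 0 ≤ B := Finset.sum_nonneg fun γ _ => (hC γ).le
  refine ⟨A * B ^ p, mul_nonneg hA (Real.rpow_nonneg hB0 _), fun z hz v => ?_⟩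
  obtain ⟨g, hg⟩ := hcov z
  have hz' : z ∈ siegelSet (F := F) c' T' := by
    rw [← Sieg_eq_siegelSet]
    exact Sieg_mono F (one_pos.trans_le hc) (le_max_left _ _)
      (Finset.coe_subset.2 Finset.subset_union_left) hz
  have hgz' : (QuotientGroup.mk g : PG F) • z ∈ siegelSet (F := F) c' T' := by
    rw [← Sieg_eq_siegelSet]
    exact Sieg_mono F (one_pos.trans_le hc₀) (le_max_right _ _)
      (Finset.coe_subset.2 Finset.subset_union_right) hg
  have hmem : (QuotientGroup.mk g : PG F) ∈ hfin.toFinset := by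
    rw [Set.Finite.mem_toFinset]
    exact ⟨z, hz', hgz'⟩
  have h1 := hy (QuotientGroup.mk g) z.1 (fun w => (hz'.1 w).2.1) v
  have h2 : C (QuotientGroup.mk g) ≤ B := Finset.single_le_sum (fun γ _ => (hC γ).le) hmem
  rw [← hinv g z]
  refine (h _ hg v).trans ?_
  rw [mul_assoc]
  refine mul_le_mul_of_nonneg_left ?_ hA
  rw [← Real.mul_rpow hB0 (z.1 v).y_pos.le]
  refine Real.rpow_le_rpow ((g • z).1 v).y_pos.le ?_ hp
  exact h1.trans (mul_le_mul_of_nonneg_right h2 (z.1 v).y_pos.le)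

end Fermat.Agent.LT.Red
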