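import Mathlib
import Fermat.Agent.LT.Red.Sup
import Fermat.Agent.LT.Red.Local

/-!
# Cuspidal eigenfunctions: rapid decay and boundedness (S47A, block B3: (C4))
-/

set_option autoImplicit false

open NumberField MeasureTheory ENNReal Filter
open Fermat.Agent.LT.H3

noncomputable section

namespace Fermat.Agent.LT.Red

variable {F : Type*} [Field F] [NumberField F] [IsTotallyComplex F]
variable {D : Type*} [MeasurableSpace D] [DiscreteMeasurableSpace D] [Countable D]
variable [MulAction (GL (Fin 2) F) D] [IsLevel F D]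

omit [IsTotallyComplex F] [DiscreteMeasurableSpace D] [Countable D]
  [MulAction (GL (Fin 2) F) D] [IsLevel F D] in
theorem measurable_opK {κ : Xi F → Xi F → ℂ} (hm : Measurable (Function.uncurry κ))
    {f : Xi F × D → ℂ} (hf : Measurable f) : Measurable (opK κ f) := by
  have h : StronglyMeasurable (Function.uncurry fun (p : Xi F × D) (x' : Xi F) =>
      κ p.1 x' * f (x', p.2)) :=
    ((hm.comp ((measurable_fst.comp measurable_fst).prodMk measurable_snd)).mul
      (hf.comp (measurable_snd.prodMk (measurable_snd.comp measurable_fst)))).stronglyMeasurable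
  exact h.integral_prod_right.measurable

omit [Countable D] [DiscreteMeasurableSpace D] [IsLevel F D] in
/-- Everything but the preservation of cuspidality is automatic. -/
theorem isCKer_of {κ : Xi F → Xi F → ℂ} {R Λ : ℝ} (hκ : HKer κ R Λ)
    (hinv : ∀ (g : GL (Fin 2) F) x x', κ (g • x) (g • x') = κ x x')
    (hcusp : ∀ f : Xi F × D → ℂ, Measurable f → (∀ (g : GL (Fin 2) F) z, f (g • z) = f z) →
      IsCusp f → (∀ d, LocallyIntegrable fun x => f (x, d)) → IsCusp (opK κ f)) :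
    IsCKer F D κ where
  ker := ⟨R, Λ, hκ⟩
  nice f hf := {
    meas := measurable_opK hκ.meas hf.meas
    inv := opK_smul hinv hf.inv
    cusp := hcusp f hf.meas hf.inv hf.cusp hf.loc
    loc := fun d => by
      have hs : Measurable fun x => f (x, d) := hf.meas.comp measurable_prodMk_right
      exact locallyIntegrable_integral_ker hκ.supp hκ.bdd hκ.meas hs (hf.loc d) }

/-- An invariant `L²` function has operator images of moderate growth. -/
theorem grow_opK_of_memLp {κ : Xi F → Xi F → ℂ} {R Λ : ℝ} (hκ : HKer κ R Λ)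
    {w : Xi F × D → ℝ≥0∞} (hw : IsWeight (PG F) w) {f : Xi F × D → ℂ} (hf : Measurable f)
    (hinv : ∀ (g : GL (Fin 2) F) z, f (g • z) = f z)
    (hmem : MemLp f 2 ((muZ F D).withDensity w)) :
    Grow (opK κ f) (Fintype.card (InfinitePlace F)) := by
  intro c T hc
  have hΛ : 0 ≤ Λ := (norm_nonneg _).trans (hκ.bdd default default)
  obtain ⟨C, hC, h⟩ := exists_norm_integral_le (F := F) (D := D) R c Λ hc hΛ T
  refine ⟨C * (eLpNorm f 2 ((muZ F D).withDensity w)).toReal,
    mul_nonneg hC ENNReal.toReal_nonneg, fun z hz v => ?_⟩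
  have h1 := h κ hκ.supp hκ.bdd w hw f hf (fun g z => by
    obtain ⟨g, rfl⟩ := QuotientGroup.mk_surjective g
    exact hinv g z) hmem z hz v
  rw [Real.rpow_natCast]
  refine h1.trans (le_of_eq ?_)
  ring

/-- Moderate growth of a pointwise `L²` eigenfunction. -/
theorem grow_of_memLp {κ : Xi F → Xi F → ℂ} {R Λ : ℝ} (hκ : HKer κ R Λ)
    {w : Xi F × D → ℝ≥0∞} (hw : IsWeight (PG F) w) {f : Xi F × D → ℂ} (hf : Measurable f)
    (hinv : ∀ (g : GL (Fin 2) F) z, f (g • z) = f z)
    (hmem : MemLp f 2 ((muZ F D).withDensity w)) {a : ℂ} (ha : a ≠ 0)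
    (he : ∀ z, opK κ f z = a * f z) : Grow f (Fintype.card (InfinitePlace F)) := by
  intro c T hc
  obtain ⟨A, hA, h⟩ := grow_opK_of_memLp hκ hw hf hinv hmem c T hc
  refine ⟨‖a‖⁻¹ * A, by positivity, fun z hz v => ?_⟩
  have h3 := h z hz v
  rw [he, norm_mul] at h3
  rw [mul_assoc, ← div_eq_inv_mul, le_div_iff₀ (norm_pos_iff.2 ha), mul_comm]
  exact h3

/-- **(C4) for `L²`: rapid decay of a cuspidal eigenfunction.** -/
theorem decay_of_memLp {κ : Xi F → Xi F → ℂ} {R Λ : ℝ} (hκ : HKer κ R Λ)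
    {w : Xi F × D → ℝ≥0∞} (hw : IsWeight (PG F) w) {f : Xi F × D → ℂ} (hf : Nice f)
    (hmem : MemLp f 2 ((muZ F D).withDensity w)) {a : ℂ} (ha : a ≠ 0)
    (he : ∀ z, opK κ f z = a * f z) (q : ℝ) : Grow f q :=
  (grow_of_memLp hκ hw hf.meas hf.inv hmem ha he).decay hκ hf ha he q

omit [MeasurableSpace D] [DiscreteMeasurableSpace D] [Countable D] in
/-- A function which is bounded on Siegel sets is bounded. -/
theorem Grow.exists_bound {f : Xi F × D → ℂ} (hinv : ∀ (g : GL (Fin 2) F) z, f (g • z) = f z)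
    (h : Grow f 0) : ∃ M : ℝ, 0 ≤ M ∧ ∀ z, ‖f z‖ ≤ M := by
  obtain ⟨c, T, hc, hcov⟩ := exists_covering F D
  obtain ⟨A, hA, hg⟩ := h c T hc
  obtain ⟨v⟩ : Nonempty (InfinitePlace F) := inferInstance
  refine ⟨A, hA, hcov f hinv A fun z hz => ?_⟩
  have := hg z hz v
  rwa [Real.rpow_zero, mul_one] at this

/-- A bounded invariant measurable function is square integrable. -/
theorem memLp_of_bound {w : Xi F × D → ℝ≥0∞} (hw : IsWeight (PG F) w) {f : Xi F × D → ℂ}
    (hf : Measurable f) {M : ℝ} (hM : ∀ z, ‖f z‖ ≤ M) (p : ℝ≥0∞) :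
    MemLp f p ((muZ F D).withDensity w) := by
  have := isFiniteMeasure_weight F D hw
  exact MemLp.of_bound hf.aestronglyMeasurable M (Eventually.of_forall hM)

/-- Rapid decay, moderate growth version: bounded and square integrable. -/
theorem Grow.memLp {w : Xi F × D → ℝ≥0∞} (hw : IsWeight (PG F) w) {f : Xi F × D → ℂ} {p : ℝ}
    {κ : Xi F → Xi F → ℂ} {R Λ : ℝ} (hκ : HKer κ R Λ) (hf : Nice f) {a : ℂ} (ha : a ≠ 0)
    (he : ∀ z, opK κ f z = a * f z) (h : Grow f p) :
    (∃ M : ℝ, 0 ≤ M ∧ ∀ z, ‖f z‖ ≤ M) ∧ MemLp f 2 ((muZ F D).withDensity w) := by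
  obtain ⟨M, hM0, hM⟩ := (h.decay hκ hf ha he 0).exists_bound hf.inv
  exact ⟨⟨M, hM0, hM⟩, memLp_of_bound hw hf.meas hM 2⟩

omit [IsTotallyComplex F] [DiscreteMeasurableSpace D] [MulAction (GL (Fin 2) F) D]
  [IsLevel F D] in
/-- The regular representative `a⁻¹ opK κ f` of an eigenfunction in the almost everywhere sense. -/
theorem exists_regular {κ : Xi F → Xi F → ℂ} {f : Xi F × D → ℂ} {a : ℂ} (ha : a ≠ 0)
    (he : opK κ f =ᵐ[muZ F D] fun z => a * f z) :
    (fun z => a⁻¹ * opK κ f z) =ᵐ[muZ F D] f ∧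
      ∀ z, opK κ (fun z => a⁻¹ * opK κ f z) z = a * (a⁻¹ * opK κ f z) := by
  have h1 : (fun z => a⁻¹ * opK κ f z) =ᵐ[muZ F D] f := by
    filter_upwards [he] with z hz
    rw [hz, ← mul_assoc, inv_mul_cancel₀ ha, one_mul]
  refine ⟨h1, fun z => ?_⟩
  have h2 : ∀ d : D, (fun x => a⁻¹ * opK κ f (x, d)) =ᵐ[volume] fun x => f (x, d) := by
    intro d
    have h3 : ∀ᵐ p ∂((volume : Measure (Xi F)).prod (Measure.count : Measure D)),
        a⁻¹ * opK κ f p = f p := h1
    have h4 := Measure.ae_ae_of_ae_prod ((Measure.measurePreserving_swap (μ := (Measure.count :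
      Measure D)) (ν := (volume : Measure (Xi F)))).quasiMeasurePreserving.ae h3)
    rw [ae_iff, Measure.count_eq_zero_iff] at h4
    by_contra h5
    have : d ∈ {a_1 : D | ¬∀ᵐ y : Xi F, a⁻¹ * opK κ f (Prod.swap (a_1, y)) =
      f (Prod.swap (a_1, y))} := h5
    rw [h4] at this
    exact this
  have h6 := opK_congr_ae (κ := κ) (f := fun z => a⁻¹ * opK κ f z) (f' := f) (h2 z.2) z.1
  rw [show opK κ (fun z => a⁻¹ * opK κ f z) z = opK κ f z from h6, ← mul_assoc,
    mul_inv_cancel₀ ha, one_mul]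

end Fermat.Agent.LT.Red
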