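import Mathlib
import Fermat.Agent.LT.Red.Eigen
import Fermat.Agent.LT.Auto.CuspSp
import Fermat.Agent.LT.Auto.Sym

/-!
# (C3) for the operators on `L²(G \ Z)` (S47A, block B3/B4)

A product of more than `n` operators `R(κ_i ⊗ 1)` maps the cuspidal subspace of `L²` to bounded functions.
-/

set_option autoImplicit false

open NumberField MeasureTheory ENNReal Filter
open Fermat.Agent.LT.H3

noncomputable section

namespace Fermat.Agent.LT.Red

variable {F : Type*} [Field F] [NumberField F] [IsTotallyComplex F]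
variable {D : Type*} [MeasurableSpace D] [DiscreteMeasurableSpace D] [Countable D]
variable [MulAction (GL (Fin 2) F) D] [IsLevel F D]

/-- (C3) for a list of kernels. -/
theorem exists_sup_le_list (l : List (Xi F → Xi F → ℂ)) (hl : ∀ κ ∈ l, IsCKer F D κ)
    (hlen : Fintype.card (InfinitePlace F) < l.length) :
    ∃ C : ℝ, 0 ≤ C ∧ ∀ w : Xi F × D → ℝ≥0∞, IsWeight (PG F) w → ∀ f : Xi F × D → ℂ, Nice f →
      MemLp f 2 ((muZ F D).withDensity w) →
      ∀ z, ‖l.foldr opK f z‖ ≤ C * (eLpNorm f 2 ((muZ F D).withDensity w)).toReal := by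
  have hne : l ≠ [] := by
    rintro rfl
    simp at hlen
  have e : l = l.dropLast ++ [l.getLast hne] := (List.dropLast_append_getLast hne).symm
  obtain ⟨C, hC, h⟩ := exists_sup_le (D := D) l.dropLast
    (fun κ hκ => hl κ (List.mem_of_mem_dropLast hκ)) (hl _ (List.getLast_mem hne)) (by
      rw [List.length_dropLast]; omega)
  refine ⟨C, hC, fun w hw f hf hmem z => ?_⟩
  rw [e, List.foldr_append, List.foldr_cons, List.foldr_nil]
  exact h w hw f hf hmem z

instance instSMulInvariantMeasure_muXD {D : Type*} [MeasurableSpace D]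
    [MeasurableSingletonClass D] [Countable D] [MulAction (GL (Fin 2) F) D] [TrivScalar F D] :
    SMulInvariantMeasure (PG F) (Xi F × D) (muXD (volume : Measure (Xi F)) D) :=
  inferInstanceAs (SMulInvariantMeasure (PG F) (Xi F × D) (muZ F D))

variable {𝒦 : Type*} [Mul 𝒦] (κ : KerSg (PG F) (volume : Measure (Xi F)) 𝒦)
  {w : Xi F × D → ℝ≥0∞}

omit [IsTotallyComplex F] [DiscreteMeasurableSpace D] [Countable D] in
/-- The `L²` norm in terms of the representative. -/
theorem toReal_eLpNorm_arep (f : autL2 (PG F) ((muZ F D).withDensity w)) :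
    (eLpNorm (arep f) 2 ((muZ F D).withDensity w)).toReal = ‖f‖ := by
  rw [eLpNorm_congr_ae (coeFn_ae_arep f).symm]
  rfl

theorem nice_arep (hw : IsWeight (PG F) w) (f : autL2 (PG F) ((muZ F D).withDensity w))
    (hc : IsCusp (arep f)) : Nice (arep f) where
  meas := measurable_arep f
  inv g z := arep_smul f (QuotientGroup.mk g) z
  cusp := hc
  loc d := locallyIntegrable_of_memLp hw (measurable_arep f)
    (fun g z => arep_smul f (QuotientGroup.mk g) z) (memLp_arep f) d

variable (hT : ∃ T : Finset D, ∀ d, ∃ g : PG F, g • d ∈ T) (hw : IsWeight (PG F) w)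

/-- The product of the operators is given by the iterated integrals. -/
theorem arep_prod_opF_of_mem (l : List 𝒦) (hκ : ∀ k ∈ l, IsCKer F D (κ.kap k))
    (f : autL2 (PG F) ((muZ F D).withDensity w)) (hf : Nice (arep f)) :
    arep ((l.map fun k => opF κ hT hw k (1 : HK (PG F) D)).prod f) =ᵐ[muZ F D]
      (l.map κ.kap).foldr opK (arep f) ∧ Nice ((l.map κ.kap).foldr opK (arep f)) := by
  induction l with
  | nil => exact ⟨Filter.EventuallyEq.rfl, hf⟩
  | cons k l ih =>
    obtain ⟨ih1, ih2⟩ := ih fun k' hk' => hκ k' (List.mem_cons_of_mem _ hk')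
    simp only [List.map_cons, List.prod_cons, List.foldr_cons]
    refine ⟨?_, (hκ k List.mem_cons_self).nice _ ih2⟩
    refine (opF_one_ae κ hT hw k _ ih2.meas (fun g z => ?_)
      (ih1.filter_mono (withDensity_absolutelyContinuous _ _).ae_le)).trans ?_
    · obtain ⟨g, rfl⟩ := QuotientGroup.mk_surjective g
      exact ih2.inv g z
    · exact Filter.EventuallyEq.rfl

/-- The product of the operators is given by the iterated integrals. -/
theorem arep_prod_opF (hκ : ∀ k, IsCKer F D (κ.kap k)) (l : List 𝒦)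
    (f : autL2 (PG F) ((muZ F D).withDensity w)) (hf : Nice (arep f)) :
    arep ((l.map fun k => opF κ hT hw k (1 : HK (PG F) D)).prod f) =ᵐ[muZ F D]
      (l.map κ.kap).foldr opK (arep f) ∧ Nice ((l.map κ.kap).foldr opK (arep f)) :=
  arep_prod_opF_of_mem κ hT hw l (fun k _ => hκ k) f hf

/-- **(C3)**: a product of more than `n` operators is bounded from `L²_cusp` to bounded functions. -/
theorem exists_ae_bound_opF_of_mem (l : List 𝒦) (hκ : ∀ k ∈ l, IsCKer F D (κ.kap k))
    (hlen : Fintype.card (InfinitePlace F) < l.length) : ∃ C : ℝ, 0 ≤ C ∧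
      ∀ f : autL2 (PG F) ((muZ F D).withDensity w), IsCusp (arep f) →
        ∀ᵐ z ∂muZ F D,
          ‖arep ((l.map fun k => opF κ hT hw k (1 : HK (PG F) D)).prod f) z‖ ≤ C * ‖f‖ := by
  obtain ⟨C, hC, h⟩ := exists_sup_le_list (D := D) (l.map κ.kap) (by
    intro κ' hκ'
    obtain ⟨k, hk, rfl⟩ := List.mem_map.1 hκ'
    exact hκ k hk) (by rw [List.length_map]; exact hlen)
  refine ⟨C, hC, fun f hc => ?_⟩
  have hn := nice_arep hw f hc
  obtain ⟨h1, -⟩ := arep_prod_opF_of_mem κ hT hw l hκ f hn
  filter_upwards [h1] with z hz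
  rw [hz]
  refine (h w hw (arep f) hn (memLp_arep f) z).trans (le_of_eq ?_)
  rw [toReal_eLpNorm_arep]

/-- **(C3)**: a product of more than `n` operators is bounded from `L²_cusp` to bounded functions. -/
theorem exists_ae_bound_opF (hκ : ∀ k, IsCKer F D (κ.kap k)) (l : List 𝒦)
    (hlen : Fintype.card (InfinitePlace F) < l.length) : ∃ C : ℝ, 0 ≤ C ∧
      ∀ f : autL2 (PG F) ((muZ F D).withDensity w), IsCusp (arep f) →
        ∀ᵐ z ∂muZ F D,
          ‖arep ((l.map fun k => opF κ hT hw k (1 : HK (PG F) D)).prod f) z‖ ≤ C * ‖f‖ :=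
  exists_ae_bound_opF_of_mem κ hT hw l (fun k _ => hκ k) hlen

end Fermat.Agent.LT.Red
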