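import Fermat.Agent.LT.H3.Radial
import Fermat.Agent.LT.H3.Pi
import Fermat.Agent.LT.Red.Growth

/-!
# Lipschitz radial kernels

`LKer k`: a radial kernel `k (cu P Q)` which is Lipschitz for the hyperbolic distance. Products of
such kernels over the infinite places are `HKer`.
-/

namespace Fermat.Agent.LT

open Matrix NumberField MeasureTheory H3 Module Set
open scoped Pointwise ENNReal ComplexConjugate

namespace H3

/-- `cosh (a + b) ≤ 2 cosh a cosh b`. -/
theorem cu_le_two_mul (P W Q : H3) : cu P Q ≤ 2 * (cu P W * cu W Q) := by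
  obtain ⟨g, rfl⟩ := MulAction.exists_smul_eq (GL (Fin 2) ℂ) j W
  have h1 : cu P Q = cu (g⁻¹ • P) (g⁻¹ • Q) := by rw [cu_smul]
  have h2 : cu P (g • j) = cu (g⁻¹ • P) j := by
    rw [← cu_smul g⁻¹ P (g • j), inv_smul_smul]
  have h3 : cu (g • j) Q = cu j (g⁻¹ • Q) := by
    rw [← cu_smul g⁻¹ (g • j) Q, inv_smul_smul]
  rw [h1, h2, h3]
  generalize g⁻¹ • P = A
  generalize g⁻¹ • Q = B
  have hA := A.y_pos
  have hB := B.y_pos
  have e0 : (j : H3).z = 0 := rfl
  have e1 : (j : H3).y = 1 := rfl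
  unfold cu
  rw [e0, e1, sub_zero, zero_sub, Complex.normSq_neg]
  have h4 : Complex.normSq (A.z - B.z) ≤ Complex.normSq A.z + Complex.normSq B.z +
      (1 + Complex.normSq A.z * Complex.normSq B.z) := by
    have h5 : Complex.normSq (A.z - B.z) ≤ (‖A.z‖ + ‖B.z‖) ^ 2 := by
      rw [Complex.normSq_eq_norm_sq]
      have := norm_sub_le A.z B.z
      gcongr
    simp only [Complex.normSq_eq_norm_sq] at h5 ⊢
    nlinarith [sq_nonneg (‖A.z‖ * ‖B.z‖ - 1)]
  have h6 := Complex.normSq_nonneg A.z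
  have h7 := Complex.normSq_nonneg B.z
  rw [mul_one, mul_one, one_pow]
  have h8 : 2 * ((Complex.normSq A.z + A.y ^ 2 + 1) / (2 * A.y) *
      ((Complex.normSq B.z + 1 + B.y ^ 2) / (2 * B.y))) =
      ((Complex.normSq A.z + A.y ^ 2 + 1) * (Complex.normSq B.z + 1 + B.y ^ 2)) /
        (2 * A.y * B.y) := by
    field_simp
  rw [h8]
  gcongr
  nlinarith [mul_nonneg h6 (sq_nonneg B.y), mul_nonneg h7 (sq_nonneg A.y),
    mul_nonneg (sq_nonneg A.y) (sq_nonneg B.y)]

/-- The function `cu P ·` varies slowly: the comparison with the base point `j`. -/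
theorem abs_cu_sub_le_aux {P Q : H3} {R : ℝ} (h : cu P j ≤ R) (hε : cu Q j - 1 ≤ 1) :
    |cu P Q - cu P j| ≤ 100 * R * √(cu Q j - 1) := by
  have hy := P.y_pos
  have hv := Q.y_pos
  have hε0 : 0 ≤ cu Q j - 1 := by linarith [one_le_cu Q j]
  set ε := √(cu Q j - 1) with hεd
  have hεn : 0 ≤ ε := Real.sqrt_nonneg _
  have hε1 : ε ≤ 1 := by
    rw [hεd, Real.sqrt_le_one]
    exact hε
  have hεsq : ε ^ 2 = cu Q j - 1 := Real.sq_sqrt hε0
  have e0 : (j : H3).z = 0 := rfl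
  have e1 : (j : H3).y = 1 := rfl
  set y := P.y with hyd
  set v := Q.y with hvd
  -- the relation for `Q`
  have hQ : ‖Q.z‖ ^ 2 + (v - 1) ^ 2 = 2 * v * ε ^ 2 := by
    rw [hεsq]
    unfold cu
    rw [e0, e1, sub_zero, Complex.normSq_eq_norm_sq, ← hvd]
    field_simp
    ring
  have hP : ‖P.z‖ ^ 2 + y ^ 2 + 1 ≤ 2 * R * y := by
    unfold cu at h
    rw [e0, e1, sub_zero, Complex.normSq_eq_norm_sq, ← hyd, div_le_iff₀ (by positivity)] at h
    nlinarith
  have hR : 1 ≤ R := (one_le_cu P j).trans h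
  have hε2 : ε ^ 2 ≤ 1 := by nlinarith
  have hv4 : v ≤ 4 := by nlinarith [sq_nonneg ‖Q.z‖]
  have hv4' : 1 / 4 ≤ v := by nlinarith [sq_nonneg ‖Q.z‖]
  have hw3 : ‖Q.z‖ ≤ 3 := by nlinarith [sq_nonneg (v - 1), norm_nonneg Q.z]
  have hwε : ‖Q.z‖ ≤ 3 * ε := by
    have : ‖Q.z‖ ^ 2 ≤ (3 * ε) ^ 2 := by nlinarith [sq_nonneg (v - 1), sq_nonneg ε]
    have h1 := abs_le_of_sq_le_sq this (by positivity)
    rwa [abs_of_nonneg (norm_nonneg _)] at h1
  have hvε : |v - 1| ≤ 3 * ε := by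
    have : (v - 1) ^ 2 ≤ (3 * ε) ^ 2 := by nlinarith [sq_nonneg ‖Q.z‖, sq_nonneg ε]
    exact abs_le_of_sq_le_sq this (by positivity)
  have hkey : cu P Q - cu P j =
      ((‖P.z‖ ^ 2 + y ^ 2) * (1 - v) + (‖P.z - Q.z‖ ^ 2 - ‖P.z‖ ^ 2) + v * (v - 1)) /
        (2 * y * v) := by
    unfold cu
    rw [e0, e1, sub_zero, Complex.normSq_eq_norm_sq, Complex.normSq_eq_norm_sq, ← hyd, ← hvd]
    field_simp
    ring
  have hdiff : |‖P.z - Q.z‖ ^ 2 - ‖P.z‖ ^ 2| ≤ ‖Q.z‖ * (2 * ‖P.z‖ + ‖Q.z‖) := by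
    have h1 : |‖P.z - Q.z‖ - ‖P.z‖| ≤ ‖Q.z‖ := by
      have := abs_norm_sub_norm_le (P.z - Q.z) P.z
      simpa using this
    have h2 : ‖P.z - Q.z‖ ≤ ‖P.z‖ + ‖Q.z‖ := norm_sub_le _ _
    have h3 : ‖P.z - Q.z‖ ^ 2 - ‖P.z‖ ^ 2 = (‖P.z - Q.z‖ - ‖P.z‖) * (‖P.z - Q.z‖ + ‖P.z‖) := by
      ring
    rw [h3, abs_mul, abs_of_nonneg (by positivity : 0 ≤ ‖P.z - Q.z‖ + ‖P.z‖)]
    apply mul_le_mul h1 (by linarith) (by positivity) (norm_nonneg _)
  rw [hkey, abs_div, abs_of_pos (by positivity : 0 < 2 * y * v), div_le_iff₀ (by positivity)]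
  have hnum : |(‖P.z‖ ^ 2 + y ^ 2) * (1 - v) + (‖P.z - Q.z‖ ^ 2 - ‖P.z‖ ^ 2) + v * (v - 1)| ≤
      (‖P.z‖ ^ 2 + y ^ 2) * (3 * ε) + 3 * ε * (2 * ‖P.z‖ + 3) + 4 * (3 * ε) := by
    refine (abs_add_le _ _).trans (add_le_add ((abs_add_le _ _).trans (add_le_add ?_ ?_)) ?_)
    · rw [abs_mul, abs_of_nonneg (by positivity : 0 ≤ ‖P.z‖ ^ 2 + y ^ 2), abs_sub_comm]
      gcongr
    · refine hdiff.trans ?_
      apply mul_le_mul hwε (by linarith) (by positivity) (by positivity)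
    · rw [abs_mul, abs_of_pos hv]
      apply mul_le_mul hv4 hvε (abs_nonneg _) (by norm_num)
  refine hnum.trans ?_
  have h5 : (‖P.z‖ ^ 2 + y ^ 2) * (3 * ε) + 3 * ε * (2 * ‖P.z‖ + 3) + 4 * (3 * ε) ≤
      ε * (24 * (‖P.z‖ ^ 2 + y ^ 2 + 1)) := by
    have h6 : 2 * ‖P.z‖ ≤ 1 + ‖P.z‖ ^ 2 := by nlinarith [sq_nonneg (‖P.z‖ - 1)]
    have h7 : (‖P.z‖ ^ 2 + y ^ 2) * 3 + 3 * (2 * ‖P.z‖ + 3) + 12 ≤ 24 * (‖P.z‖ ^ 2 + y ^ 2 + 1) := by
      nlinarith [sq_nonneg y, sq_nonneg ‖P.z‖]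
    nlinarith
  refine h5.trans ?_
  have h8 : ε * (24 * (‖P.z‖ ^ 2 + y ^ 2 + 1)) ≤ ε * (24 * (2 * R * y)) := by gcongr
  refine h8.trans ?_
  have h9 : 0 ≤ ε * (R * y) := by positivity
  have h10 : ε * (R * y) * (1 / 4) ≤ ε * (R * y) * v := by gcongr
  calc ε * (24 * (2 * R * y)) = 48 * (ε * (R * y)) := by ring
    _ ≤ 200 * (ε * (R * y) * (1 / 4)) := by linarith
    _ ≤ 200 * (ε * (R * y) * v) := by linarith
    _ = 100 * R * ε * (2 * y * v) := by ring

/-- The function `cu P ·` varies slowly. -/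
theorem abs_cu_sub_le {P Q Q' : H3} {R : ℝ} (h : cu P Q' ≤ R) (hε : cu Q Q' - 1 ≤ 1) :
    |cu P Q - cu P Q'| ≤ 100 * R * √(cu Q Q' - 1) := by
  obtain ⟨g, rfl⟩ := MulAction.exists_smul_eq (GL (Fin 2) ℂ) j Q'
  have h1 : cu P (g • j) = cu (g⁻¹ • P) j := by
    rw [← cu_smul g⁻¹ P (g • j), inv_smul_smul]
  have h2 : cu Q (g • j) = cu (g⁻¹ • Q) j := by
    rw [← cu_smul g⁻¹ Q (g • j), inv_smul_smul]
  have h3 : cu P Q = cu (g⁻¹ • P) (g⁻¹ • Q) := by rw [cu_smul]
  rw [h1] at h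
  rw [h2] at hε
  rw [h1, h2, h3]
  exact abs_cu_sub_le_aux h hε

/-- Radial kernels which are Lipschitz for the hyperbolic distance. -/
structure LKer (k : ℝ → ℂ) : Prop extends IsKer k where
  lip : ∃ L : ℝ, 0 ≤ L ∧ ∀ P Q Q' : H3, ‖k (cu P Q) - k (cu P Q')‖ ≤ L * √(cu Q Q' - 1)

theorem IsKer.exists_bound {k : ℝ → ℂ} (hk : IsKer k) : ∃ B : ℝ, 0 ≤ B ∧ ∀ t, 1 ≤ t → ‖k t‖ ≤ B := by
  obtain ⟨C, hC⟩ := hk.bdd
  obtain ⟨B, hB⟩ := (isCompact_Icc (a := (1 : ℝ)) (b := C)).exists_bound_of_continuousOn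
    hk.cont.continuousOn
  refine ⟨max B 0, le_max_right _ _, fun t ht => ?_⟩
  by_cases h : C ≤ t
  · rw [hC t h, norm_zero]; exact le_max_right _ _
  · exact (hB t ⟨ht, (not_le.1 h).le⟩).trans (le_max_left _ _)

/-- Lipschitz functions of `cu` of bounded support are `LKer`. -/
theorem lKer_of_lipschitz {k : ℝ → ℂ} {K : ℝ} (hK : ∀ s t, 1 ≤ s → 1 ≤ t → ‖k s - k t‖ ≤ K * |s - t|)
    (hk : IsKer k) : LKer k := by
  obtain ⟨B, hB0, hB⟩ := hk.exists_bound
  obtain ⟨C, hC⟩ := hk.bdd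
  set R := max C 1
  have hR : 1 ≤ R := le_max_right _ _
  have hK0 : 0 ≤ K := by
    have := hK 1 2 le_rfl (by norm_num)
    have h2 : |(1 : ℝ) - 2| = 1 := by norm_num
    rw [h2, mul_one] at this
    exact (norm_nonneg _).trans this
  have hC' : ∀ t, R ≤ t → k t = 0 := fun t ht => hC t ((le_max_left _ _).trans ht)
  refine ⟨hk, K * (100 * R) + 2 * B, by positivity, ?_⟩
  -- the main estimate under the hypothesis `cu P Q' ≤ R`
  have key : ∀ P Q Q' : H3, cu P Q' ≤ R →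
      ‖k (cu P Q) - k (cu P Q')‖ ≤ (K * (100 * R) + 2 * B) * √(cu Q Q' - 1) := by
    intro P Q Q' h
    have hs : 0 ≤ √(cu Q Q' - 1) := Real.sqrt_nonneg _
    by_cases hε : cu Q Q' - 1 ≤ 1
    · calc ‖k (cu P Q) - k (cu P Q')‖ ≤ K * |cu P Q - cu P Q'| := hK _ _ (one_le_cu _ _) (one_le_cu _ _)
        _ ≤ K * (100 * R * √(cu Q Q' - 1)) := by
            gcongr
            exact abs_cu_sub_le h hε
        _ ≤ (K * (100 * R) + 2 * B) * √(cu Q Q' - 1) := by
            have : 0 ≤ 2 * B * √(cu Q Q' - 1) := by positivity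
            nlinarith
    · have h1 : 1 ≤ √(cu Q Q' - 1) := by
        rw [Real.one_le_sqrt]
        exact (not_le.1 hε).le
      calc ‖k (cu P Q) - k (cu P Q')‖ ≤ ‖k (cu P Q)‖ + ‖k (cu P Q')‖ := norm_sub_le _ _
        _ ≤ B + B := add_le_add (hB _ (one_le_cu _ _)) (hB _ (one_le_cu _ _))
        _ = 2 * B * 1 := by ring
        _ ≤ 2 * B * √(cu Q Q' - 1) := by gcongr
        _ ≤ (K * (100 * R) + 2 * B) * √(cu Q Q' - 1) := by
            gcongr
            have : 0 ≤ K * (100 * R) := by positivity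
            linarith
  intro P Q Q'
  by_cases h : cu P Q' ≤ R
  · exact key P Q Q' h
  by_cases h' : cu P Q ≤ R
  · rw [norm_sub_rev, cu_comm Q Q']
    exact key P Q' Q h'
  · rw [hC' _ (not_le.1 h).le, hC' _ (not_le.1 h').le, sub_zero, norm_zero]
    positivity

/-- `LKer` is stable under convolution. -/
theorem LKer.comp {k₁ k₂ : ℝ → ℂ} (h₁ : LKer k₁) (h₂ : LKer k₂) : ∃ k, LKer k ∧
    abel k = cv (abel k₁) (abel k₂) ∧
    ∀ P Q : H3, ∫ W : H3, k₁ (cu P W) * k₂ (cu W Q) = k (cu P Q) := by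
  obtain ⟨k, hk, hab, hcomp⟩ := exists_comp h₁.toIsKer h₂.toIsKer
  refine ⟨k, ⟨hk, ?_⟩, hab, hcomp⟩
  obtain ⟨L, hL0, hL⟩ := h₂.lip
  obtain ⟨C, hC⟩ := h₁.bdd
  have hint : ∀ P : H3, Integrable fun W : H3 => k₁ (cu P W) := fun P =>
    integrable_of_support (h₁.cont.comp (continuous_cu_right P)) (isCompact_ball P C) fun W hW =>
      hC _ (not_le.1 hW).le
  have hmass : ∀ P : H3, ∫ W : H3, ‖k₁ (cu P W)‖ = ∫ W : H3, ‖k₁ (cu j W)‖ := fun P =>
    integral_radial_eq (fun t => ‖k₁ t‖) P j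
  have hint2 : ∀ P Q : H3, Integrable fun W : H3 => k₁ (cu P W) * k₂ (cu W Q) := fun P Q => by
    refine integrable_of_support ((h₁.cont.comp (continuous_cu_right P)).mul
      (h₂.cont.comp ?_)) (isCompact_ball P C) fun W hW => ?_
    · simp_rw [cu_comm _ Q]
      exact continuous_cu_right Q
    · rw [hC _ (not_le.1 hW).le, zero_mul]
  refine ⟨(∫ W : H3, ‖k₁ (cu j W)‖) * L, mul_nonneg (integral_nonneg fun _ => norm_nonneg _) hL0,
    fun P Q Q' => ?_⟩
  rw [← hcomp P Q, ← hcomp P Q', ← integral_sub (hint2 P Q) (hint2 P Q')]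
  calc ‖∫ W : H3, (k₁ (cu P W) * k₂ (cu W Q) - k₁ (cu P W) * k₂ (cu W Q'))‖
      ≤ ∫ W : H3, ‖k₁ (cu P W)‖ * (L * √(cu Q Q' - 1)) := by
        refine norm_integral_le_of_norm_le ((hint P).norm.mul_const _)
          (Filter.Eventually.of_forall fun W => ?_)
        rw [← mul_sub, norm_mul]
        exact mul_le_mul_of_nonneg_left (hL W Q Q') (norm_nonneg _)
    _ = (∫ W : H3, ‖k₁ (cu j W)‖) * L * √(cu Q Q' - 1) := by
        rw [integral_mul_const, hmass, mul_assoc]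

end H3

theorem norm_prod_sub_prod_le' {ι : Type*} (a b : ι → ℂ) {B : ℝ} (hB : 1 ≤ B) (s : Finset ι)
    (ha : ∀ i ∈ s, ‖a i‖ ≤ B) (hb : ∀ i ∈ s, ‖b i‖ ≤ B) :
    ‖∏ i ∈ s, a i - ∏ i ∈ s, b i‖ ≤ B ^ s.card * ∑ i ∈ s, ‖a i - b i‖ := by
  classical
  induction s using Finset.induction_on with
  | empty => simp
  | insert i s hi ih =>
    have ih' := ih (fun j hj => ha j (Finset.mem_insert_of_mem hj))
      (fun j hj => hb j (Finset.mem_insert_of_mem hj))
    have hB0 : 0 ≤ B := by linarith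
    rw [Finset.prod_insert hi, Finset.prod_insert hi, Finset.sum_insert hi,
      Finset.card_insert_of_notMem hi]
    have h1 : ‖∏ j ∈ s, a j‖ ≤ B ^ s.card := by
      rw [norm_prod]
      refine (Finset.prod_le_prod (fun _ _ => norm_nonneg _)
        (fun j hj => ha j (Finset.mem_insert_of_mem hj))).trans ?_
      rw [Finset.prod_const]
    have h2 := hb i (Finset.mem_insert_self _ _)
    have h3 : a i * ∏ j ∈ s, a j - b i * ∏ j ∈ s, b j =
        (a i - b i) * ∏ j ∈ s, a j + b i * (∏ j ∈ s, a j - ∏ j ∈ s, b j) := by ring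
    have h4 : B ^ s.card ≤ B ^ (s.card + 1) := pow_le_pow_right₀ hB (Nat.le_succ _)
    rw [h3]
    refine (norm_add_le _ _).trans ?_
    rw [norm_mul, norm_mul, mul_add]
    refine add_le_add ?_ ?_
    · rw [mul_comm]
      exact mul_le_mul_of_nonneg_right (h1.trans h4) (norm_nonneg _)
    · calc ‖b i‖ * ‖∏ j ∈ s, a j - ∏ j ∈ s, b j‖ ≤ B * (B ^ s.card * ∑ j ∈ s, ‖a j - b j‖) := by
            gcongr
        _ = B ^ (s.card + 1) * ∑ j ∈ s, ‖a j - b j‖ := by ring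

section Inst

variable {F : Type*} [Field F] [NumberField F]

omit [NumberField F] in
theorem cu_pt_pt {z z' : InfinitePlace F → ℂ} {y : InfinitePlace F → ℝ} (hy : ∀ w, 0 < y w)
    (w : InfinitePlace F) : √(cu (pt z y w) (pt z' y w) - 1) ≤ ‖z w - z' w‖ / y w := by
  have hw := hy w
  have h1 : cu (pt z y w) (pt z' y w) - 1 = ‖z w - z' w‖ ^ 2 / (2 * y w ^ 2) := by
    unfold cu
    rw [pt_z hy, pt_z hy, pt_y hy, pt_y hy, Complex.normSq_eq_norm_sq]
    field_simp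
    ring
  rw [h1]
  refine Real.sqrt_le_iff.2 ⟨by positivity, ?_⟩
  rw [div_pow]
  gcongr
  nlinarith [sq_nonneg (y w)]

omit [NumberField F] in
theorem measurable_evalXi (w : InfinitePlace F) : Measurable fun x : Xi F => x w :=
  @measurable_pi_apply (InfinitePlace F) (fun _ => H3) _ w

omit [NumberField F] in
theorem measurable_cuXi (w : InfinitePlace F) :
    Measurable fun p : Xi F × Xi F => cu (p.1 w) (p.2 w) := by
  have h1 : Measurable fun p : Xi F × Xi F => ((p.1 w : H3), (p.2 w : H3)) :=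
    ((measurable_evalXi w).comp measurable_fst).prodMk
      ((measurable_evalXi w).comp measurable_snd)
  have h2 : Measurable fun q : H3 × H3 => cu q.1 q.2 := continuous_cu.measurable
  have h3 := h2.comp h1
  exact h3

theorem measurable_pkXi {k : InfinitePlace F → ℝ → ℂ} (hk : ∀ w, Continuous (k w)) :
    Measurable (Function.uncurry fun x x' : Xi F => ∏ w, k w (cu (x w) (x' w))) := by
  have h : ∀ w ∈ (Finset.univ : Finset (InfinitePlace F)),
      Measurable fun p : Xi F × Xi F => k w (cu (p.1 w) (p.2 w)) := by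
    intro w _
    have h4 : Measurable (k w) := (hk w).measurable
    have h5 := h4.comp (measurable_cuXi (F := F) w)
    exact h5
  exact Finset.measurable_prod Finset.univ h

/-- Products of Lipschitz radial kernels are kernels of the type used in the growth step. -/
theorem LKer.hKer {k : InfinitePlace F → ℝ → ℂ} (hk : ∀ w, LKer (k w)) :
    ∃ R Λ, HKer (fun x x' : Xi F => ∏ w, k w (cu (x w) (x' w))) R Λ := by
  classical
  choose C hC using fun w => (hk w).bdd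
  choose B hB0 hB using fun w => (hk w).toIsKer.exists_bound
  choose L hL0 hL using fun w => (hk w).lip
  set R : ℝ := ∑ w, |C w| + 1 with hR
  set B' : ℝ := ∑ w, B w + 1 with hB'
  set L' : ℝ := ∑ w, L w with hL'
  have hR1 : 1 ≤ R := by
    have : 0 ≤ ∑ w, |C w| := Finset.sum_nonneg fun _ _ => abs_nonneg _
    linarith
  have hB1 : 1 ≤ B' := by
    have : 0 ≤ ∑ w, B w := Finset.sum_nonneg fun w _ => hB0 w
    linarith
  have hB'0 : 0 ≤ B' := by linarith
  have hL'0 : 0 ≤ L' := Finset.sum_nonneg fun w _ => hL0 w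
  have hCR : ∀ w, C w ≤ R := fun w => by
    have := Finset.single_le_sum (f := fun w => |C w|) (fun _ _ => abs_nonneg _) (Finset.mem_univ w)
    have h2 := le_abs_self (C w)
    linarith
  have hBB : ∀ w (P Q : H3), ‖k w (cu P Q)‖ ≤ B' := fun w P Q => by
    have h1 := hB w _ (one_le_cu P Q)
    have := Finset.single_le_sum (f := fun w => B w) (fun w _ => hB0 w) (Finset.mem_univ w)
    linarith
  have hkR : ∀ w (P Q : H3), k w (cu P Q) ≠ 0 → cu P Q ≤ R := fun w P Q h => by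
    by_contra hlt
    exact h (hC w _ ((hCR w).trans (not_le.1 hlt).le))
  set n := Fintype.card (InfinitePlace F)
  refine ⟨R, B' ^ n + B' ^ n * (L' * (2 * R)), ?_, ?_, ?_, ?_, ?_⟩
  · exact measurable_pkXi fun w => (hk w).cont
  · intro x x' h w
    exact hkR w _ _ (Finset.prod_ne_zero_iff.1 h w (Finset.mem_univ w))
  · intro x x'
    rw [norm_prod]
    refine (Finset.prod_le_prod (fun _ _ => norm_nonneg _) fun w _ => hBB w _ _).trans ?_
    rw [Finset.prod_const, Finset.card_univ]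
    have : 0 ≤ B' ^ n * (L' * (2 * R)) := by positivity
    linarith
  · intro b x x'
    refine Finset.prod_congr rfl fun w _ => ?_
    unfold tr
    rw [cu_smul]
  · intro x s hs hxs y hy z z'
    have hfirst := norm_prod_sub_prod_le' (fun w => k w (cu (x w) (pt z y w)))
      (fun w => k w (cu (x w) (pt z' y w))) hB1 Finset.univ (fun w _ => hBB w _ _)
      (fun w _ => hBB w _ _)
    rw [Finset.card_univ] at hfirst
    refine hfirst.trans ?_
    have hterm : ∀ w, ‖k w (cu (x w) (pt z y w)) - k w (cu (x w) (pt z' y w))‖ ≤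
        L w * ((2 * R) / s * ‖z - z'‖) := by
      intro w
      by_cases h : cu (x w) (pt z y w) ≤ R ∨ cu (x w) (pt z' y w) ≤ R
      · have hyw : s / (2 * R) ≤ y w := by
          have h1 : (x w).y ≤ 2 * R * y w := by
            rcases h with h | h
            · have := y_le_of_cu_le (by rw [cu_comm]; exact h : cu (pt z y w) (x w) ≤ R)
              rwa [pt_y hy] at this
            · have := y_le_of_cu_le (by rw [cu_comm]; exact h : cu (pt z' y w) (x w) ≤ R)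
              rwa [pt_y hy] at this
          rw [div_le_iff₀ (by positivity), mul_comm]
          exact (hxs w).trans h1
        refine (hL w _ _ _).trans ?_
        refine mul_le_mul_of_nonneg_left ((cu_pt_pt hy w).trans ?_) (hL0 w)
        have h2 : ‖z w - z' w‖ ≤ ‖z - z'‖ := norm_le_pi_norm (z - z') w
        calc ‖z w - z' w‖ / y w ≤ ‖z - z'‖ / (s / (2 * R)) := by gcongr
          _ = (2 * R) / s * ‖z - z'‖ := by field_simp
      · rw [not_or, not_le, not_le] at h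
        have h1 : k w (cu (x w) (pt z y w)) = 0 := hC w _ ((hCR w).trans h.1.le)
        have h2 : k w (cu (x w) (pt z' y w)) = 0 := hC w _ ((hCR w).trans h.2.le)
        rw [h1, h2, sub_zero, norm_zero]
        have := hL0 w
        positivity
    have hsum : ∑ w, ‖k w (cu (x w) (pt z y w)) - k w (cu (x w) (pt z' y w))‖ ≤
        L' * ((2 * R) / s * ‖z - z'‖) := by
      rw [hL', Finset.sum_mul]
      exact Finset.sum_le_sum fun w _ => hterm w
    have hBn : 0 ≤ B' ^ n := by positivity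
    calc B' ^ n * ∑ w, ‖k w (cu (x w) (pt z y w)) - k w (cu (x w) (pt z' y w))‖
        ≤ B' ^ n * (L' * ((2 * R) / s * ‖z - z'‖)) := by gcongr
      _ = B' ^ n * (L' * (2 * R)) / s * ‖z - z'‖ := by ring
      _ ≤ (B' ^ n + B' ^ n * (L' * (2 * R))) / s * ‖z - z'‖ := by
          gcongr
          linarith

end Inst

end Fermat.Agent.LT
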