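import Fermat.Agent.LT.Red.Growth
import Fermat.Agent.LT.Red.OpK
import Fermat.Agent.LT.Red.Local

/-!
# Kernel operators preserve cuspidality
-/

namespace Fermat.Agent.LT

open Matrix NumberField MeasureTheory H3 Module Set
open scoped Pointwise ENNReal

section Shift

variable {F : Type*} [Field F] [NumberField F] [IsTotallyComplex F]

/-- The integral of a periodic function over a fundamental domain is invariant under translation. -/
theorem setIntegral_fdom_add {m : ℕ} (hm : m ≠ 0) {E : Type*} [NormedAddCommGroup E]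
    [NormedSpace ℝ E] {g : (InfinitePlace F → ℂ) → E}
    (hg : ∀ (ξ : mLat F hm) (z : InfinitePlace F → ℂ),
      g ((ξ : InfinitePlace F → ℂ) + z) = g z) (b : InfinitePlace F → ℂ) :
    ∫ z in fdom F m, g (b + z) = ∫ z in fdom F m, g z := by
  rw [fdom_eq hm]
  have : MeasurableVAdd (mLat F hm) (InfinitePlace F → ℂ) :=
    (inferInstance : MeasurableVAdd (mLat F hm).toAddSubgroup (InfinitePlace F → ℂ))
  have : VAddInvariantMeasure (mLat F hm) (InfinitePlace F → ℂ) volume :=
    (inferInstance : VAddInvariantMeasure (mLat F hm).toAddSubgroup (InfinitePlace F → ℂ) volume)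
  have h1 : IsAddFundamentalDomain (mLat F hm) (ZSpan.fundamentalDomain (mBasis F hm))
      (volume : Measure (InfinitePlace F → ℂ)) := ZSpan.isAddFundamentalDomain (mBasis F hm) volume
  have h2 : IsAddFundamentalDomain (mLat F hm) (b +ᵥ ZSpan.fundamentalDomain (mBasis F hm))
      (volume : Measure (InfinitePlace F → ℂ)) := h1.vadd_of_comm b
  have h3 := h1.setIntegral_eq h2 (f := g) fun ξ z => hg ξ z
  rw [h3]
  have h4 : MeasurePreserving (fun z : InfinitePlace F → ℂ => b + z) volume volume :=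
    measurePreserving_add_left volume b
  have h5 : MeasurableEmbedding (fun z : InfinitePlace F → ℂ => b + z) :=
    measurableEmbedding_addLeft b
  have h6 := h4.setIntegral_image_emb h5 g (ZSpan.fundamentalDomain (mBasis F hm))
  exact h6.symm

end Shift

section Tr

variable {F : Type*} [Field F] [NumberField F]

theorem measurePreserving_tr (b : InfinitePlace F → ℂ) :
    MeasurePreserving (tr b) (volume : Measure (Xi F)) volume :=
  volume_preserving_pi (ι := InfinitePlace F) (α' := fun _ => H3) (β' := fun _ => H3)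
    fun w => H3.measurePreserving_smul' (nb (b w))

omit [NumberField F] in
theorem tr_neg_tr (b : InfinitePlace F → ℂ) (x : Xi F) : tr (-b) (tr b x) = x := by
  funext w
  change nb (-(b w)) • (nb (b w) • x w) = x w
  rw [nb_neg, inv_smul_smul]

omit [NumberField F] in
theorem tr_tr_neg (b : InfinitePlace F → ℂ) (x : Xi F) : tr b (tr (-b) x) = x := by
  have h := tr_neg_tr (-b) x
  rwa [neg_neg] at h

omit [NumberField F] in
theorem measurable_tr :
    Measurable fun p : (InfinitePlace F → ℂ) × Xi F => tr p.1 p.2 := by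
  have h : ∀ w, Measurable fun p : (InfinitePlace F → ℂ) × Xi F => nb (p.1 w) • (p.2 w : H3) := by
    intro w
    rw [H3.measurable_iff]
    have h1 : Measurable fun p : (InfinitePlace F → ℂ) × Xi F => p.1 w :=
      (measurable_pi_apply w).comp measurable_fst
    have h2 : Measurable fun p : (InfinitePlace F → ℂ) × Xi F => (p.2 w : H3) :=
      (measurable_pi_apply (X := fun _ : InfinitePlace F => H3) w).comp measurable_snd
    constructor
    · simp_rw [nb_smul_z]
      exact (H3.measurable_z.comp h2).add h1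
    · simp_rw [nb_smul_y]
      exact H3.measurable_y.comp h2
  exact measurable_pi_lambda _ h

theorem measurableEmbedding_tr (b : InfinitePlace F → ℂ) :
    MeasurableEmbedding (tr b : Xi F → Xi F) := by
  have h : ∀ b : InfinitePlace F → ℂ, Measurable fun x : Xi F => tr b x := fun b =>
    (measurePreserving_tr b).measurable
  let e0 : Xi F ≃ Xi F := Equiv.mk (tr b) (tr (-b)) (tr_neg_tr b) (tr_tr_neg b)
  let e : Xi F ≃ᵐ Xi F := MeasurableEquiv.mk e0 (h b) (h (-b))
  exact e.measurableEmbedding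

end Tr

section Main

variable {F : Type*} [Field F] [NumberField F] [IsTotallyComplex F] {D : Type*}
  [MeasurableSpace D] [MulAction (GL (Fin 2) F) D]

/-- Kernels preserve cuspidality (no Lipschitz condition). -/
theorem IsCusp.opK_of {κ : Xi F → Xi F → ℂ} {R Λ : ℝ} (hmeas : Measurable (Function.uncurry κ))
    (hsupp : ∀ x x', κ x x' ≠ 0 → ∀ w, cu (x w) (x' w) ≤ R) (hbdd : ∀ x x', ‖κ x x'‖ ≤ Λ)
    (htrans : ∀ (b : InfinitePlace F → ℂ) x x', κ (tr b x) (tr b x') = κ x x')
    {f : Xi F × D → ℂ}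
    (hf : Measurable f) (hinv : ∀ (g : GL (Fin 2) F) z, f (g • z) = f z) (hcusp : IsCusp f)
    (hl : ∀ d, LocallyIntegrable fun x => f (x, d)) : IsCusp (LT.opK κ f) := by
  intro d m hm hd
  refine Filter.Eventually.of_forall fun y hy => ?_
  set x0 : Xi F := pt 0 y with hx0
  have hfd : Measurable fun x => f (x, d) := hf.comp measurable_prodMk_right
  have hstep : ∀ z, LT.opK κ f (pt z y, d) = ∫ x', κ x0 x' * f (tr z x', d) := by
    intro z
    have h1 : pt z y = tr z x0 := by rw [hx0, tr_pt _ _ hy, zero_add]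
    rw [opK_apply, h1, ← (measurePreserving_tr z).integral_comp (measurableEmbedding_tr z)]
    simp_rw [htrans]
  simp_rw [hstep]
  -- integrability on the product
  have hmeas' : Measurable fun p : (InfinitePlace F → ℂ) × Xi F => κ x0 p.2 * f (tr p.1 p.2, d) := by
    have h1 : Measurable fun x' => κ x0 x' := hmeas.comp measurable_prodMk_left
    exact (h1.comp measurable_snd).mul (hfd.comp measurable_tr)
  obtain ⟨δ, hδ⟩ := (isBounded_fdom (F := F) m).exists_norm_le
  set S : ℝ := ∑ w, (δ ^ 2 / (2 * y w ^ 2)) + 1 with hS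
  have hSb : ∀ z ∈ fdom F m, tr z x0 ∈ Red.xball S x0 := by
    intro z hz w
    have h1 : tr z x0 = pt z y := by rw [hx0, tr_pt _ _ hy, zero_add]
    rw [h1, hx0]
    have hyw := hy w
    have h2 : cu (pt 0 y w) (pt z y w) = ‖z w‖ ^ 2 / (2 * y w ^ 2) + 1 := by
      unfold cu
      rw [pt_z hy, pt_z hy, pt_y hy, pt_y hy, Complex.normSq_eq_norm_sq, Pi.zero_apply, zero_sub,
        norm_neg]
      field_simp
      ring
    rw [h2, hS]
    have h3 : ‖z w‖ ≤ δ := (norm_le_pi_norm z w).trans (hδ z hz)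
    have h4 : ‖z w‖ ^ 2 / (2 * y w ^ 2) ≤ δ ^ 2 / (2 * y w ^ 2) := by gcongr
    have h5 := Finset.single_le_sum (f := fun w => δ ^ 2 / (2 * y w ^ 2))
      (fun w _ => by have := hy w; positivity) (Finset.mem_univ w)
    linarith
  have hbd : ∀ z ∈ fdom F m, ∫⁻ x', ‖κ x0 x' * f (tr z x', d)‖ₑ ≤
      ENNReal.ofReal Λ * ∫⁻ x' in Red.xball (12 * (S * R)) x0, ‖f (x', d)‖ₑ := by
    intro z hz
    have h1 : ∫⁻ x', ‖κ x0 x' * f (tr z x', d)‖ₑ = ∫⁻ x', ‖κ (tr z x0) x' * f (x', d)‖ₑ := by
      rw [← (measurePreserving_tr z).lintegral_comp_emb (measurableEmbedding_tr z)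
        fun x' => ‖κ (tr z x0) x' * f (x', d)‖ₑ]
      simp_rw [htrans]
    rw [h1]
    have h2 : ∀ x', ‖κ (tr z x0) x' * f (x', d)‖ₑ ≤
        (Red.xball (12 * (S * R)) x0).indicator (fun x' => ENNReal.ofReal Λ * ‖f (x', d)‖ₑ) x' := by
      intro x'
      by_cases hx : x' ∈ Red.xball (12 * (S * R)) x0
      · rw [Set.indicator_of_mem hx, enorm_mul]
        refine mul_le_mul_left ?_ _
        rw [← ofReal_norm]
        exact ENNReal.ofReal_le_ofReal (hbdd _ _)
      · have : κ (tr z x0) x' = 0 := by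
          by_contra h0
          exact hx (Red.xball_subset (hSb z hz) (hsupp _ _ h0))
        rw [this, zero_mul, enorm_zero]
        exact zero_le
    refine (lintegral_mono h2).trans ?_
    rw [lintegral_indicator (Red.measurableSet_xball _ x0)]
    exact (lintegral_const_mul' _ _ ENNReal.ofReal_ne_top).le
  have hfin : ENNReal.ofReal Λ * ∫⁻ x' in Red.xball (12 * (S * R)) x0, ‖f (x', d)‖ₑ < ∞ := by
    refine ENNReal.mul_lt_top ENNReal.ofReal_lt_top ?_
    exact ((hl d).integrableOn_isCompact (Red.isCompact_xball _ x0)).2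
  have hvol : (volume : Measure (InfinitePlace F → ℂ)) (fdom F m) < ∞ :=
    (isBounded_fdom m).measure_lt_top
  have hint : Integrable (Function.uncurry fun (z : InfinitePlace F → ℂ) (x' : Xi F) =>
      κ x0 x' * f (tr z x', d)) ((volume.restrict (fdom F m)).prod volume) := by
    refine ⟨hmeas'.aestronglyMeasurable, ?_⟩
    change ∫⁻ p, ‖κ x0 p.2 * f (tr p.1 p.2, d)‖ₑ ∂((volume.restrict (fdom F m)).prod volume) < ∞
    rw [lintegral_prod _ hmeas'.enorm.aemeasurable]
    refine (setLIntegral_mono' (measurableSet_fdom m) (g := fun _ => ENNReal.ofReal Λ *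
      ∫⁻ x' in Red.xball (12 * (S * R)) x0, ‖f (x', d)‖ₑ) fun z hz => hbd z hz).trans_lt ?_
    rw [setLIntegral_const]
    exact ENNReal.mul_lt_top hfin hvol
  rw [integral_integral_swap hint]
  simp_rw [integral_const_mul]
  by_cases hI : Integrable fun x' : Xi F => κ x0 x' * ∫ z in fdom F m, f (tr z x', d)
  swap
  · exact integral_undef hI
  rw [integral_Xi hI]
  refine integral_eq_zero_of_ae ?_
  filter_upwards [ae_nuF (hcusp d m hm hd), ae_nuF_pos F] with y' h1 h2
  have h3 : ∀ z' : InfinitePlace F → ℂ, ∫ z in fdom F m, f (tr z (pt z' y'), d) = 0 := by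
    intro z'
    simp_rw [tr_pt _ _ h2]
    rw [setIntegral_fdom_add hm (g := fun z => f (pt z y', d))
      (fun ξ z => periodic_of_inv hinv hm hd h2 ξ z) z']
    exact h1
  simp_rw [h3, mul_zero]
  simp

/-- Kernels preserve cuspidality. -/
theorem IsCusp.opK {κ : Xi F → Xi F → ℂ} {R Λ : ℝ} (hκ : HKer κ R Λ) {f : Xi F × D → ℂ}
    (hf : Measurable f) (hinv : ∀ (g : GL (Fin 2) F) z, f (g • z) = f z) (hcusp : IsCusp f)
    (hl : ∀ d, LocallyIntegrable fun x => f (x, d)) : IsCusp (LT.opK κ f) :=
  IsCusp.opK_of hκ.meas hκ.supp hκ.bdd hκ.trans hf hinv hcusp hl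

end Main

end Fermat.Agent.LT
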