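import Fermat.Agent.LT.Red.KerInst
import Fermat.Agent.LT.Red.CuspKer
import Fermat.Agent.LT.Red.Eigen

/-!
# Products of Lipschitz radial kernels satisfy `IsCKer` (S47A, block B3)
-/

set_option autoImplicit false

open NumberField MeasureTheory ENNReal Filter Module
open Fermat.Agent.LT.H3

noncomputable section

namespace Fermat.Agent.LT.Red

variable {F : Type*} [Field F] [NumberField F] [IsTotallyComplex F]
variable {D : Type*} [MulAction (GL (Fin 2) F) D] [IsLevel F D]

/-- An invariant kernel of type `HKer` is a kernel for `(C3)`, `(C4)`. -/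
theorem isCKer_of_hKer [MeasurableSpace D] [DiscreteMeasurableSpace D] [Countable D]
    {κ : Xi F → Xi F → ℂ} {R Λ : ℝ} (hκ : HKer κ R Λ)
    (hinv : ∀ (g : GL (Fin 2) F) x x', κ (g • x) (g • x') = κ x x') : IsCKer F D κ :=
  isCKer_of hκ hinv fun _ hf hi hc hl => IsCusp.opK hκ hf hi hc hl

/-- **The kernels of `(C3)`, `(C4)`**: products of Lipschitz radial kernels. -/
theorem isCKer_pk [MeasurableSpace D] [DiscreteMeasurableSpace D] [Countable D]
    {k : InfinitePlace F → ℝ → ℂ} (hk : ∀ w, LKer (k w)) :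
    IsCKer F D fun x x' => ∏ w, k w (cu (x w) (x' w)) := by
  obtain ⟨R, Λ, hκ⟩ := LKer.hKer hk
  refine isCKer_of_hKer hκ fun g x x' => Finset.prod_congr rfl fun w _ => ?_
  rw [Xi.smul_apply, Xi.smul_apply, cu_smul]

end Fermat.Agent.LT.Red
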