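import Fermat.Agent.LT.CT

/-!
# Iterated integrals on `X_∞ = ∏ ℍ₃`

`nuF F` is the measure `∏ dy_w / y_w³` on `(0, ∞)ⁿ ⊆ ℝⁿ`; the map `(z, y) ↦ pt z y` is measure
preserving from `dz × nuF` to `X_∞`.
-/

namespace Fermat.Agent.LT

open Matrix NumberField MeasureTheory H3 ENNReal Set

section AC

variable {α : Type*} [MeasurableSpace α] {μ ν : Measure α} [SigmaFinite μ] [SigmaFinite ν]

theorem pi_ac_fin (h : μ ≪ ν) : ∀ n : ℕ,
    Measure.pi (fun _ : Fin n => μ) ≪ Measure.pi (fun _ : Fin n => ν)
  | 0 => by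
    rw [Measure.pi_of_empty, Measure.pi_of_empty]
  | n + 1 => by
    have ih := pi_ac_fin h n
    have e1 := (measurePreserving_piFinSuccAbove (fun _ : Fin (n + 1) => μ) 0).symm
    have e2 := (measurePreserving_piFinSuccAbove (fun _ : Fin (n + 1) => ν) 0).symm
    rw [← e1.map_eq, ← e2.map_eq]
    exact (h.prod ih).map e1.measurable

theorem pi_ac {ι : Type*} [Fintype ι] (h : μ ≪ ν) :
    Measure.pi (fun _ : ι => μ) ≪ Measure.pi (fun _ : ι => ν) := by
  let e := (Fintype.equivFin ι).symm
  have e1 := measurePreserving_piCongrLeft (fun _ : ι => μ) e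
  have e2 := measurePreserving_piCongrLeft (fun _ : ι => ν) e
  rw [← e1.map_eq, ← e2.map_eq]
  exact (pi_ac_fin h _).map e1.measurable

end AC

/-- The measure `dy / y³` on `(0, ∞)`. -/
noncomputable def nu1 : Measure ℝ :=
  (volume.restrict (Ioi 0)).withDensity fun y => ENNReal.ofReal (y ^ 3)⁻¹

instance : SigmaFinite nu1 := by
  unfold nu1
  exact SigmaFinite.withDensity_of_ne_top (Filter.Eventually.of_forall fun _ => ENNReal.ofReal_ne_top)

theorem nu1_ac : nu1 ≪ (volume : Measure ℝ) :=
  (withDensity_absolutelyContinuous _ _).trans Measure.restrict_le_self.absolutelyContinuous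

theorem measurePreserving_ofPair :
    MeasurePreserving ofPair ((volume : Measure ℂ).prod nu1) (volume : Measure H3) := by
  refine ⟨measurable_ofPair, ?_⟩
  ext s hs
  rw [Measure.map_apply measurable_ofPair hs, ← lintegral_indicator_one (measurable_ofPair hs),
    ← lintegral_indicator_one hs]
  have h1 : Measurable (s.indicator (1 : H3 → ℝ≥0∞)) := measurable_one.indicator hs
  have h2 : ∀ p : ℂ × ℝ, (ofPair ⁻¹' s).indicator (1 : ℂ × ℝ → ℝ≥0∞) p =
      s.indicator (1 : H3 → ℝ≥0∞) (ofPair p) := fun p => rfl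
  simp_rw [h2]
  have h3 : Measurable fun p : ℂ × ℝ => s.indicator (1 : H3 → ℝ≥0∞) (ofPair p) :=
    h1.comp measurable_ofPair
  rw [lintegral_prod_symm _ h3.aemeasurable, lintegral_eq_iterated h1]
  unfold nu1
  rw [lintegral_withDensity_eq_lintegral_mul]
  · rfl
  · exact ENNReal.measurable_ofReal.comp (measurable_id.pow_const 3).inv
  · exact Measurable.lintegral_prod_left' h3

section XiF

variable (F : Type*) [Field F] [NumberField F]

/-- The measure `∏ dy_w / y_w³` on `(0, ∞)ⁿ`. -/
noncomputable def nuF : Measure (InfinitePlace F → ℝ) := Measure.pi fun _ => nu1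

instance : SigmaFinite (nuF F) := by
  unfold nuF; infer_instance

theorem nuF_ac : nuF F ≪ volume := pi_ac nu1_ac

theorem measurePreserving_pt :
    MeasurePreserving (fun p : (InfinitePlace F → ℂ) × (InfinitePlace F → ℝ) => pt p.1 p.2)
      (volume.prod (nuF F)) (volume : Measure (Xi F)) := by
  have h1 := (measurePreserving_arrowProdEquivProdArrow ℂ ℝ (InfinitePlace F)
    (fun _ => volume) (fun _ => nu1)).symm
  have h2 := measurePreserving_pi (ι := InfinitePlace F) (fun _ => (volume : Measure ℂ).prod nu1)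
    (fun _ => (volume : Measure H3)) fun _ => measurePreserving_ofPair
  exact h2.comp h1

theorem ae_nuF_pos : ∀ᵐ y ∂(nuF F), ∀ w, 0 < y w := by
  have h1 : ∀ᵐ y ∂nu1, 0 < y := by
    refine (withDensity_absolutelyContinuous _ _).ae_le ?_
    exact ae_restrict_mem measurableSet_Ioi
  rw [ae_all_iff]
  intro w
  exact Measure.tendsto_eval_ae_ae.eventually h1

variable {F}

theorem ae_nuF {P : (InfinitePlace F → ℝ) → Prop} (h : ∀ᵐ y, (∀ w, 0 < y w) → P y) :
    ∀ᵐ y ∂(nuF F), P y := by
  filter_upwards [(nuF_ac F).ae_le h, ae_nuF_pos F] with y h1 h2 using h1 h2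

/-- Iterated integral over `X_∞`. -/
theorem integral_Xi {E : Type*} [NormedAddCommGroup E] [NormedSpace ℝ E] {f : Xi F → E}
    (hf : Integrable f) : ∫ x, f x = ∫ y, ∫ z, f (pt z y) ∂(volume : Measure _) ∂(nuF F) := by
  have h := measurePreserving_pt F
  have h1 : Integrable (fun p : (InfinitePlace F → ℂ) × (InfinitePlace F → ℝ) => f (pt p.1 p.2))
      (volume.prod (nuF F)) := h.integrable_comp_of_integrable hf
  rw [← h.map_eq, integral_map h.measurable.aemeasurable (by rw [h.map_eq]; exact hf.1)]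
  exact integral_prod_symm _ h1

theorem integrable_Xi {E : Type*} [NormedAddCommGroup E] [NormedSpace ℝ E] {f : Xi F → E}
    (hf : Integrable f) : Integrable (fun p : (InfinitePlace F → ℂ) × (InfinitePlace F → ℝ) =>
      f (pt p.1 p.2)) (volume.prod (nuF F)) :=
  (measurePreserving_pt F).integrable_comp_of_integrable hf

theorem lintegral_Xi {f : Xi F → ℝ≥0∞} (hf : Measurable f) :
    ∫⁻ x, f x = ∫⁻ y, ∫⁻ z, f (pt z y) ∂(volume : Measure _) ∂(nuF F) := by
  have h := measurePreserving_pt F
  rw [← h.map_eq, lintegral_map hf h.measurable]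
  exact lintegral_prod_symm _ (hf.comp h.measurable).aemeasurable

end XiF

end Fermat.Agent.LT
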